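/-
T4E-P6 CHARTS (helper2), file 1: **the chart presentation of a vertical layer** (generic level `i`,
abstract unramified DVR level `(L, O, π, k)`, abstract layer `Y : T4eLayer O π hπ N'' q i`).

* `Y.ver = {Y.V w | w ≤ i}` : the vertical valuation rings, with `t4ec_ver_finite`, `t4ec_ver_dvr`,
  `t4ec_ver_q` (`q` is a non-unit: `q = ϖ ^ φ(q^c) · unit`), `t4ec_mem_Ov_iff`;
* `t4ec_tr` : **(tr)** primitive polynomials (coefficients in `O`) in a coordinate `y` whose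
  reductions `ρ_w y`, `w ≤ i`, are transcendental over `k` are units at all vertical valuations;
* `T4ecHyp Y y` (hypotheses on a chart coordinate), `T4ecCrt Y` (the Chinese remainder theorem for the
  vertical valuations), `t4ecData`, **`t4ecPres Y Hy hcrt : T4Pres F_i`** = the presentation of the
  chart ring `IntCl(L[y]) ∩ 𝒪_i`, with the dictionaries `t4ecPres_vals`, `t4ecPres_vert`,
  `mem_t4ecPres_B`, `mem_t4ecPres_ov`.
-/
import Fermat.Agent.Lib.T4E.Tower.Defs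
import Fermat.Agent.Lib.T4.Inst.PresChart

set_option autoImplicit false
set_option linter.unusedSectionVars false
set_option linter.unusedVariables false
set_option linter.style.haveILetI false

open HahnSeries ModularCurve Fermat.Agent.T1 Fermat.Agent.T2 IntermediateField

noncomputable section

namespace Fermat.Agent.T4

section Layer

variable {L : Type} [Field L] [Algebra ℚ L] {O : ValuationSubring L} {k : Type*} [Field k]
  {π : ↥O →+* k} [IsDiscreteValuationRing ↥O] {hπ : Function.Surjective π}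
  {N'' q : ℕ} [NeZero N''] [NeZero q] {i : ℕ} (Y : T4eLayer O π hπ N'' q i)

/-- the vertical valuation rings of the layer -/
def T4eLayer.ver : Set (ValuationSubring ↥(TaF L (t4eLev N'' q i))) :=
  {V | ∃ w ≤ i, V = Y.V w}

theorem T4eLayer.mem_ver {V : ValuationSubring ↥(TaF L (t4eLev N'' q i))} :
    V ∈ Y.ver ↔ ∃ w ≤ i, V = Y.V w := Iff.rfl

theorem T4eLayer.V_mem_ver {w : ℕ} (hw : w ≤ i) : Y.V w ∈ Y.ver := ⟨w, hw, rfl⟩

theorem t4ec_ver_finite : Y.ver.Finite := by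
  have h : Y.ver ⊆ (fun w => Y.V w) '' (↑(Finset.range (i + 1)) : Set ℕ) := by
    rintro V ⟨w, hw, rfl⟩
    exact ⟨w, Finset.mem_coe.2 (Finset.mem_range.2 (by omega)), rfl⟩
  exact ((Finset.finite_toSet _).image _).subset h

theorem t4ec_ver_dvr : ∀ V ∈ Y.ver, IsDiscreteValuationRing ↥V := by
  rintro V ⟨w, hw, rfl⟩
  exact Y.dvr w hw

/-- the multiplicities are positive -/
theorem t4eMult_pos (i a : ℕ) : 0 < t4eMult q i a :=
  Nat.totient_pos.2 (Nat.pos_of_ne_zero (pow_ne_zero _ (NeZero.ne q)))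

/-- `q` is a non-unit of the vertical valuation rings -/
theorem t4ec_V_q {w : ℕ} (hw : w ≤ i) :
    (Y.V w).valuation (algebraMap L ↥(TaF L (t4eLev N'' q i)) ((q : ℕ) : L)) < 1 := by
  obtain ⟨u, hu, hqu⟩ := Y.q_eq w hw
  rw [map_natCast, hqu, map_mul, hu, mul_one, map_pow]
  exact pow_lt_one₀ zero_le (Y.ϖ_lt w hw) (t4eMult_pos i w).ne'

theorem t4ec_ver_q : ∀ V ∈ Y.ver,
    V.valuation (algebraMap L ↥(TaF L (t4eLev N'' q i)) ((q : ℕ) : L)) < 1 := by
  rintro V ⟨w, hw, rfl⟩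
  exact t4ec_V_q Y hw

/-- `𝒪_i` is the intersection of the vertical valuation rings -/
theorem t4ec_mem_Ov_iff (f : ↥(TaF L (t4eLev N'' q i))) : f ∈ Y.Ov ↔ ∀ V ∈ Y.ver, f ∈ V := by
  constructor
  · rintro h V ⟨w, hw, rfl⟩
    exact h w hw
  · intro h w hw
    exact h _ (Y.V_mem_ver hw)

theorem T4eLayer.mem_Ov {f : ↥(TaF L (t4eLev N'' q i))} : f ∈ Y.Ov ↔ ∀ w ≤ i, f ∈ Y.V w :=
  Iff.rfl

/-- the constants of `O`, as a ring homomorphism into `V w` -/
def t4ecConst {w : ℕ} (hw : w ≤ i) : ↥O →+* ↥(Y.V w) :=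
  ((algebraMap L ↥(TaF L (t4eLev N'' q i))).comp O.subtype).codRestrict (Y.V w).toSubring
    (fun c => Y.const_mem w hw c)

theorem coe_t4ecConst {w : ℕ} (hw : w ≤ i) (c : ↥O) :
    ((t4ecConst Y hw c : ↥(Y.V w)) : ↥(TaF L (t4eLev N'' q i))) =
      algebraMap L ↥(TaF L (t4eLev N'' q i)) (c : L) := rfl

theorem t4ec_ρ_comp_const {w : ℕ} (hw : w ≤ i) :
    (Y.ρ w).comp (t4ecConst Y hw) = (HahnSeries.C : k →+* LaurentSeries k).comp π := by
  ext1 c
  exact Y.ρ_const w hw c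

/-- units of `V w` are the elements with nonzero reduction -/
theorem t4ec_valuation_eq_one {w : ℕ} (hw : w ≤ i) (x : ↥(Y.V w)) (hx : Y.ρ w x ≠ 0) :
    (Y.V w).valuation ((x : ↥(Y.V w)) : ↥(TaF L (t4eLev N'' q i))) = 1 := by
  have h1 : (Y.V w).valuation ((x : ↥(Y.V w)) : ↥(TaF L (t4eLev N'' q i))) ≤ 1 :=
    ((Y.V w).valuation_le_one_iff _).2 x.2
  rcases lt_or_eq_of_le h1 with h | h
  · exact absurd ((Y.ρ_eq_zero w hw x).2 h) hx
  · exact h

/-- **(tr) at one vertical valuation**: if `y ∈ V w` has a reduction transcendental over `k`, every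
primitive polynomial in `y` with `O`-coefficients is a unit of `V w` -/
theorem t4ec_tr_one {w : ℕ} (hw : w ≤ i) (y : ↥(TaF L (t4eLev N'' q i))) (hy : y ∈ Y.V w)
    (ht : Transcendental k (Y.ρ w ⟨y, hy⟩))
    (P : Polynomial L) (hP : ∀ n, P.coeff n ∈ O) (hu : ∃ n, O.valuation (P.coeff n) = 1) :
    (Y.V w).valuation (Polynomial.aeval y P) = 1 := by
  classical
  have hc : (↑P.coeffs : Set L) ⊆ ↑O.toSubring := by
    intro c hc
    obtain ⟨n, -, rfl⟩ := Polynomial.mem_coeffs_iff.mp (Finset.mem_coe.mp hc)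
    exact hP n
  set P₀ : Polynomial ↥O := P.toSubring O.toSubring hc with hP₀
  have hP₀map : P₀.map O.subtype = P := Polynomial.map_toSubring P O.toSubring hc
  have hP₀coeff : ∀ n, ((P₀.coeff n : ↥O) : L) = P.coeff n := fun n =>
    Polynomial.coeff_toSubring P O.toSubring hc
  set z : ↥(Y.V w) := Polynomial.eval₂ (t4ecConst Y hw) ⟨y, hy⟩ P₀ with hz
  have h1 : ((z : ↥(Y.V w)) : ↥(TaF L (t4eLev N'' q i))) = Polynomial.aeval y P := by
    have h := Polynomial.hom_eval₂ P₀ (t4ecConst Y hw) (Y.V w).subtype ⟨y, hy⟩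
    rw [Polynomial.aeval_def, ← hP₀map, Polynomial.eval₂_map]
    exact h
  have h2 : Y.ρ w z =
      Polynomial.eval₂ ((HahnSeries.C : k →+* LaurentSeries k).comp π) (Y.ρ w ⟨y, hy⟩) P₀ := by
    have h := Polynomial.hom_eval₂ P₀ (t4ecConst Y hw) (Y.ρ w) ⟨y, hy⟩
    rw [t4ec_ρ_comp_const] at h
    exact h
  have h3 : P₀.map π ≠ 0 := by
    obtain ⟨n, hn⟩ := hu
    intro h0
    have h4 := congrArg (fun p => Polynomial.coeff p n) h0
    simp only [Polynomial.coeff_map, Polynomial.coeff_zero] at h4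
    have h5 : IsUnit (P₀.coeff n) := by
      apply (ValuationSubring.valuation_eq_one_iff O (P₀.coeff n)).mpr
      rw [hP₀coeff]
      exact hn
    exact (h5.map π).ne_zero h4
  have h4 : Y.ρ w z ≠ 0 := by
    rw [h2]
    intro h0
    apply h3
    apply (transcendental_iff.mp ht)
    rw [Polynomial.aeval_def, Polynomial.eval₂_map, ta_algebraMap_eq_C]
    exact h0
  rw [← h1]
  exact t4ec_valuation_eq_one Y hw z h4

/-! ### The chart presentations -/

/-- the hypotheses on a chart coordinate `y`: a generator of `F_i / L` which is integral at all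
vertical valuations with reductions transcendental over `k` -/
structure T4ecHyp (y : ↥(TaF L (t4eLev N'' q i))) : Prop where
  gen : Fermat.Agent.Curve.IsFunctionFieldGen L ↥(TaF L (t4eLev N'' q i)) y
  mem : ∀ w ≤ i, y ∈ Y.V w
  tr : ∀ w (hw : w ≤ i), Transcendental k (Y.ρ w ⟨y, mem w hw⟩)

/-- the Chinese remainder theorem for the vertical valuations of the layer -/
def T4ecCrt : Prop :=
  ∀ V ∈ Y.ver, ∀ n : ℕ, ∃ e : ↥(TaF L (t4eLev N'' q i)),
    (∀ V' ∈ Y.ver, e ∈ V') ∧ V.valuation e = 1 ∧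
    ∀ V' ∈ Y.ver, V' ≠ V →
      V'.valuation e ≤ V'.valuation (algebraMap L ↥(TaF L (t4eLev N'' q i)) ((q : ℕ) : L)) ^ n

variable {Y}

/-- **(tr)** for a chart coordinate -/
theorem t4ec_tr {y : ↥(TaF L (t4eLev N'' q i))} (Hy : T4ecHyp Y y)
    (P : Polynomial L) (hP : ∀ n, P.coeff n ∈ O) (hu : ∃ n, O.valuation (P.coeff n) = 1) :
    ∀ V ∈ Y.ver, V.valuation (Polynomial.aeval y P) = 1 := by
  rintro V ⟨w, hw, rfl⟩
  exact t4ec_tr_one Y hw y (Hy.mem w hw) (Hy.tr w hw) P hP hu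

theorem T4ecHyp.isSeparable {y : ↥(TaF L (t4eLev N'' q i))} (Hy : T4ecHyp Y y) :
    Algebra.IsSeparable ↥L⟮y⟯ ↥(TaF L (t4eLev N'' q i)) := by
  haveI := Hy.gen.finite
  haveI : CharZero L := algebraRat.charZero L
  exact Algebra.IsAlgebraic.isSeparable_of_perfectField

theorem T4ecHyp.mem_Ov {y : ↥(TaF L (t4eLev N'' q i))} (Hy : T4ecHyp Y y) : y ∈ Y.Ov :=
  fun w hw => Hy.mem w hw

variable (hqO : Irreducible ((q : ℕ) : ↥O))

/-- **the presentation data of the chart `y`** at level `i`: horizontal = places of `F_i / L` at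
which `y` is regular, vertical = `{V w | w ≤ i}` -/
def t4ecData {y : ↥(TaF L (t4eLev N'' q i))} (Hy : T4ecHyp Y y) (hcrt : T4ecCrt Y) :
    T4vpData ↥(TaF L (t4eLev N'' q i)) :=
  haveI := Hy.isSeparable
  t4vpChart Hy.gen O ((q : ℕ) : L) (ta_coe_unif_ne_zero hqO) Y.ver (t4ec_ver_finite Y)
    (t4ec_ver_dvr Y) (t4ec_ver_q Y) hcrt (t4ec_tr Hy)

/-- **the presentation of the chart ring `IntCl(L[y]) ∩ 𝒪_i`** -/
def t4ecPres {y : ↥(TaF L (t4eLev N'' q i))} (Hy : T4ecHyp Y y) (hcrt : T4ecCrt Y) :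
    T4Pres ↥(TaF L (t4eLev N'' q i)) :=
  (t4ecData hqO Hy hcrt).pres

variable {y : ↥(TaF L (t4eLev N'' q i))} (Hy : T4ecHyp Y y) (hcrt : T4ecCrt Y)

theorem t4ecPres_vals : (t4ecPres hqO Hy hcrt).vals = t4vpHor L y ∪ Y.ver := rfl

theorem t4ecPres_vert :
    (t4ecPres hqO Hy hcrt).vert (algebraMap L ↥(TaF L (t4eLev N'' q i)) ((q : ℕ) : L)) = Y.ver :=
  (t4ecData hqO Hy hcrt).pres_vert

/-- `B = IntCl(L[y]) ∩ 𝒪_i` -/
theorem mem_t4ecPres_B (f : ↥(TaF L (t4eLev N'' q i))) :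
    f ∈ (t4ecPres hqO Hy hcrt).B ↔ f ∈ t2Int (K := L) y ∧ f ∈ Y.Ov := by
  haveI := Hy.isSeparable
  rw [t4ec_mem_Ov_iff]
  exact mem_t4vpChart_B Hy.gen O ((q : ℕ) : L) (ta_coe_unif_ne_zero hqO) Y.ver (t4ec_ver_finite Y)
    (t4ec_ver_dvr Y) (t4ec_ver_q Y) hcrt (t4ec_tr Hy) f

/-- `ov q = 𝒪_i` -/
theorem mem_t4ecPres_ov (f : ↥(TaF L (t4eLev N'' q i))) :
    f ∈ (t4ecPres hqO Hy hcrt).ov (algebraMap L ↥(TaF L (t4eLev N'' q i)) ((q : ℕ) : L)) ↔
      f ∈ Y.Ov := by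
  rw [t4ec_mem_Ov_iff]
  exact (t4ecData hqO Hy hcrt).mem_pres_ov

/-- the vertical valuation rings belong to the presentation -/
theorem t4ecPres_V_mem {w : ℕ} (hw : w ≤ i) : Y.V w ∈ (t4ecPres hqO Hy hcrt).vals :=
  Or.inr (Y.V_mem_ver hw)

end Layer

end Fermat.Agent.T4
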