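/-
T4E-P6 CHARTS (helper2), file 2: **the chart coordinates `X_i = j^Q - j` and `X_i⁻¹` of level `i`**
(generic level `i`, abstract layer `Y : T4eLayer O π hπ N'' q i`).

* `t4ecX L N'' q i Q = j^Q - j ∈ F_i`, `t4ecX_eq : X_i = a_0 (X_0)`, `X_0 = t4vX' L N'' Q`,
  `t4ecX_succ : X_{i+1} = α (X_i)`;
* `t4ec_transcendental_qExpand` : `qExpand k n` preserves transcendence over `k`;
* **`t4ecHyp_a0`** : `T4ecHyp Y (a_0 f)` for `f ∈ F_0` Gauss-integral with transcendental reduction (from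
  the residue table `ρ_a`), given that `a_0 f` is a generator of `F_i / L`;
* **`t4ecHyp_X`, `t4ecHyp_X_inv`** : the two charts (given that `X_i` is a generator);
* `t4ecX_mem_Ov`, `t4ecX_inv_mem_Ov`, `t4ecX_unit` (`X_i` is a unit at every vertical valuation).
-/
import Fermat.Agent.Lib.T4E.Chart.Pres
import Fermat.Agent.Lib.T4.Inst.ValChart
import Fermat.Agent.Lib.T4.Inst.ValDvr

set_option autoImplicit false
set_option linter.unusedSectionVars false
set_option linter.unusedVariables false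
set_option linter.style.haveILetI false

open HahnSeries ModularCurve Fermat.Agent.T1 Fermat.Agent.T2 IntermediateField

noncomputable section

namespace Fermat.Agent.T4

section Coord

variable {L : Type} [Field L] [Algebra ℚ L] {O : ValuationSubring L} {k : Type*} [Field k]
  {π : ↥O →+* k} [IsDiscreteValuationRing ↥O] {hπ : Function.Surjective π} [IsAlgClosed k]
  {N'' q : ℕ} [NeZero N''] [hq : Fact q.Prime] [CharP k q] {i : ℕ}
  (Y : T4eLayer O π hπ N'' q i) {Q : ℕ} (hQ : 2 ≤ Q)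

/-- the chart `X_i = j^Q - j` at level `i` -/
def t4ecX (L : Type) [Field L] [Algebra ℚ L] (N'' q i Q : ℕ) [NeZero N''] [NeZero q] :
    ↥(TaF L (t4eLev N'' q i)) := taJ (t4eLev N'' q i) ^ Q - taJ (t4eLev N'' q i)

/-- `a_0 j = j` -/
theorem t4eDeg_zero_taJ : t4eDeg L N'' q i 0 (taJ N'') = taJ (t4eLev N'' q i) := by
  apply Subtype.ext
  rw [coe_t4eDeg L N'' q i 0 (Nat.zero_le i), coe_taJ, coe_taJ,
    qExpand_congr (pow_zero q) (jqModC L), qExpand_one_apply]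

theorem t4ecX_eq : t4ecX L N'' q i Q = t4eDeg L N'' q i 0 (t4vX' L N'' Q) := by
  rw [t4ecX, t4vX', map_sub, map_pow, t4eDeg_zero_taJ]

theorem t4ecX_inv_eq : (t4ecX L N'' q i Q)⁻¹ = t4eDeg L N'' q i 0 (t4vX' L N'' Q)⁻¹ := by
  rw [map_inv₀, ← t4ecX_eq]

/-- `X_{i+1} = α (X_i)` -/
theorem t4ecX_succ :
    t4ecX L N'' q (i + 1) Q = heckeAlphaBar L (t4eLev N'' q i) q (t4ecX L N'' q i Q) := by
  rw [t4ecX_eq, t4ecX_eq, t4eDeg_succ_of_le L N'' q (Nat.zero_le i)]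

/-- `qExpand` preserves transcendence over the constants -/
theorem t4ec_transcendental_qExpand (n : ℕ) [NeZero n] {t : LaurentSeries k}
    (ht : Transcendental k t) : Transcendental k (qExpand k n t) := by
  intro h
  apply ht
  have hinj : Function.Injective (qExpandAlgHomC k n) :=
    (qExpandAlgHomC k n : LaurentSeries k →+* LaurentSeries k).injective
  exact (isAlgebraic_algHom_iff (qExpandAlgHomC k n) hinj).mp h

/-- **the hypotheses on the coordinate `a_0 f`** -/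
theorem t4ecHyp_a0 {f : ↥(TaF L N'')} (hf : f ∈ taOv O π hπ N'')
    (ht : Transcendental k (taResN O π hπ N'' ⟨f, hf⟩))
    (hgen : Fermat.Agent.Curve.IsFunctionFieldGen L ↥(TaF L (t4eLev N'' q i))
      (t4eDeg L N'' q i 0 f)) :
    T4ecHyp Y (t4eDeg L N'' q i 0 f) := by
  refine ⟨hgen, fun w hw => Y.a_mem w hw 0 (Nat.zero_le i) f hf, fun w hw => ?_⟩
  rw [Y.ρ_a w hw 0 (Nat.zero_le i) f hf]
  exact t4ec_transcendental_qExpand _ ht

include hQ in
/-- the chart `X_i = j^Q - j` -/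
theorem t4ecHyp_X
    (hgen : Fermat.Agent.Curve.IsFunctionFieldGen L ↥(TaF L (t4eLev N'' q i))
      (t4ecX L N'' q i Q)) : T4ecHyp Y (t4ecX L N'' q i Q) := by
  have h := t4ecHyp_a0 Y (f := t4vX' L N'' Q) (t4vX'_mem O π hπ)
    (by rw [t4vX'_res]; exact t4v_xbar_transcendental hQ)
    (by rw [← t4ecX_eq]; exact hgen)
  rw [← t4ecX_eq] at h
  exact h

include hQ in
/-- the reduction of `X_0⁻¹` -/
theorem t4ecX'_inv_res :
    taResN O π hπ N'' ⟨(t4vX' L N'' Q)⁻¹, t4vX'_inv_mem O π hπ hQ⟩ =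
      (jqModC k ^ Q - jqModC k)⁻¹ := by
  have hres := t4vX'_res (N' := N'') (Q := Q) O π hπ
  have hmem := t4vX'_mem (N' := N'') (Q := Q) O π hπ
  have h0 : t4vX' L N'' Q ≠ 0 := by
    intro h0
    have h1 : (⟨t4vX' L N'' Q, hmem⟩ : ↥(taOv O π hπ N'')) = 0 := Subtype.ext h0
    rw [h1, map_zero] at hres
    exact t4v_xbar_ne_zero hQ hres.symm
  have h1 : (⟨(t4vX' L N'' Q)⁻¹, t4vX'_inv_mem O π hπ hQ⟩ : ↥(taOv O π hπ N'')) *
      ⟨t4vX' L N'' Q, hmem⟩ = 1 := Subtype.ext (inv_mul_cancel₀ h0)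
  have h2 := congrArg (taResN O π hπ N'') h1
  rw [map_mul, map_one, hres] at h2
  exact eq_inv_of_mul_eq_one_left h2

include hQ in
/-- the chart `X_i⁻¹` -/
theorem t4ecHyp_X_inv
    (hgen : Fermat.Agent.Curve.IsFunctionFieldGen L ↥(TaF L (t4eLev N'' q i))
      (t4ecX L N'' q i Q)) : T4ecHyp Y (t4ecX L N'' q i Q)⁻¹ := by
  have h := t4ecHyp_a0 Y (f := (t4vX' L N'' Q)⁻¹) (t4vX'_inv_mem O π hπ hQ)
    (by
      rw [t4ecX'_inv_res hQ]
      have ht := t4v_xbar_transcendental (k := k) hQ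
      intro halg
      exact ht (by simpa using halg.inv))
    (by rw [← t4ecX_inv_eq]; exact Fermat.Agent.CurveP.isFunctionFieldGen_inv hgen)
  rw [← t4ecX_inv_eq] at h
  exact h

theorem t4ecX_mem {w : ℕ} (hw : w ≤ i) : t4ecX L N'' q i Q ∈ Y.V w := by
  rw [t4ecX_eq]
  exact Y.a_mem w hw 0 (Nat.zero_le i) _ (t4vX'_mem O π hπ)

include hQ in
theorem t4ecX_inv_mem {w : ℕ} (hw : w ≤ i) : (t4ecX L N'' q i Q)⁻¹ ∈ Y.V w := by
  rw [t4ecX_inv_eq]
  exact Y.a_mem w hw 0 (Nat.zero_le i) _ (t4vX'_inv_mem O π hπ hQ)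

theorem t4ecX_mem_Ov : t4ecX L N'' q i Q ∈ Y.Ov := fun w hw => t4ecX_mem Y hw

include hQ in
theorem t4ecX_inv_mem_Ov : (t4ecX L N'' q i Q)⁻¹ ∈ Y.Ov := fun w hw => t4ecX_inv_mem Y hQ hw

include hQ in
/-- `X_i ≠ 0` -/
theorem t4ecX_ne_zero : t4ecX L N'' q i Q ≠ 0 := by
  rw [t4ecX]
  exact t4vu_pow_sub_ne_zero_aux hQ
where
  t4vu_pow_sub_ne_zero_aux {N : ℕ} [NeZero N] {Q : ℕ} (hQ : 2 ≤ Q) :
      taJ (L := L) N ^ Q - taJ N ≠ 0 := by
    intro h0
    have h1 : ((taJ (L := L) N ^ Q - taJ N : ↥(TaF L N)) : LaurentSeries L) = 0 := by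
      rw [h0]; rfl
    have h2 : ((taJ (L := L) N ^ Q - taJ N : ↥(TaF L N)) : LaurentSeries L) =
        jqModC L ^ Q - jqModC L := rfl
    rw [h2] at h1
    have h3 := congrArg (fun f : LaurentSeries L => f.coeff (-((Q : ℕ) : ℤ))) h1
    simp only [HahnSeries.coeff_sub, HahnSeries.coeff_zero] at h3
    rw [coeff_jqModC_pow_self, coeff_jqModC_of_lt] at h3
    · simp at h3
    · have h4 : (2 : ℤ) ≤ Q := by exact_mod_cast hQ
      omega

include hQ in
/-- `X_i` is a unit at every vertical valuation -/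
theorem t4ecX_unit {w : ℕ} (hw : w ≤ i) : (Y.V w).valuation (t4ecX L N'' q i Q) = 1 :=
  t4vs_valuation_unit _ (t4ecX_ne_zero hQ) (t4ecX_mem Y hw) (t4ecX_inv_mem Y hQ hw)

end Coord

end Fermat.Agent.T4
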