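/-
T4E-P6 CHARTS (helper2), file 3: **integrality of `𝒪_i` over the Gauss ring of level `0`, and
(Cl), (Int) for the two charts** (generic level `i`, abstract layer `Y : T4eLayer O π hπ N'' q i`).

* `t4ec_eq_or_eq_top_of_le` : a valuation subring containing a discrete valuation subring is that
  ring or `⊤`;
* `t4ec_isIntegralElem_of_mem_closure` : `IsIntegral (Subring.closure (range φ)) x` in the form
  `φ.IsIntegralElem x`;
* **`t4ec_isIntegralElem_a0`** : every `f ∈ 𝒪_i` is integral over `a_0 (taOv)` — from the completeness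
  of the layer (`𝒪_i` is the intersection of ALL valuation rings of `F_i` over `taOv`) and Mathlib's
  `iInf_valuationSubring_superset`; no Kronecker decomposition is needed;
* `t4ec_cl` : **(Cl)** elements integral over `O[x]`, `x ∈ 𝒪_i`, lie in `𝒪_i`;
* **`t4ec_int_X`, `t4ec_int_X_inv`** : **(Int)** for the charts `X_i` and `X_i⁻¹`: elements of `𝒪_i`
  integral over `L[X_i^{±1}]` are integral over `O[X_i^{±1}]` (tower lemmas `t4vc_int_of_level`,
  `t4vu_int_of_level` of T4 + (Int) at the level `N''` of good reduction).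
-/
import Fermat.Agent.Lib.T4E.Chart.Coord
import Fermat.Agent.Lib.T4.Inst.PresNoeth2
import Fermat.Agent.Lib.T4.Inst.PresLow

set_option autoImplicit false
set_option linter.unusedSectionVars false
set_option linter.unusedVariables false
set_option linter.style.haveILetI false

open HahnSeries ModularCurve Fermat.Agent.T1 Fermat.Agent.T2 IntermediateField

noncomputable section

namespace Fermat.Agent.T4

/-! ### Abstract lemmas -/

/-- a valuation subring containing a discrete valuation subring is that ring or `⊤` -/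
theorem t4ec_eq_or_eq_top_of_le {F : Type*} [Field F] {V W : ValuationSubring F}
    [IsDiscreteValuationRing ↥V] (hle : V ≤ W) : W = V ∨ W = ⊤ := by
  by_cases h : W ≤ V
  · exact Or.inl (le_antisymm h hle)
  · right
    obtain ⟨x, hxW, hxV⟩ := SetLike.not_le_iff_exists.1 h
    have hx0 : x ≠ 0 := fun h0 => hxV (h0 ▸ V.zero_mem)
    have hinv : x⁻¹ ∈ V := (V.mem_or_inv_mem x).resolve_left hxV
    have hlt : V.valuation x⁻¹ < 1 := by
      rcases lt_or_eq_of_le ((V.valuation_le_one_iff _).2 hinv) with h1 | h1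
      · exact h1
      · exfalso
        apply hxV
        rw [← V.valuation_le_one_iff]
        rw [map_inv₀, inv_eq_one] at h1
        exact h1.le
    rw [eq_top_iff]
    intro y _
    obtain ⟨n, hn⟩ := t4l_arch V hlt (inv_ne_zero hx0) y
    have h2 : y = x ^ n * (x⁻¹ ^ n * y) := by
      rw [← mul_assoc, ← mul_pow, mul_inv_cancel₀ hx0, one_pow, one_mul]
    rw [h2]
    exact W.mul_mem _ _ (W.pow_mem hxW n) (hle hn)

/-- integrality over the subring generated by the range of a ring homomorphism, in the form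
`RingHom.IsIntegralElem` -/
theorem t4ec_isIntegralElem_of_mem_closure {R A : Type*} [CommRing R] [CommRing A] (φ : R →+* A)
    {x : A} (hx : IsIntegral ↥(Subring.closure (Set.range φ)) x) : φ.IsIntegralElem x := by
  set S : Subring A := Subring.closure (Set.range φ) with hS
  have hSr : S = φ.range := by
    rw [hS, ← RingHom.coe_range, Subring.closure_eq]
  let ψ : R →+* ↥S := φ.codRestrict S (fun r => Subring.subset_closure ⟨r, rfl⟩)
  have hψ : Function.Surjective ψ := by
    rintro ⟨s, hs⟩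
    rw [hSr] at hs
    obtain ⟨r, rfl⟩ := hs
    exact ⟨r, rfl⟩
  obtain ⟨p, hp, hpx⟩ := hx
  have hlift : p ∈ Polynomial.lifts ψ := by
    rw [Polynomial.mem_lifts]
    exact Polynomial.map_surjective ψ hψ p
  obtain ⟨p', hp'map, -, hp'monic⟩ := Polynomial.lifts_and_natDegree_eq_and_monic hlift hp
  refine ⟨p', hp'monic, ?_⟩
  have h1 : (algebraMap ↥S A).comp ψ = φ := by
    ext r
    rfl
  rw [← h1, ← Polynomial.eval₂_map, hp'map]
  exact hpx

section Layer

variable {L : Type} [Field L] [Algebra ℚ L] {O : ValuationSubring L} {k : Type*} [Field k]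
  {π : ↥O →+* k} [IsDiscreteValuationRing ↥O] {hπ : Function.Surjective π} [IsAlgClosed k]
  {N'' q : ℕ} [NeZero N''] [hq : Fact q.Prime] [CharP k q] {i : ℕ}
  (Y : T4eLayer O π hπ N'' q i) {Q : ℕ} (hQ : 2 ≤ Q) (hqO : Irreducible ((q : ℕ) : ↥O))

/-- every function of level `i` is integral over the image of the function field of level `0` -/
theorem t4ec_isIntegral_range (f : ↥(TaF L (t4eLev N'' q i))) (W : ValuationSubring
    ↥(TaF L (t4eLev N'' q i))) (hW : ∀ g : ↥(TaF L N''), t4eDeg L N'' q i 0 g ∈ W) : f ∈ W := by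
  have hf : IsIntegral ↥(L⟮taJ (L := L) (t4eLev N'' q i)⟯) f := Algebra.IsIntegral.isIntegral f
  refine ta_mem_of_isIntegral W (fun r => ?_) hf
  have hle : L⟮taJ (L := L) (t4eLev N'' q i)⟯ ≤ (t4eDeg L N'' q i 0).fieldRange := by
    rw [IntermediateField.adjoin_le_iff]
    rintro x hx
    rw [Set.mem_singleton_iff] at hx
    rw [hx]
    exact ⟨taJ N'', t4eDeg_zero_taJ⟩
  obtain ⟨g, hg⟩ := hle r.2
  show ((r : ↥(L⟮taJ (L := L) (t4eLev N'' q i)⟯)) : ↥(TaF L (t4eLev N'' q i))) ∈ W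
  rw [← hg]
  exact hW g

include hqO in
/-- **`𝒪_i` is integral over `a_0 (taOv)`** -/
theorem t4ec_isIntegralElem_a0 {f : ↥(TaF L (t4eLev N'' q i))} (hf : f ∈ Y.Ov) :
    (((t4eDeg L N'' q i 0 : ↥(TaF L N'') →ₐ[L] ↥(TaF L (t4eLev N'' q i))) :
      ↥(TaF L N'') →+* ↥(TaF L (t4eLev N'' q i))).comp (taOv O π hπ N'').subtype).IsIntegralElem
        f := by
  haveI : IsDiscreteValuationRing ↥(taOv O π hπ N'') := t4vw_taOv_dvr O π hπ hqO N''
  set φ : ↥(TaF L N'') →+* ↥(TaF L (t4eLev N'' q i)) :=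
    ((t4eDeg L N'' q i 0 : ↥(TaF L N'') →ₐ[L] ↥(TaF L (t4eLev N'' q i))) :
      ↥(TaF L N'') →+* ↥(TaF L (t4eLev N'' q i))) with hφ
  apply t4ec_isIntegralElem_of_mem_closure
  show f ∈ (integralClosure ↥(Subring.closure (Set.range (φ.comp (taOv O π hπ N'').subtype)))
    ↥(TaF L (t4eLev N'' q i))).toSubring
  rw [← iInf_valuationSubring_superset, Subring.mem_iInf]
  rintro ⟨W, hW⟩
  show f ∈ W
  have hle : taOv O π hπ N'' ≤ W.comap φ := by
    intro g hg
    exact hW ⟨⟨g, hg⟩, rfl⟩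
  rcases t4ec_eq_or_eq_top_of_le hle with h | h
  · obtain ⟨w, hw, rfl⟩ := Y.complete W h
    exact hf w hw
  · refine t4ec_isIntegral_range f W (fun g => ?_)
    have : g ∈ W.comap φ := by rw [h]; trivial
    exact this

/-- `O[x] ⊆ V` for a valuation ring `V` containing `O` and `x` -/
theorem t4ec_adjoin_le {F : Type*} [Field F] [Algebra L F] (V : ValuationSubring F)
    (hO : ∀ a : ↥O, algebraMap L F (a : L) ∈ V) {x : F}
    (hx : x ∈ V) (r : ↥(Algebra.adjoin ↥O {x})) : (r : F) ∈ V := by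
  obtain ⟨r, hr⟩ := r
  show r ∈ V
  induction hr using Algebra.adjoin_induction with
  | mem y hy =>
    rw [Set.mem_singleton_iff] at hy
    rw [hy]
    exact hx
  | algebraMap a => exact hO a
  | add y z _ _ hy hz => exact V.add_mem _ _ hy hz
  | mul y z _ _ hy hz => exact V.mul_mem _ _ hy hz

/-- **(Cl)**: elements integral over `O[x]`, `x ∈ 𝒪_i`, lie in `𝒪_i` -/
theorem t4ec_cl {x : ↥(TaF L (t4eLev N'' q i))} (hx : x ∈ Y.Ov)
    {f : ↥(TaF L (t4eLev N'' q i))} (hf : IsIntegral ↥(Algebra.adjoin ↥O {x}) f) : f ∈ Y.Ov :=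
  fun w hw => ta_mem_of_isIntegral _
    (t4ec_adjoin_le (Y.V w) (fun a => Y.const_mem w hw a) (hx w hw)) hf

include hQ hqO in
/-- **(Int) for the chart `X_i`** -/
theorem t4ec_int_X (hN'' : (N'' : k) ≠ 0) {f : ↥(TaF L (t4eLev N'' q i))} (hf : f ∈ Y.Ov)
    (hint : f ∈ t2Int (K := L) (t4ecX L N'' q i Q)) :
    IsIntegral ↥(Algebra.adjoin ↥O {t4ecX L N'' q i Q}) f :=
  t4vc_int_of_level O π hπ N'' (t4eLev N'' q i) hN'' (t4eDeg L N'' q i 0) t4eDeg_zero_taJ hQ
    (t4ec_isIntegralElem_a0 Y hqO hf) hint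

include hQ hqO in
/-- **(Int) for the chart `X_i⁻¹`** -/
theorem t4ec_int_X_inv (hN'' : (N'' : k) ≠ 0) {f : ↥(TaF L (t4eLev N'' q i))} (hf : f ∈ Y.Ov)
    (hint : f ∈ t2Int (K := L) (t4ecX L N'' q i Q)⁻¹) :
    IsIntegral ↥(Algebra.adjoin ↥O {(t4ecX L N'' q i Q)⁻¹}) f := by
  have hint' : IsIntegral ↥(Algebra.adjoin L {t4eDeg L N'' q i 0 (t4vX' L N'' Q)⁻¹}) f := by
    rw [← t4ecX_inv_eq]
    exact hint
  have key := t4vu_int_of_level O π hπ N'' (t4eLev N'' q i) (t4eDeg L N'' q i 0)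
    (t4vX' L N'' Q)⁻¹ (fun g hg hgi => t4vu_int_level O π hπ N'' hN'' hQ hg hgi)
    (t4ec_isIntegralElem_a0 Y hqO hf) hint'
  rw [← t4ecX_inv_eq] at key
  exact key

end Layer

end Fermat.Agent.T4
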