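/-
T4E-P6b CHARTS (helper3), file 1: **the `T4Setup` / `T4Twist` / Riemann–Roch numbers of the two charts
at EVERY level `i`**, on helper1's base `t4ebBase Y hqO hN'' : T2Base L F_i k (𝒪_i ⧸ (q))` of an
abstract layer `Y : T4eLayer O π hπ N'' q i` (prefix `t4ecr`).

Generic part (abstract unramified DVR level `(L, O, π, k)`):

* `t4ecrIncl Y hw : 𝒪_i →+* V w`, `t4ecrRho Y hw : 𝒪_i →+* k((𝔮))` (the reduction at the component `w`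
  on the semilocal ring), `t4ecrRhoBar Y hqO hN'' hw : 𝒪_i ⧸ (q) →+* k((𝔮))` with
  `t4ecrRhoBar_res : ρ̄_w (res f) = ρ_w f` and `t4ecrRhoBar_algebraMap`;
* **`t4ecr_res_transcendental`** : `res y` is transcendental over `k` for every chart coordinate
  `y` (`T4ecHyp Y y`), in particular `t4ecr_res_X_transcendental` for `X_i = j^Q - j`;
* `t4ecr_q_mem_nonunits` : `q` is a non-unit of the base valuation ring; `t4ecr_res_q` (`res q = 0`),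
  `t4ecr_res_eq_one` (`res f = 1` for `f ≡ 1 (mod q 𝒪_i)`).

Inertia level (`L = tbFix 𝔓 ⊤`, `q = 𝔓.p`, `N = t4eLev N'' 𝔓.p i`):

* `t4ecX_eq_t4vcX` : helper2's chart `X_i` is helper2's `t4vcX 𝔓 N ⊤ Q` (`rfl`);
  `t4ecr_gen_fix` : `X_i` is a generator of `F_i / L` (= `hgen` of `t4ecHyp_X`, `t4ecHyp_X_inv`);
* **`t4ecr_exists_setup_fix`** : the `T4Setup (t4ebBase Y …)` of the chart `X_i` with exponent `m`
  and the Riemann–Roch numbers of `F_K = modularFunctionFieldBar N` (= `t4v_exists_setup_fix` at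
  every level);
* **`t4ecr_exists_twist_fix`**, **`t4ecr_exists_root_fix`** : the `T4Twist` of a Kummer function and
  the extraction of the `m`-th root, with the generator hypothesis discharged.
-/
import Fermat.Agent.Lib.T4E.Tower.BaseLayer
import Fermat.Agent.Lib.T4.Inst.ChartRR
import Fermat.Agent.Lib.T4.Inst.CycVal
import Fermat.Agent.Lib.T2.Inst.LevelH

set_option autoImplicit false
set_option linter.unusedSectionVars false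
set_option linter.unusedVariables false
set_option linter.style.haveILetI false
set_option synthInstance.maxHeartbeats 400000
set_option maxHeartbeats 1000000

open HahnSeries ModularCurve Module AlgebraicCurve IntermediateField Fermat.Agent.Curve
  Fermat.Agent.T1 Fermat.Agent.T2 Fermat.Agent.TW

noncomputable section

namespace Fermat.Agent.T4

local notation "Qb" => AlgebraicClosure ℚ

section Gen

variable {L : Type} [Field L] [Algebra ℚ L] {O : ValuationSubring L} {k : Type*} [Field k]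
  {π : ↥O →+* k} [IsDiscreteValuationRing ↥O] {hπ : Function.Surjective π} [IsAlgClosed k]
  {N'' q : ℕ} [NeZero N''] [hq : Fact q.Prime] [CharP k q] {i : ℕ}
  (Y : T4eLayer O π hπ N'' q i) (hqO : Irreducible ((q : ℕ) : ↥O)) (hN'' : (N'' : k) ≠ 0)

/-! ### The reductions on the semilocal ring -/

/-- `𝒪_i → V w` -/
def t4ecrIncl {w : ℕ} (hw : w ≤ i) : ↥Y.Ov →+* ↥(Y.V w) :=
  Subring.inclusion (show Y.Ov ≤ (Y.V w).toSubring from fun f hf => hf w hw)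

theorem coe_t4ecrIncl {w : ℕ} (hw : w ≤ i) (f : ↥Y.Ov) :
    ((t4ecrIncl Y hw f : ↥(Y.V w)) : ↥(TaF L (t4eLev N'' q i))) = (f : _) := rfl

/-- the reduction at the component `w` on the semilocal ring `𝒪_i` -/
def t4ecrRho {w : ℕ} (hw : w ≤ i) : ↥Y.Ov →+* LaurentSeries k :=
  (Y.ρ w).comp (t4ecrIncl Y hw)

theorem t4ecrRho_apply {w : ℕ} (hw : w ≤ i) (f : ↥Y.Ov) :
    t4ecrRho Y hw f = Y.ρ w ⟨(f : ↥(TaF L (t4eLev N'' q i))), f.2 w hw⟩ := rfl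

/-- the reduction of a constant -/
theorem t4ecrRho_const {w : ℕ} (hw : w ≤ i) (c : ↥O) (hc : algebraMap L
    ↥(TaF L (t4eLev N'' q i)) (c : L) ∈ Y.Ov) :
    t4ecrRho Y hw ⟨_, hc⟩ = HahnSeries.C (π c) :=
  Y.ρ_const w hw c

theorem t4ecrRho_eq_zero_iff {w : ℕ} (hw : w ≤ i) (f : ↥Y.Ov) :
    t4ecrRho Y hw f = 0 ↔ (Y.V w).valuation (f : ↥(TaF L (t4eLev N'' q i))) < 1 :=
  Y.ρ_eq_zero w hw _

include hπ hqO in
/-- `π q = 0` -/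
theorem t4ecr_pi_q : π ((q : ℕ) : ↥O) = 0 :=
  (ta_pi_eq_zero_iff hπ hqO _).mpr (dvd_refl _)

include hqO in
/-- the reductions kill `q 𝒪_i` -/
theorem t4ecrRho_pIdeal {w : ℕ} (hw : w ≤ i) (f : ↥(t4ebInput Y hqO hN'').Ov)
    (hf : f ∈ (t4ebInput Y hqO hN'').pIdeal) : t4ecrRho Y hw f = 0 := by
  obtain ⟨g, hg⟩ := Ideal.mem_span_singleton'.mp hf
  have h1 : t4ecrRho Y hw (t4ebInput Y hqO hN'').pO = 0 := by
    have h2 := t4ecrRho_const Y hw ((q : ℕ) : ↥O)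
      ((t4ebInput Y hqO hN'').algebraMap_mem ((q : ℕ) : ↥O))
    rw [t4ecr_pi_q (hπ := hπ) hqO, map_zero] at h2
    exact h2
  have h3 : t4ecrRho Y hw f = t4ecrRho Y hw g * t4ecrRho Y hw (t4ebInput Y hqO hN'').pO :=
    (congrArg (t4ecrRho Y hw) hg.symm).trans (map_mul (t4ecrRho Y hw) g _)
  rw [h3, h1, mul_zero]

/-- the reduction at the component `w` on the residue ring `𝒪_i ⧸ (q)` of the base -/
def t4ecrRhoBar {w : ℕ} (hw : w ≤ i) : (t4ebInput Y hqO hN'').Fb →+* LaurentSeries k :=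
  Ideal.Quotient.lift (t4ebInput Y hqO hN'').pIdeal (t4ecrRho Y hw)
    (t4ecrRho_pIdeal Y hqO hN'' hw)

theorem t4ecrRhoBar_res {w : ℕ} (hw : w ≤ i) (f : ↥(t4ebBase Y hqO hN'').Ov) :
    t4ecrRhoBar Y hqO hN'' hw ((t4ebBase Y hqO hN'').res f) = t4ecrRho Y hw f :=
  Ideal.Quotient.lift_mk _ _ _

theorem t4ecrRhoBar_algebraMap {w : ℕ} (hw : w ≤ i) (c : k) :
    t4ecrRhoBar Y hqO hN'' hw (algebraMap k (t4ebInput Y hqO hN'').Fb c) = HahnSeries.C c := by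
  obtain ⟨a, rfl⟩ := hπ c
  have h1 := (t4ebBase Y hqO hN'').res_algebraMap a
  have h2 : (t4ebBase Y hqO hN'').resA a = π a := rfl
  rw [h2] at h1
  rw [← h1, t4ecrRhoBar_res]
  exact t4ecrRho_const Y hw a _

/-! ### Transcendence of the reduced chart coordinate -/

/-- **`res y` is transcendental over `k`**, for an element `y ∈ 𝒪_i` whose reduction at ONE component
is transcendental -/
theorem t4ecr_res_transcendental_of {w : ℕ} (hw : w ≤ i) {y : ↥(TaF L (t4eLev N'' q i))}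
    (hy : y ∈ (t4ebBase Y hqO hN'').Ov)
    (ht : Transcendental k (Y.ρ w ⟨y, hy w hw⟩)) :
    Transcendental k ((t4ebBase Y hqO hN'').res ⟨y, hy⟩) := by
  refine Transcendental.of_ringHom_of_comp_eq (f := RingHom.id k)
    (g := t4ecrRhoBar Y hqO hN'' hw) ?_ Function.injective_id ?_
  · rw [t4ecrRhoBar_res]
    exact ht
  · refine RingHom.ext fun c => ?_
    show algebraMap k (LaurentSeries k) c =
      t4ecrRhoBar Y hqO hN'' hw (algebraMap k (t4ebInput Y hqO hN'').Fb c)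
    rw [t4ecrRhoBar_algebraMap, ta_algebraMap_eq_C]

variable {Y}

/-- **`res y` is transcendental over `k`** for every chart coordinate -/
theorem t4ecr_res_transcendental {y : ↥(TaF L (t4eLev N'' q i))} (Hy : T4ecHyp Y y)
    (hy : y ∈ (t4ebBase Y hqO hN'').Ov) :
    Transcendental k ((t4ebBase Y hqO hN'').res ⟨y, hy⟩) :=
  t4ecr_res_transcendental_of Y hqO hN'' (Nat.zero_le i) hy (Hy.tr 0 (Nat.zero_le i))

variable (Y)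

/-- `res X_i` is transcendental over `k` (no generator hypothesis needed) -/
theorem t4ecr_res_X_transcendental {Q : ℕ} (hQ : 2 ≤ Q)
    (hx : t4ecX L N'' q i Q ∈ (t4ebBase Y hqO hN'').Ov) :
    Transcendental k ((t4ebBase Y hqO hN'').res ⟨t4ecX L N'' q i Q, hx⟩) := by
  refine t4ecr_res_transcendental_of Y hqO hN'' (Nat.zero_le i) hx ?_
  have h1 : (⟨t4ecX L N'' q i Q, hx 0 (Nat.zero_le i)⟩ : ↥(Y.V 0)) =
      ⟨t4eDeg L N'' q i 0 (t4vX' L N'' Q),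
        Y.a_mem 0 (Nat.zero_le i) 0 (Nat.zero_le i) _ (t4vX'_mem O π hπ)⟩ :=
    Subtype.ext t4ecX_eq
  rw [h1, Y.ρ_a 0 (Nat.zero_le i) 0 (Nat.zero_le i) _ (t4vX'_mem O π hπ), t4vX'_res]
  exact t4ec_transcendental_qExpand _ (t4v_xbar_transcendental hQ)

include hqO in
/-- `q` is a non-unit of the valuation ring of the base -/
theorem t4ecr_q_mem_nonunits : ((q : ℕ) : L) ∈ (t4ebBase Y hqO hN'').A.nonunits := by
  rw [t4ebBase_A, ValuationSubring.mem_nonunits_iff_exists_mem_maximalIdeal]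
  refine ⟨natCast_mem _ _, ?_⟩
  rw [IsLocalRing.mem_maximalIdeal, mem_nonunits_iff]
  exact hqO.not_isUnit

/-- `q ∈ 𝒪_i` and `res q = 0` (the shape `hQres` of `t4n_stepC_core` / `t4nt_res_Q`) -/
theorem t4ecr_res_q :
    ∃ hqm : algebraMap L ↥(TaF L (t4eLev N'' q i)) ((q : ℕ) : L) ∈ (t4ebBase Y hqO hN'').Ov,
      (t4ebBase Y hqO hN'').res ⟨_, hqm⟩ = 0 := by
  have hqm : algebraMap L ↥(TaF L (t4eLev N'' q i)) ((q : ℕ) : L) ∈ (t4ebBase Y hqO hN'').Ov := by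
    have h1 := (t4ebBase Y hqO hN'').algebraMap_mem ((q : ℕ) : ↥O)
    have h2 : ((((q : ℕ) : ↥O) : ↥O) : L) = ((q : ℕ) : L) := by push_cast; rfl
    rw [h2] at h1
    exact h1
  refine ⟨hqm, ?_⟩
  rw [t4ebBase_res_eq_zero_iff]
  exact ⟨1, by rw [OneMemClass.coe_one, mul_one]⟩

/-- `res f = 1` for `f ≡ 1 (mod q 𝒪_i)` (the shape of `t4nt_res_eq_one`) -/
theorem t4ecr_res_eq_one {f : ↥(TaF L (t4eLev N'' q i))} (hf : f ∈ (t4ebBase Y hqO hN'').Ov)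
    (h1 : ∃ o ∈ (t4ebBase Y hqO hN'').Ov,
      f - 1 = algebraMap L ↥(TaF L (t4eLev N'' q i)) ((q : ℕ) : L) * o) :
    (t4ebBase Y hqO hN'').res ⟨f, hf⟩ = 1 := by
  obtain ⟨o, ho, hfo⟩ := h1
  have h0 : (t4ebBase Y hqO hN'').res (⟨f, hf⟩ - 1) = 0 := by
    rw [t4ebBase_res_eq_zero_iff]
    exact ⟨⟨o, ho⟩, hfo⟩
  rw [map_sub, map_one, sub_eq_zero] at h0
  exact h0

/-- the same with `q` as a natural number cast in `F_i` -/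
theorem t4ecr_res_eq_one' {f : ↥(TaF L (t4eLev N'' q i))} (hf : f ∈ (t4ebBase Y hqO hN'').Ov)
    (h1 : ∃ o ∈ (t4ebBase Y hqO hN'').Ov,
      f - 1 = ((q : ℕ) : ↥(TaF L (t4eLev N'' q i))) * o) :
    (t4ebBase Y hqO hN'').res ⟨f, hf⟩ = 1 := by
  refine t4ecr_res_eq_one Y hqO hN'' hf ?_
  rw [map_natCast]
  exact h1

/-- (Cl) for the base of the layer, in the shape of `t4vc_exists_setup` -/
theorem t4ecr_cl {x : ↥(TaF L (t4eLev N'' q i))} (hx : x ∈ Y.Ov)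
    (f : ↥(TaF L (t4eLev N'' q i)))
    (hf : IsIntegral ↥(Algebra.adjoin ↥(t4ebBase Y hqO hN'').A {x}) f) :
    f ∈ (t4ebBase Y hqO hN'').Ov :=
  t4ec_cl Y hx hf

end Gen

/-! ### The inertia level -/

section Fix

attribute [local instance] t2i_dvr t2i_isAlgClosed t2i_charP t2i_fact

variable (𝔓 : FFPlace) (N'' : ℕ) [NeZero N''] (h : ¬ 𝔓.p ∣ N'') {i : ℕ}
  (Y : T4eLayer (tbFixO 𝔓 ⊤) (tbFixRes 𝔓 ⊤) (tbFixRes_surjective 𝔓 ⊤) N'' 𝔓.p i)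
  {Q : ℕ} (hQ : 2 ≤ Q)

/-- helper2's chart `X_i` of the tower is the chart `t4vcX` of `ChartRR.lean` -/
theorem t4ecX_eq_t4vcX :
    t4ecX ↥(tbFix 𝔓 (⊤ : Subgroup 𝔓.I)) N'' 𝔓.p i Q = t4vcX 𝔓 (t4eLev N'' 𝔓.p i) ⊤ Q := rfl

include hQ in
/-- `X_i` is a generator of `F_i / L` (the hypothesis `hgen` of `t4ecHyp_X`, `t4ecHyp_X_inv`) -/
theorem t4ecr_gen_fix :
    IsFunctionFieldGen ↥(tbFix 𝔓 (⊤ : Subgroup 𝔓.I))
      ↥(TaF ↥(tbFix 𝔓 (⊤ : Subgroup 𝔓.I)) (t4eLev N'' 𝔓.p i))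
      (t4ecX ↥(tbFix 𝔓 (⊤ : Subgroup 𝔓.I)) N'' 𝔓.p i Q) :=
  t4vc_gen_X_level 𝔓 (t4eLev N'' 𝔓.p i) ⊤ hQ

include hQ in
/-- the hypotheses on the chart `X_i` at the inertia level -/
theorem t4ecrHyp_X_fix : T4ecHyp Y (t4ecX ↥(tbFix 𝔓 (⊤ : Subgroup 𝔓.I)) N'' 𝔓.p i Q) :=
  t4ecHyp_X Y hQ (t4ecr_gen_fix 𝔓 N'' hQ)

include hQ in
/-- the hypotheses on the chart `X_i⁻¹` at the inertia level -/
theorem t4ecrHyp_X_inv_fix : T4ecHyp Y (t4ecX ↥(tbFix 𝔓 (⊤ : Subgroup 𝔓.I)) N'' 𝔓.p i Q)⁻¹ :=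
  t4ecHyp_X_inv Y hQ (t4ecr_gen_fix 𝔓 N'' hQ)

/-- the base of the layer at the inertia level -/
abbrev t4ecrBaseFix : T2Base ↥(tbFix 𝔓 (⊤ : Subgroup 𝔓.I))
    ↥(tbLevF 𝔓 (t4eLev N'' 𝔓.p i) ⊤) (IsLocalRing.ResidueField ↥𝔓.P)
    (t4ebInput Y (t4cy_irreducible_p 𝔓) (t2i_natCast_ne_zero 𝔓 h)).Fb :=
  t4ebBase Y (t4cy_irreducible_p 𝔓) (t2i_natCast_ne_zero 𝔓 h)

theorem t4ecrBaseFix_Ov : (t4ecrBaseFix 𝔓 N'' h Y).Ov = Y.Ov := rfl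

theorem t4ecrBaseFix_A : (t4ecrBaseFix 𝔓 N'' h Y).A = tbFixO 𝔓 ⊤ := rfl

include hQ in
/-- **the `T4Setup` of the chart `X_i = j^Q - j` on the base of the layer of level `i`** (inertia
level): exponent `m`, Riemann–Roch numbers of `F_K = modularFunctionFieldBar (N'' p^i)` -/
theorem t4ecr_exists_setup_fix (m : ℕ) (hm : Nat.Coprime m 𝔓.p) :
    ∃ su : T4Setup (t4ecrBaseFix 𝔓 N'' h Y), su.m = m ∧
      su.x = t4vcX 𝔓 (t4eLev N'' 𝔓.p i) ⊤ Q ∧ su.ℓ = 𝔓.p ∧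
      (su.n : ℤ) = finrank ↥Qb⟮tbPhiF 𝔓 (t4eLev N'' 𝔓.p i) ⊤ su.x⟯
        ↥(modularFunctionFieldBar (t4eLev N'' 𝔓.p i)) ∧
      su.c = 1 - CurveP.genusR Qb ↥(modularFunctionFieldBar (t4eLev N'' 𝔓.p i)) ∧
      su.a0 = 2 * CurveP.genusR Qb ↥(modularFunctionFieldBar (t4eLev N'' 𝔓.p i)) := by
  haveI : IsDiscreteValuationRing ↥(t4ecrBaseFix 𝔓 N'' h Y).A := t2i_dvr 𝔓 ⊤
  have hx : t4vcX 𝔓 (t4eLev N'' 𝔓.p i) ⊤ Q ∈ (t4ecrBaseFix 𝔓 N'' h Y).Ov :=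
    t4ecX_mem_Ov Y
  exact t4vc_exists_setup 𝔓 (t4eLev N'' 𝔓.p i) ⊤ hQ (t4ecrBaseFix 𝔓 N'' h Y)
    (t4ecr_q_mem_nonunits Y (t4cy_irreducible_p 𝔓) (t2i_natCast_ne_zero 𝔓 h)) hx
    (t4ecX_inv_mem_Ov Y hQ)
    (t4ecr_res_X_transcendental Y (t4cy_irreducible_p 𝔓) (t2i_natCast_ne_zero 𝔓 h) hQ hx)
    (fun f hf hint => t4ec_int_X Y hQ (t4cy_irreducible_p 𝔓) (t2i_natCast_ne_zero 𝔓 h) hf hint)
    (fun f hf => t4ec_cl Y (t4ecX_mem_Ov Y) hf) m hm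

include hQ in
/-- the chart is a generator over `ℚ̄` -/
theorem t4ecr_gen_bar :
    IsFunctionFieldGen Qb ↥(modularFunctionFieldBar (t4eLev N'' 𝔓.p i))
      (tbPhiF 𝔓 (t4eLev N'' 𝔓.p i) ⊤ (t4vcX 𝔓 (t4eLev N'' 𝔓.p i) ⊤ Q)) :=
  t4vc_gen_X 𝔓 (t4eLev N'' 𝔓.p i) ⊤ hQ

include hQ in
/-- **the `T4Twist` of a Kummer function `z` with `res z = 1`** on the base of the layer -/
theorem t4ecr_exists_twist_fix (su : T4Setup (t4ecrBaseFix 𝔓 N'' h Y))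
    (hsx : su.x = t4vcX 𝔓 (t4eLev N'' 𝔓.p i) ⊤ Q)
    (hn : (su.n : ℤ) = finrank ↥Qb⟮tbPhiF 𝔓 (t4eLev N'' 𝔓.p i) ⊤ su.x⟯
      ↥(modularFunctionFieldBar (t4eLev N'' 𝔓.p i)))
    (hc : su.c = 1 - CurveP.genusR Qb ↥(modularFunctionFieldBar (t4eLev N'' 𝔓.p i)))
    {z : ↥(tbLevF 𝔓 (t4eLev N'' 𝔓.p i) ⊤)} (hz0 : z ≠ 0)
    (hz : z ∈ (t4ecrBaseFix 𝔓 N'' h Y).Ov) (hz1 : (t4ecrBaseFix 𝔓 N'' h Y).res ⟨z, hz⟩ = 1)
    (hdiv : ∀ v : Place Qb ↥(modularFunctionFieldBar (t4eLev N'' 𝔓.p i)),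
      (su.m : ℤ) ∣ v.ord (tbPhiF 𝔓 (t4eLev N'' 𝔓.p i) ⊤ z)) :
    ∃ tw : T4Twist su, tw.y = z ∧
      (∀ s, s ∈ tw.L1 ↔ s ^ su.m * z ∈ t2Int (K := ↥(tbFix 𝔓 (⊤ : Subgroup 𝔓.I))) su.x) ∧
      (∀ s, s ∈ tw.L2 ↔ s ^ su.m * z ∈ t2Int (K := ↥(tbFix 𝔓 (⊤ : Subgroup 𝔓.I))) su.x⁻¹) := by
  have hX : IsFunctionFieldGen Qb ↥(modularFunctionFieldBar (t4eLev N'' 𝔓.p i))
      (tbPhiF 𝔓 (t4eLev N'' 𝔓.p i) ⊤ su.x) := by
    rw [hsx]
    exact t4ecr_gen_bar 𝔓 N'' hQ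
  exact t4vc_exists_twist 𝔓 (t4eLev N'' 𝔓.p i) ⊤ su hX hn hc hz0 hz hz1 hdiv

include hQ in
/-- **a common nonzero section of the two twisted chart modules of `X_i` makes `z` an `m`-th power
over `ℚ̄`** -/
theorem t4ecr_exists_root_fix {z s : ↥(tbLevF 𝔓 (t4eLev N'' 𝔓.p i) ⊤)} {m : ℕ} (hz : z ≠ 0)
    (hm : 0 < m)
    (hdiv : ∀ v : Place Qb ↥(modularFunctionFieldBar (t4eLev N'' 𝔓.p i)),
      (m : ℤ) ∣ v.ord (tbPhiF 𝔓 (t4eLev N'' 𝔓.p i) ⊤ z))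
    (hs0 : s ≠ 0)
    (h1 : s ^ m * z ∈ t2Int (K := ↥(tbFix 𝔓 (⊤ : Subgroup 𝔓.I)))
      (t4vcX 𝔓 (t4eLev N'' 𝔓.p i) ⊤ Q))
    (h2 : s ^ m * z ∈ t2Int (K := ↥(tbFix 𝔓 (⊤ : Subgroup 𝔓.I)))
      (t4vcX 𝔓 (t4eLev N'' 𝔓.p i) ⊤ Q)⁻¹) :
    ∃ g : ↥(modularFunctionFieldBar (t4eLev N'' 𝔓.p i)),
      g ^ m = tbPhiF 𝔓 (t4eLev N'' 𝔓.p i) ⊤ z :=
  t4vc_exists_root 𝔓 (t4eLev N'' 𝔓.p i) ⊤ (t4ecr_gen_bar 𝔓 N'' hQ) hz hm hdiv hs0 h1 h2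

end Fix

end Fermat.Agent.T4
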