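/-
T4E-P6 CHARTS (helper3), `Chart/Noeth.lean`: **the chart rings of level `i` are noetherian** (generic
level `i`, abstract unramified DVR level `(L, O, π, k)`, abstract layer `Y : T4eLayer O π hπ N'' q i`;
prefix `t4ecrn`).  PresNoeth / PresNoeth2 pattern of T4: finiteness of the chart ring over `O[y]`
(`t4vc_fin`, from (Int), (Cl), `res y` transcendental) on helper1's base `t4ebBase Y hqO hN''`.

* `t4ecrn_fin` : `∃ e, T2Fin (t4ebBase Y hqO hN'') y e` for a chart coordinate `y` (`T4ecHyp Y y`) with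
  (Int);
* **`t4ecrn_noeth`** : every subring `B` with `f ∈ B ↔ f ∈ t2Int y ∧ f ∈ 𝒪_i` is noetherian;
  `t4ecrn_noeth_pres` : `IsNoetherianRing (t4ecPres hqO Hy hcrt).B`;
* **`t4ecrn_noeth_X`, `t4ecrn_noeth_X_inv`** : the two charts `X_i^{±1}` (given that `X_i` is a generator
  of `F_i / L`); `t4ecrn_noeth_X_fix`, `t4ecrn_noeth_X_inv_fix` : the inertia level (no hypothesis).
-/
import Fermat.Agent.Lib.T4E.Chart.RR
import Fermat.Agent.Lib.T4.Inst.PresNoeth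
import Fermat.Agent.Lib.T4.Inst.ChartFin

set_option autoImplicit false
set_option linter.unusedSectionVars false
set_option linter.unusedVariables false
set_option linter.style.haveILetI false
set_option synthInstance.maxHeartbeats 400000

open HahnSeries ModularCurve IntermediateField Fermat.Agent.T1 Fermat.Agent.T2 Fermat.Agent.TW

noncomputable section

namespace Fermat.Agent.T4

section Gen

variable {L : Type} [Field L] [Algebra ℚ L] {O : ValuationSubring L} {k : Type*} [Field k]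
  {π : ↥O →+* k} [IsDiscreteValuationRing ↥O] {hπ : Function.Surjective π} [IsAlgClosed k]
  {N'' q : ℕ} [NeZero N''] [hq : Fact q.Prime] [CharP k q] {i : ℕ}
  {Y : T4eLayer O π hπ N'' q i} (hqO : Irreducible ((q : ℕ) : ↥O)) (hN'' : (N'' : k) ≠ 0)

/-- **finiteness of the chart ring** of a chart coordinate `y` with (Int) -/
theorem t4ecrn_fin {y : ↥(TaF L (t4eLev N'' q i))} (Hy : T4ecHyp Y y)
    (hInt : ∀ f : ↥(TaF L (t4eLev N'' q i)), f ∈ Y.Ov → f ∈ t2Int (K := L) y →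
      IsIntegral ↥(Algebra.adjoin ↥O {y}) f) :
    ∃ e : ℕ, T2Fin (t4ebBase Y hqO hN'') y e := by
  haveI : IsDiscreteValuationRing ↥(t4ebBase Y hqO hN'').A := ‹IsDiscreteValuationRing ↥O›
  obtain ⟨ϖ, hϖ⟩ := IsDiscreteValuationRing.exists_irreducible ↥(t4ebBase Y hqO hN'').A
  let Ch : T2sChart (t4ebBase Y hqO hN'') :=
    { x := y
      tr := Hy.gen.transcendental
      mem := Hy.mem_Ov
      trρ := t4ecr_res_transcendental hqO hN'' Hy Hy.mem_Ov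
      ϖ := ϖ
      irr := hϖ }
  haveI : FiniteDimensional ↥(L⟮Ch.x⟯) ↥(TaF L (t4eLev N'' q i)) := Hy.gen.finite
  haveI : Algebra.IsSeparable ↥(L⟮Ch.x⟯) ↥(TaF L (t4eLev N'' q i)) := Hy.isSeparable
  have hx0 : Ch.x ≠ 0 := fun h0 => Hy.gen.transcendental (by
    show IsAlgebraic L y
    have : y = 0 := h0
    rw [this]
    exact isAlgebraic_zero)
  exact t4vc_fin Ch hInt (fun f hf => t4ec_cl Y Hy.mem_Ov hf) hx0

include hqO hN'' in
/-- **the chart ring of a chart coordinate with (Int) is noetherian** -/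
theorem t4ecrn_noeth {y : ↥(TaF L (t4eLev N'' q i))} (Hy : T4ecHyp Y y)
    (hInt : ∀ f : ↥(TaF L (t4eLev N'' q i)), f ∈ Y.Ov → f ∈ t2Int (K := L) y →
      IsIntegral ↥(Algebra.adjoin ↥O {y}) f)
    (B : Subring ↥(TaF L (t4eLev N'' q i)))
    (hB : ∀ f, f ∈ B ↔ f ∈ t2Int (K := L) y ∧ f ∈ Y.Ov) : IsNoetherianRing ↥B := by
  haveI : IsNoetherianRing ↥(t4ebBase Y hqO hN'').A := (inferInstance : IsNoetherianRing ↥O)
  obtain ⟨e, he⟩ := t4ecrn_fin hqO hN'' Hy hInt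
  exact t4vq_isNoetherianRing (t4ebBase Y hqO hN'') he Hy.mem_Ov B hB

variable {Q : ℕ} (hQ : 2 ≤ Q)
  (hgen : Fermat.Agent.Curve.IsFunctionFieldGen L ↥(TaF L (t4eLev N'' q i)) (t4ecX L N'' q i Q))

include hqO hN'' hQ hgen in
/-- **the chart ring of `X_i` is noetherian** -/
theorem t4ecrn_noeth_X (B : Subring ↥(TaF L (t4eLev N'' q i)))
    (hB : ∀ f, f ∈ B ↔ f ∈ t2Int (K := L) (t4ecX L N'' q i Q) ∧ f ∈ Y.Ov) :
    IsNoetherianRing ↥B :=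
  t4ecrn_noeth hqO hN'' (t4ecHyp_X Y hQ hgen)
    (fun f hf hint => t4ec_int_X Y hQ hqO hN'' hf hint) B hB

include hqO hN'' hQ hgen in
/-- **the chart ring of `X_i⁻¹` is noetherian** -/
theorem t4ecrn_noeth_X_inv (B : Subring ↥(TaF L (t4eLev N'' q i)))
    (hB : ∀ f, f ∈ B ↔ f ∈ t2Int (K := L) (t4ecX L N'' q i Q)⁻¹ ∧ f ∈ Y.Ov) :
    IsNoetherianRing ↥B :=
  t4ecrn_noeth hqO hN'' (t4ecHyp_X_inv Y hQ hgen)
    (fun f hf hint => t4ec_int_X_inv Y hQ hqO hN'' hf hint) B hB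

include hN'' in
/-- the ring of helper2's chart presentation is noetherian -/
theorem t4ecrn_noeth_pres {y : ↥(TaF L (t4eLev N'' q i))} (Hy : T4ecHyp Y y) (hcrt : T4ecCrt Y)
    (hInt : ∀ f : ↥(TaF L (t4eLev N'' q i)), f ∈ Y.Ov → f ∈ t2Int (K := L) y →
      IsIntegral ↥(Algebra.adjoin ↥O {y}) f) :
    IsNoetherianRing ↥(t4ecPres hqO Hy hcrt).B :=
  t4ecrn_noeth hqO hN'' Hy hInt _ (mem_t4ecPres_B hqO Hy hcrt)

end Gen

/-! ### The inertia level -/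

section Fix

attribute [local instance] t2i_dvr t2i_isAlgClosed t2i_charP t2i_fact

variable (𝔓 : FFPlace) (N'' : ℕ) [NeZero N''] (h : ¬ 𝔓.p ∣ N'') {i : ℕ}
  (Y : T4eLayer (tbFixO 𝔓 ⊤) (tbFixRes 𝔓 ⊤) (tbFixRes_surjective 𝔓 ⊤) N'' 𝔓.p i)
  {Q : ℕ} (hQ : 2 ≤ Q)

include h hQ in
/-- **the chart ring of `X_i` is noetherian** (inertia level) -/
theorem t4ecrn_noeth_X_fix (B : Subring ↥(tbLevF 𝔓 (t4eLev N'' 𝔓.p i) ⊤))
    (hB : ∀ f, f ∈ B ↔ f ∈ t2Int (K := ↥(tbFix 𝔓 (⊤ : Subgroup 𝔓.I)))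
      (t4ecX ↥(tbFix 𝔓 (⊤ : Subgroup 𝔓.I)) N'' 𝔓.p i Q) ∧ f ∈ Y.Ov) : IsNoetherianRing ↥B :=
  t4ecrn_noeth_X (t4cy_irreducible_p 𝔓) (t2i_natCast_ne_zero 𝔓 h) hQ (t4ecr_gen_fix 𝔓 N'' hQ) B hB

include h hQ in
/-- **the chart ring of `X_i⁻¹` is noetherian** (inertia level) -/
theorem t4ecrn_noeth_X_inv_fix (B : Subring ↥(tbLevF 𝔓 (t4eLev N'' 𝔓.p i) ⊤))
    (hB : ∀ f, f ∈ B ↔ f ∈ t2Int (K := ↥(tbFix 𝔓 (⊤ : Subgroup 𝔓.I)))
      (t4ecX ↥(tbFix 𝔓 (⊤ : Subgroup 𝔓.I)) N'' 𝔓.p i Q)⁻¹ ∧ f ∈ Y.Ov) : IsNoetherianRing ↥B :=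
  t4ecrn_noeth_X_inv (t4cy_irreducible_p 𝔓) (t2i_natCast_ne_zero 𝔓 h) hQ
    (t4ecr_gen_fix 𝔓 N'' hQ) B hB

end Fix

end Fermat.Agent.T4
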