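/-
T4E / P6–P7 (lead): **"SEP2" at every level of the tower — on chart 2 (`u = X_i⁻¹` regular,
`X_i = j^(q²) - j`) at most ONE vertical valuation ring passes through a closed point** (`hone`, the
left alternative of `hcase`; generalises helper9's `T4/Inst/Sep2*.lean`, which is level `2`).

With `J_n = a_n j` and `u = (J_0^(q²) - J_0)⁻¹`, the STEP ELEMENTS
  `e_n := -(J_n - J_{n+1}^q) · u^(q^n)`   (`n < i`)
lie in `𝒪_i`, reduce to `0` on the components `w ≤ n` and to `1` on the components `w > n` (residue table,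
`j̄(𝔮^q) = j̄^q`, `Q = q²`), and are integral over `L[u]` as soon as `J_n / J_0^(q^n)` is integral over
`L[1 / J_0]` (`T4es2Cusp`, the cusp package: pole orders at the cusps).  Hence `e_w` separates the
components `w < w'`.

* `t4es2_isIntegral_step` (pure algebra); `t4es2J`, `t4es2E`; `T4eLayer.t4es2_E_mem_Ov`,
  `T4eLayer.t4es2_val_le`, `T4eLayer.t4es2_val_gt`, `T4eLayer.t4es2_E_int`;
* **`t4es2_hone_label`**, **`t4es2_hone`** : for ANY presentation `P` with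
  `P.B = t2Int (X_i⁻¹) ∩ 𝒪_i`.
(The inertia-level instance `t4es2_hone_fix`, with the cusp package discharged, is in `Chart/Sep2Fix.lean`.)
-/
import Fermat.Agent.Lib.T4E.Chart.Coord
import Fermat.Agent.Lib.T4E.Chart.Pres
import Fermat.Agent.Lib.T4E.Tower.Sep
import Fermat.Agent.Lib.T4.Inst.Sep2
import Fermat.Agent.Lib.T4.Local.SmoothDed

set_option autoImplicit false
set_option linter.unusedSectionVars false
set_option linter.unusedVariables false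
set_option linter.style.haveILetI false
set_option synthInstance.maxHeartbeats 400000

open HahnSeries ModularCurve Fermat.Agent.T1 Fermat.Agent.T2 IntermediateField Polynomial

noncomputable section

namespace Fermat.Agent.T4

/-! ### Pure algebra -/

section Alg

variable {K F : Type*} [Field K] [Field F] [Algebra K F]

/-- the step element `-(Jₙ - Jₙ₊₁^q) u^(q^n)`, `u = (J₀^(q²) - J₀)⁻¹`, is integral over `K[u]` as soon
as `Jₙ / J₀^(q^n)` and `Jₙ₊₁ / J₀^(q^(n+1))` are integral over `K[1 / J₀]` -/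
theorem t4es2_isIntegral_step (J0 Jn Jn1 : F) {q n : ℕ} (hq : 2 ≤ q)
    (hx : J0 ^ (q * q) - J0 ≠ 0) (h0 : J0 ≠ 0)
    (hJn : IsIntegral ↥(Algebra.adjoin K {J0⁻¹}) (Jn * J0⁻¹ ^ (q ^ n)))
    (hJn1 : IsIntegral ↥(Algebra.adjoin K {J0⁻¹}) (Jn1 * J0⁻¹ ^ (q ^ (n + 1)))) :
    IsIntegral ↥(Algebra.adjoin K {(J0 ^ (q * q) - J0)⁻¹})
      (-((Jn - Jn1 ^ q) * (J0 ^ (q * q) - J0)⁻¹ ^ (q ^ n))) := by
  have hQ : 2 ≤ q * q := le_trans hq (Nat.le_mul_of_pos_right q (by omega))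
  set u : F := (J0 ^ (q * q) - J0)⁻¹ with hu
  have a0 : IsIntegral ↥(Algebra.adjoin K {u}) (J0 * u) :=
    t4vs2_isIntegral_mul_inv (K := K) J0 hQ hx
  have ai : IsIntegral ↥(Algebra.adjoin K {u}) J0⁻¹ :=
    t4vs2_isIntegral_inv (K := K) J0 hQ hx h0
  have bn : IsIntegral ↥(Algebra.adjoin K {u}) (Jn * J0⁻¹ ^ (q ^ n)) :=
    t2c_isIntegral_trans ai hJn
  have bn1 : IsIntegral ↥(Algebra.adjoin K {u}) (Jn1 * J0⁻¹ ^ (q ^ (n + 1))) :=
    t2c_isIntegral_trans ai hJn1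
  have hux : u * (J0 ^ (q * q) - J0) = 1 := inv_mul_cancel₀ hx
  have h1 : 1 + J0 * u = J0 ^ (q * q) * u := by linear_combination -hux
  have e1 : Jn * J0⁻¹ ^ (q ^ n) * (J0 * u) ^ (q ^ n) = Jn * u ^ (q ^ n) := by
    rw [mul_pow, inv_pow, mul_assoc, ← mul_assoc (J0 ^ (q ^ n))⁻¹,
      inv_mul_cancel₀ (pow_ne_zero _ h0), one_mul]
  have e2 : (Jn1 * J0⁻¹ ^ (q ^ (n + 1))) ^ q * (1 + J0 * u) ^ (q ^ n) = Jn1 ^ q * u ^ (q ^ n) := by
    rw [h1, mul_pow, mul_pow, ← pow_mul, ← pow_mul, inv_pow,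
      show q ^ (n + 1) * q = q * q * q ^ n by ring, mul_assoc, ← mul_assoc (J0 ^ (q * q * q ^ n))⁻¹,
      inv_mul_cancel₀ (pow_ne_zero _ h0), one_mul]
  have h : -((Jn - Jn1 ^ q) * u ^ (q ^ n))
      = -(Jn * J0⁻¹ ^ (q ^ n) * (J0 * u) ^ (q ^ n))
        + (Jn1 * J0⁻¹ ^ (q ^ (n + 1))) ^ q * (1 + J0 * u) ^ (q ^ n) := by
    rw [e1, e2]
    ring
  rw [h]
  exact ((bn.mul (a0.pow _)).neg).add ((bn1.pow _).mul ((isIntegral_one.add a0).pow _))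

end Alg

/-! ### The step elements on the components of a layer -/

theorem t4es2_exp_low {i w n : ℕ} (hn : n ≤ w) : t4eExp i w n = t4eExp i w 0 + n := by
  unfold t4eExp
  rw [if_pos hn, if_pos (Nat.zero_le w)]
  omega

section Layer

variable {L : Type} [Field L] [Algebra ℚ L] {O : ValuationSubring L} {k : Type*} [Field k]
  {π : ↥O →+* k} [IsDiscreteValuationRing ↥O] {hπ : Function.Surjective π}
  {N'' q : ℕ} [NeZero N''] [hq : Fact q.Prime] [CharP k q] {i : ℕ}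
  (Y : T4eLayer O π hπ N'' q i)

/-- `J_n = a_n j` -/
def t4es2J (L : Type) [Field L] [Algebra ℚ L] (N'' q : ℕ) [NeZero N''] [NeZero q] (i n : ℕ) :
    ↥(TaF L (t4eLev N'' q i)) := t4eDeg L N'' q i n (taJ N'')

/-- the step element `e_n = -(J_n - J_{n+1}^q) u^(q^n)`, `u = X_i⁻¹`, `X_i = j^(q²) - j` -/
def t4es2E (L : Type) [Field L] [Algebra ℚ L] (N'' q : ℕ) [NeZero N''] [NeZero q] (i n : ℕ) :
    ↥(TaF L (t4eLev N'' q i)) :=
  -((t4es2J L N'' q i n - t4es2J L N'' q i (n + 1) ^ q) * (t4ecX L N'' q i (q * q))⁻¹ ^ (q ^ n))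

theorem t4es2_X_eq :
    t4ecX L N'' q i (q * q) = t4es2J L N'' q i 0 ^ (q * q) - t4es2J L N'' q i 0 := by
  unfold t4ecX t4es2J
  rw [t4eDeg_zero_taJ]

theorem T4eLayer.t4es2_J_mem {w n : ℕ} (hw : w ≤ i) (hn : n ≤ i) : t4es2J L N'' q i n ∈ Y.V w :=
  Y.a_mem w hw n hn _ (taJ_mem_taOv O π hπ N'')

theorem T4eLayer.t4es2_rho_J {w n : ℕ} (hw : w ≤ i) (hn : n ≤ i) :
    Y.ρ w ⟨_, Y.t4es2_J_mem hw hn⟩ = jqModC k ^ (q ^ t4eExp i w n) := by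
  have h := Y.ρ_a w hw n hn _ (taJ_mem_taOv O π hπ N'')
  rw [taResN_taJ, t4es_qExpand_pow_jq] at h
  exact h

theorem T4eLayer.t4es2_X_mem {w : ℕ} (hw : w ≤ i) : t4ecX L N'' q i (q * q) ∈ Y.V w := by
  rw [t4es2_X_eq]
  exact sub_mem (pow_mem (Y.t4es2_J_mem hw (Nat.zero_le i)) _) (Y.t4es2_J_mem hw (Nat.zero_le i))

/-- `X̄ = j̄^(q²) - j̄` -/
def t4es2Xb (k : Type*) [Field k] (q : ℕ) : LaurentSeries k := jqModC k ^ (q * q) - jqModC k

omit [CharP k q] in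
theorem t4es2Xb_ne_zero : t4es2Xb k q ≠ 0 := by
  have h := t2kr_xbar_ne_zero (k := k) q
  rw [pow_two] at h
  exact h

theorem t4es2Xb_pow (m : ℕ) :
    t4es2Xb k q ^ (q ^ m) = jqModC k ^ (q ^ m * (q * q)) - jqModC k ^ (q ^ m) := by
  haveI : CharP (LaurentSeries k) q :=
    charP_of_injective_algebraMap (algebraMap k (LaurentSeries k)).injective q
  unfold t4es2Xb
  rw [sub_pow_char_pow, ← pow_mul, mul_comm (q * q)]

theorem T4eLayer.t4es2_rho_X {w : ℕ} (hw : w ≤ i) :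
    Y.ρ w ⟨_, Y.t4es2_X_mem hw⟩ = t4es2Xb k q ^ (q ^ t4eExp i w 0) := by
  have h1 : (⟨_, Y.t4es2_X_mem hw⟩ : ↥(Y.V w))
      = ⟨_, Y.t4es2_J_mem hw (Nat.zero_le i)⟩ ^ (q * q) - ⟨_, Y.t4es2_J_mem hw (Nat.zero_le i)⟩ :=
    Subtype.ext t4es2_X_eq
  rw [h1, map_sub, map_pow, Y.t4es2_rho_J hw (Nat.zero_le i), t4es2Xb_pow, ← pow_mul]

theorem T4eLayer.t4es2_X_inv_mem {w : ℕ} (hw : w ≤ i) : (t4ecX L N'' q i (q * q))⁻¹ ∈ Y.V w := by
  have h1 : Y.ρ w ⟨_, Y.t4es2_X_mem hw⟩ ≠ 0 := by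
    rw [Y.t4es2_rho_X hw]
    exact pow_ne_zero _ t4es2Xb_ne_zero
  rw [Ne, Y.ρ_eq_zero w hw, t4l_valuation_lt_one_iff] at h1
  push Not at h1
  exact h1.2

theorem T4eLayer.t4es2_rho_X_inv {w : ℕ} (hw : w ≤ i) :
    Y.ρ w ⟨_, Y.t4es2_X_inv_mem hw⟩ * t4es2Xb k q ^ (q ^ t4eExp i w 0) = 1 := by
  rw [← Y.t4es2_rho_X hw, ← map_mul]
  have h1 : (⟨_, Y.t4es2_X_inv_mem hw⟩ : ↥(Y.V w)) * ⟨_, Y.t4es2_X_mem hw⟩ = 1 := by
    apply Subtype.ext
    show (t4ecX L N'' q i (q * q))⁻¹ * t4ecX L N'' q i (q * q) = 1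
    apply inv_mul_cancel₀
    intro h0
    have h2 := Y.t4es2_rho_X hw
    have h3 : (⟨_, Y.t4es2_X_mem hw⟩ : ↥(Y.V w)) = 0 := Subtype.ext h0
    rw [h3, map_zero] at h2
    exact pow_ne_zero _ t4es2Xb_ne_zero h2.symm
  rw [h1, map_one]

/-- the step element lies in every component -/
theorem T4eLayer.t4es2_E_mem {w n : ℕ} (hw : w ≤ i) (hn : n < i) : t4es2E L N'' q i n ∈ Y.V w :=
  neg_mem (mul_mem (sub_mem (Y.t4es2_J_mem hw hn.le) (pow_mem (Y.t4es2_J_mem hw hn) _))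
    (pow_mem (Y.t4es2_X_inv_mem hw) _))

theorem T4eLayer.t4es2_E_mem_Ov {n : ℕ} (hn : n < i) : t4es2E L N'' q i n ∈ Y.Ov :=
  fun w hw => Y.t4es2_E_mem hw hn

/-- the reduction of the step element -/
theorem T4eLayer.t4es2_rho_E {w n : ℕ} (hw : w ≤ i) (hn : n < i) :
    Y.ρ w ⟨_, Y.t4es2_E_mem hw hn⟩
      = -((jqModC k ^ (q ^ t4eExp i w n) - (jqModC k ^ (q ^ t4eExp i w (n + 1))) ^ q)
          * Y.ρ w ⟨_, Y.t4es2_X_inv_mem hw⟩ ^ (q ^ n)) := by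
  have h1 : (⟨_, Y.t4es2_E_mem hw hn⟩ : ↥(Y.V w))
      = -((⟨_, Y.t4es2_J_mem hw hn.le⟩ - ⟨_, Y.t4es2_J_mem hw hn⟩ ^ q)
          * ⟨_, Y.t4es2_X_inv_mem hw⟩ ^ (q ^ n)) := rfl
  rw [h1, map_neg, map_mul, map_sub, map_pow, map_pow, Y.t4es2_rho_J hw hn.le,
    Y.t4es2_rho_J hw hn]

/-- **`e_n ≡ 0` on the components `w ≤ n`** -/
theorem T4eLayer.t4es2_val_le {w n : ℕ} (hw : w ≤ n) (hn : n < i) :
    (Y.V w).valuation (t4es2E L N'' q i n) < 1 := by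
  have hwi : w ≤ i := by omega
  have h := (Y.ρ_eq_zero w hwi ⟨_, Y.t4es2_E_mem hwi hn⟩).mp
  apply h
  rw [Y.t4es2_rho_E hwi hn, ← pow_mul, ← pow_succ, t4es_exp_down hw hn, sub_self, zero_mul,
    neg_zero]

/-- **`e_n ≡ 1` on the components `w > n`** -/
theorem T4eLayer.t4es2_val_gt {w n : ℕ} (hn : n < w) (hw : w ≤ i) :
    (Y.V w).valuation (t4es2E L N'' q i n - 1) < 1 := by
  have hni : n < i := by omega
  have hmem : t4es2E L N'' q i n - 1 ∈ Y.V w := sub_mem (Y.t4es2_E_mem hw hni) (Y.V w).one_mem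
  have h := (Y.ρ_eq_zero w hw ⟨_, hmem⟩).mp
  apply h
  have h1 : (⟨_, hmem⟩ : ↥(Y.V w)) = ⟨_, Y.t4es2_E_mem hw hni⟩ - 1 := rfl
  rw [h1, map_sub, map_one, Y.t4es2_rho_E hw hni, ← pow_mul, ← pow_succ, t4es_exp_up hw hn,
    sub_eq_zero]
  -- `j̄^(q^x) - j̄^(q^(x+2)) = -X̄^(q^x)`, `x = x_0 + n`
  have h2 : jqModC k ^ q ^ t4eExp i w n - jqModC k ^ q ^ (t4eExp i w n + 1 + 1)
      = -(t4es2Xb k q ^ (q ^ t4eExp i w 0)) ^ (q ^ n) := by
    rw [← pow_mul, ← _root_.pow_add, ← t4es2_exp_low hn.le, t4es2Xb_pow, neg_sub,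
      show q ^ (t4eExp i w n + 1 + 1) = q ^ t4eExp i w n * (q * q) by ring]
  rw [h2, neg_mul, neg_neg, ← mul_pow, mul_comm, Y.t4es2_rho_X_inv hw, one_pow]

end Layer

/-! ### At most one vertical valuation ring through a point of chart 2 -/

section Hone

variable {L : Type} [Field L] [Algebra ℚ L] {O : ValuationSubring L} {k : Type*} [Field k]
  {π : ↥O →+* k} [IsDiscreteValuationRing ↥O] {hπ : Function.Surjective π}
  {N'' q : ℕ} [NeZero N''] [hq : Fact q.Prime] [CharP k q] {i : ℕ}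
  (Y : T4eLayer O π hπ N'' q i)

include Y in
theorem T4eLayer.t4es2_X_ne_zero : t4ecX L N'' q i (q * q) ≠ 0 := by
  intro h0
  have h2 := Y.t4es2_rho_X (le_refl i)
  have h3 : (⟨_, Y.t4es2_X_mem (le_refl i)⟩ : ↥(Y.V i)) = 0 := Subtype.ext h0
  rw [h3, map_zero] at h2
  exact pow_ne_zero _ t4es2Xb_ne_zero h2.symm

include Y in
theorem T4eLayer.t4es2_J_ne_zero : t4es2J L N'' q i 0 ≠ 0 := by
  intro h0
  have h2 := Y.t4es2_rho_J (le_refl i) (Nat.zero_le i)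
  have h3 : (⟨_, Y.t4es2_J_mem (le_refl i) (Nat.zero_le i)⟩ : ↥(Y.V i)) = 0 := Subtype.ext h0
  rw [h3, map_zero] at h2
  exact pow_ne_zero _ (jqModC_ne_zero_of_nontrivial k) h2.symm

/-- the cusp package at level `i`: `J_n / J_0^(q^n)` is integral over `L[1 / J_0]` -/
def T4es2Cusp (L : Type) [Field L] [Algebra ℚ L] (N'' q : ℕ) [NeZero N''] [NeZero q] (i : ℕ) :
    Prop :=
  ∀ n ≤ i, IsIntegral ↥(Algebra.adjoin L {(t4es2J L N'' q i 0)⁻¹})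
    (t4es2J L N'' q i n * (t4es2J L N'' q i 0)⁻¹ ^ (q ^ n))

include Y in
/-- the step elements are integral over `L[X_i⁻¹]` -/
theorem T4eLayer.t4es2_E_int (hcusp : T4es2Cusp L N'' q i) {n : ℕ} (hn : n < i) :
    t4es2E L N'' q i n ∈ t2Int (K := L) (t4ecX L N'' q i (q * q))⁻¹ := by
  have hx := Y.t4es2_X_ne_zero
  rw [t4es2_X_eq] at hx
  have h := t4es2_isIntegral_step (K := L) (t4es2J L N'' q i 0) (t4es2J L N'' q i n)
    (t4es2J L N'' q i (n + 1)) (n := n) hq.out.two_le hx Y.t4es2_J_ne_zero (hcusp n hn.le)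
    (hcusp (n + 1) hn)
  rw [mem_t2Int]
  unfold t4es2E
  rw [t4es2_X_eq]
  exact h

variable {Y}

/-- **at most one component passes through a point of chart 2** (labels) -/
theorem t4es2_hone_label (hcusp : T4es2Cusp L N'' q i) (P : T4Pres ↥(TaF L (t4eLev N'' q i)))
    (hB : ∀ f : ↥(TaF L (t4eLev N'' q i)), f ∈ P.B ↔
      f ∈ t2Int (K := L) (t4ecX L N'' q i (q * q))⁻¹ ∧ f ∈ Y.Ov)
    {𝔫 : Ideal P.B} (h𝔫 : 𝔫 ≠ ⊤) {w w' : ℕ} (hw : w ≤ i) (hw' : w' ≤ i)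
    (hV : Y.V w ∈ P.through 𝔫) (hV' : Y.V w' ∈ P.through 𝔫) : w = w' := by
  have key : ∀ {a b : ℕ}, a < b → b ≤ i → Y.V a ∈ P.through 𝔫 → Y.V b ∈ P.through 𝔫 → False := by
    intro a b hab hb hVa hVb
    have hai : a < i := by omega
    have he : t4es2E L N'' q i a ∈ P.B :=
      (hB _).mpr ⟨Y.t4es2_E_int hcusp hai, Y.t4es2_E_mem_Ov hai⟩
    refine P.not_through_of_sep h𝔫 he (Y.t4es2_val_le (le_refl a) hai) ?_ hVa hVb
    rw [← neg_sub, Valuation.map_neg]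
    exact Y.t4es2_val_gt hab hb
  rcases lt_trichotomy w w' with hlt | heq | hgt
  · exact (key hlt hw' hV hV').elim
  · exact heq
  · exact (key hgt hw hV' hV).elim

/-- **`hone` on chart 2**: at most one vertical valuation ring passes through a closed point -/
theorem t4es2_hone (hcusp : T4es2Cusp L N'' q i) (P : T4Pres ↥(TaF L (t4eLev N'' q i)))
    (hB : ∀ f : ↥(TaF L (t4eLev N'' q i)), f ∈ P.B ↔
      f ∈ t2Int (K := L) (t4ecX L N'' q i (q * q))⁻¹ ∧ f ∈ Y.Ov)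
    {S : Set (ValuationSubring ↥(TaF L (t4eLev N'' q i)))} (hS : ∀ V ∈ S, V ∈ Y.ver)
    (𝔫 : Ideal P.B) (h𝔫 : 𝔫 ≠ ⊤) :
    ∀ V ∈ P.through 𝔫, V ∈ S → ∀ V' ∈ P.through 𝔫, V' ∈ S → V = V' := by
  intro V hV hVS V' hV' hVS'
  obtain ⟨w, hw, rfl⟩ := hS V hVS
  obtain ⟨w', hw', rfl⟩ := hS V' hVS'
  rw [t4es2_hone_label hcusp P hB h𝔫 hw hw' hV hV']

end Hone

end Fermat.Agent.T4
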