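/-
T4E / P6–P7 (lead): `hone` on chart 2 **at the inertia level**: the cusp package `T4es2Cusp` at every
level of the tower (`t2cp_isIntegral_Y_div` with `d = p^n`, descended by `t2d_isIntegral_tbPhiF_iff`)
and **`t4es2_hone_fix`** for the layers `t4efLayer 𝔓 N'' h i hi`.
-/
import Fermat.Agent.Lib.T4E.Chart.Sep2
import Fermat.Agent.Lib.T4E.Tower.FixData
import Fermat.Agent.Lib.T2.Inst.Cusp
import Fermat.Agent.Lib.T2.Desc.LevelMod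

set_option autoImplicit false
set_option linter.unusedSectionVars false
set_option linter.unusedVariables false
set_option linter.style.haveILetI false
set_option synthInstance.maxHeartbeats 400000

open HahnSeries ModularCurve Module AlgebraicCurve IntermediateField Fermat.Agent.Curve
  Fermat.Agent.T1 Fermat.Agent.T2 Fermat.Agent.TW Fermat.Agent.S05Lib

noncomputable section

namespace Fermat.Agent.T4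

local notation "Qb" => AlgebraicClosure ℚ

attribute [local instance] t2i_dvr t2i_isAlgClosed t2i_charP t2i_fact

variable (𝔓 : FFPlace) (N'' : ℕ) [NeZero N''] (H : Subgroup 𝔓.I)

theorem t4es2_pow_dvd_lev {i n : ℕ} (hn : n ≤ i) : 𝔓.p ^ n ∣ t4eLev N'' 𝔓.p i := by
  rw [t4eLev_eq]
  exact Dvd.dvd.mul_left (pow_dvd_pow _ hn) _

/-- the image of `a_n j` in `F_ℚ̄` -/
theorem t4es2_tbPhiF_J {i n : ℕ} (hn : n ≤ i) :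
    haveI : NeZero (𝔓.p ^ n) := ⟨pow_ne_zero _ 𝔓.hp.ne_zero⟩
    tbPhiF 𝔓 (t4eLev N'' 𝔓.p i) H (t4es2J ↥(tbFix 𝔓 H) N'' 𝔓.p i n) =
      t2cpYq (t4eLev N'' 𝔓.p i) (𝔓.p ^ n) (t4es2_pow_dvd_lev 𝔓 N'' hn) := by
  haveI : NeZero (𝔓.p ^ n) := ⟨pow_ne_zero _ 𝔓.hp.ne_zero⟩
  apply Subtype.ext
  unfold t4es2J
  rw [coe_tbPhiF, coe_t4eDeg _ N'' 𝔓.p i n hn, coe_taJ, coe_t2cpYq, tbPhi, coeffMap_qExpand,
    coeffMap_jqModC]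

/-- the image of `a_0 j` in `F_ℚ̄` -/
theorem t4es2_tbPhiF_J0 (i : ℕ) :
    tbPhiF 𝔓 (t4eLev N'' 𝔓.p i) H (t4es2J ↥(tbFix 𝔓 H) N'' 𝔓.p i 0) = tbJ (t4eLev N'' 𝔓.p i) := by
  unfold t4es2J
  rw [t4eDeg_zero_taJ]
  exact tbPhiF_tbLevJ 𝔓 (t4eLev N'' 𝔓.p i) H

/-- **the cusp package at every level of the tower**, at the inertia levels -/
theorem t4es2_cusp_fix (i : ℕ) : T4es2Cusp ↥(tbFix 𝔓 H) N'' 𝔓.p i := by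
  intro n hn
  haveI : NeZero (𝔓.p ^ n) := ⟨pow_ne_zero _ 𝔓.hp.ne_zero⟩
  rw [t2d_isIntegral_tbPhiF_iff, map_mul, map_pow, map_inv₀, t4es2_tbPhiF_J0, t4es2_tbPhiF_J 𝔓 N'' H hn]
  exact t2cp_isIntegral_Y_div (t4eLev N'' 𝔓.p i) (𝔓.p ^ n) (t4es2_pow_dvd_lev 𝔓 N'' hn)

variable (h : ¬ 𝔓.p ∣ N'')

/-- **`hone` on chart 2 at the inertia level**, for every level `i ≥ 1` of the tower and ANY
presentation of chart 2 -/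
theorem t4es2_hone_fix (i : ℕ) (hi : 1 ≤ i)
    (P : T4Pres ↥(TaF ↥(tbFix 𝔓 (⊤ : Subgroup 𝔓.I)) (t4eLev N'' 𝔓.p i)))
    (hB : ∀ f : ↥(TaF ↥(tbFix 𝔓 (⊤ : Subgroup 𝔓.I)) (t4eLev N'' 𝔓.p i)), f ∈ P.B ↔
      f ∈ t2Int (K := ↥(tbFix 𝔓 (⊤ : Subgroup 𝔓.I)))
        (t4ecX ↥(tbFix 𝔓 (⊤ : Subgroup 𝔓.I)) N'' 𝔓.p i (𝔓.p * 𝔓.p))⁻¹ ∧
      f ∈ (t4efLayer 𝔓 N'' h i hi).Ov)
    {S : Set (ValuationSubring ↥(TaF ↥(tbFix 𝔓 (⊤ : Subgroup 𝔓.I)) (t4eLev N'' 𝔓.p i)))}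
    (hS : ∀ V ∈ S, V ∈ (t4efLayer 𝔓 N'' h i hi).ver) (𝔫 : Ideal P.B) (h𝔫 : 𝔫 ≠ ⊤) :
    ∀ V ∈ P.through 𝔫, V ∈ S → ∀ V' ∈ P.through 𝔫, V' ∈ S → V = V' :=
  t4es2_hone (t4es2_cusp_fix 𝔓 N'' ⊤ i) P hB hS 𝔫 h𝔫

end Fermat.Agent.T4
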