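/-
T4E-P6b CHARTS (helper3), file 2: **the residue field of a closed point of the special fibre of a chart
of level `i` is `k`** (generic level `i`, abstract unramified DVR level `(L, O, π, k)`, abstract layer
`Y : T4eLayer O π hπ N'' q i`; prefix `t4ecr`).

`P` ANY presentation of the chart ring `B = IntCl(L[a_0 y₀]) ∩ 𝒪_i` (dictionaries `hB`, `hvals`; e.g.
helper2's `t4ecPres` with `mem_t4ecPres_B`, `t4ecPres_vals`), `y₀ ∈ F_0` a chart of level `N''` with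
good reduction ((Int) in residue form: the first two fields `mem`, `int` of helper5's `T4vmGood`).

* `t4ecr_isIntegral_algHom` : (abstract) `k`-algebra homomorphisms preserve integrality over `k[y]`;
* `t4ecr_const_mem_B`, `t4ecrIota : O →+* B` (constants), `t4ecr_vert` (`P.vert q = Y.ver`),
  `t4ecrR P hB hw : B →+* k((𝔮))` (the reduction at the component `w` on the chart ring);
* **`t4ecr_isIntegral_rho`** : for `f ∈ 𝒪_i` integral over `L[a_0 y₀]`, `ρ_w f` is integral over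
  `k[ρ_w (a_0 y₀)]`, `ρ_w (a_0 y₀) = ȳ₀(𝔮^{q^x})`, `x = t4eExp i w 0` (tower lemma
  `t4vm_isIntegral_res_tower` + helper2's `t4ec_isIntegralElem_a0` + the residue table `ρ_a`);
* **`t4ecr_resField`** : for `𝔫 ∋ q` maximal, every `b ∈ B` is congruent modulo `𝔫` to a constant of `O`
  (the shape `hres` of `t4rt_hk_of_res` / `t4vk_resField`); `T4vmGood.t4ecr_resField` (from `G`);
* inertia level: `t4ecr_resField_X_fix`, `t4ecr_resField_X_inv_fix` for the two charts `X_i^{±1}`.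
-/
import Fermat.Agent.Lib.T4E.Chart.RR
import Fermat.Agent.Lib.T4.Inst.ChartResKAbs
import Fermat.Agent.Lib.T4.Inst.ResInt
import Fermat.Agent.Lib.T4.Inst.GoodFix
import Fermat.Agent.Lib.T4.Reg.TopReg

set_option autoImplicit false
set_option linter.unusedSectionVars false
set_option linter.unusedVariables false
set_option linter.style.haveILetI false
set_option synthInstance.maxHeartbeats 400000
set_option maxHeartbeats 1000000

open HahnSeries ModularCurve IntermediateField Fermat.Agent.T1 Fermat.Agent.T2 Fermat.Agent.TW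

noncomputable section

namespace Fermat.Agent.T4

/-- `k`-algebra homomorphisms preserve integrality over `k[y]` -/
theorem t4ecr_isIntegral_algHom {k A B : Type*} [CommRing k] [CommRing A] [CommRing B]
    [Algebra k A] [Algebra k B] (φ : A →ₐ[k] B) {y t : A}
    (h : IsIntegral ↥(Algebra.adjoin k {y}) t) : IsIntegral ↥(Algebra.adjoin k {φ y}) (φ t) := by
  refine t4vm_isIntegral_map (algebraMap ↥(Algebra.adjoin k {y}) A) (φ : A →+* B)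
    (Algebra.adjoin k {φ y}) (fun r => ?_) h
  rw [← AlgHom.map_adjoin_singleton φ y]
  exact ⟨(r : A), r.2, rfl⟩

section Gen

variable {L : Type} [Field L] [Algebra ℚ L] {O : ValuationSubring L} {k : Type*} [Field k]
  {π : ↥O →+* k} [IsDiscreteValuationRing ↥O] {hπ : Function.Surjective π} [IsAlgClosed k]
  {N'' q : ℕ} [NeZero N''] [hq : Fact q.Prime] [CharP k q] {i : ℕ}
  (Y : T4eLayer O π hπ N'' q i) (hqO : Irreducible ((q : ℕ) : ↥O)) (hN'' : (N'' : k) ≠ 0)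

/-! ### Reductions of chart-integral elements -/

/-- the `k`-algebra homomorphism `E' → k((𝔮))`, `f ↦ f(𝔮^n)` -/
def t4ecrPhi (k : Type*) [Field k] (N'' n : ℕ) [NeZero N''] [NeZero n] :
    ↥(modularFunctionFieldFullC k N'') →ₐ[k] LaurentSeries k :=
  (qExpandAlgHomC k n).comp (modularFunctionFieldFullC k N'').val

theorem t4ecrPhi_apply (n : ℕ) [NeZero n] (t : ↥(modularFunctionFieldFullC k N'')) :
    t4ecrPhi k N'' n t = qExpand k n (t : LaurentSeries k) := rfl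

section Int

variable {y0 : ↥(TaF L N'')} (hy0 : y0 ∈ taOv O π hπ N'')
  (hInt0 : ∀ g : ↥(taOv O π hπ N''), IsIntegral ↥(Algebra.adjoin L {y0}) (g : ↥(TaF L N'')) →
    IsIntegral ↥(Algebra.adjoin k {t2iRes O π hπ N'' hN'' ⟨y0, hy0⟩}) (t2iRes O π hπ N'' hN'' g))

include hInt0 in
/-- (Int) in residue form at level `N''`, transported by `𝔮 ↦ 𝔮^n` -/
theorem t4ecr_int_qExpand (n : ℕ) [NeZero n] (g : ↥(taOv O π hπ N''))
    (hg : IsIntegral ↥(Algebra.adjoin L {y0}) (g : ↥(TaF L N''))) :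
    IsIntegral ↥(Algebra.adjoin k {qExpand k n (taResN O π hπ N'' ⟨y0, hy0⟩)})
      (qExpand k n (taResN O π hπ N'' g)) := by
  have h := t4ecr_isIntegral_algHom (t4ecrPhi k N'' n) (hInt0 g hg)
  rw [t4ecrPhi_apply, t4ecrPhi_apply, coe_t2iRes, coe_t2iRes] at h
  exact h

include hqO hInt0 in
/-- **the reduction at the component `w` of an element of `𝒪_i` integral over `L[a_0 y₀]` is integral
over `k[ρ_w (a_0 y₀)]`** -/
theorem t4ecr_isIntegral_rho {w : ℕ} (hw : w ≤ i) {f : ↥(TaF L (t4eLev N'' q i))}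
    (hf : f ∈ Y.Ov) (hfint : f ∈ t2Int (K := L) (t4eDeg L N'' q i 0 y0)) :
    IsIntegral ↥(Algebra.adjoin k {t4ecrRho Y hw
      ⟨t4eDeg L N'' q i 0 y0, fun w' hw' => Y.a_mem w' hw' 0 (Nat.zero_le i) y0 hy0⟩})
      (t4ecrRho Y hw ⟨f, hf⟩) := by
  letI := t4ebAlg L N'' q i
  haveI := t4eb_isScalarTower (L := L) (N'' := N'') (q := q) (i := i)
  have hρy : t4ecrRho Y hw
      ⟨t4eDeg L N'' q i 0 y0, fun w' hw' => Y.a_mem w' hw' 0 (Nat.zero_le i) y0 hy0⟩ =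
      qExpand k (q ^ t4eExp i w 0) (taResN O π hπ N'' ⟨y0, hy0⟩) :=
    Y.ρ_a w hw 0 (Nat.zero_le i) y0 hy0
  rw [hρy]
  exact t4vm_isIntegral_res_tower (K := L) (taOv O π hπ N'') Y.Ov
    (fun c w' hw' => Y.a_mem w' hw' 0 (Nat.zero_le i) (c : ↥(TaF L N'')) c.2)
    (t4ecrRho Y hw)
    ((qExpand k (q ^ t4eExp i w 0)).comp (taResN O π hπ N''))
    (fun c => Y.ρ_a w hw 0 (Nat.zero_le i) (c : ↥(TaF L N'')) c.2)
    (Algebra.adjoin k {qExpand k (q ^ t4eExp i w 0) (taResN O π hπ N'' ⟨y0, hy0⟩)}) y0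
    (fun g hg => t4ecr_int_qExpand hN'' hy0 hInt0 (q ^ t4eExp i w 0) g hg) hf
    (t4ec_isIntegralElem_a0 Y hqO hf) hfint

end Int

/-! ### The chart ring -/

variable (P : T4Pres ↥(TaF L (t4eLev N'' q i))) {y : ↥(TaF L (t4eLev N'' q i))}
  (hvals : P.vals = t4vpHor L y ∪ Y.ver)

include hvals in
/-- the constants of `O` lie in the ring of every chart presentation -/
theorem t4ecr_const_mem_B (c : ↥O) :
    algebraMap L ↥(TaF L (t4eLev N'' q i)) (c : L) ∈ P.B := by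
  rw [P.mem_iff]
  intro V hV
  rw [hvals] at hV
  rcases hV with hV | ⟨w, hw, rfl⟩
  · exact t4vp_algebraMap_mem_hor hV _
  · exact Y.const_mem w hw c

/-- the constants of `O` in the chart ring -/
def t4ecrIota : ↥O →+* ↥P.B :=
  ((algebraMap L ↥(TaF L (t4eLev N'' q i))).comp O.subtype).codRestrict P.B
    (fun c => t4ecr_const_mem_B Y P hvals c)

theorem coe_t4ecrIota (c : ↥O) :
    ((t4ecrIota Y P hvals c : ↥P.B) : ↥(TaF L (t4eLev N'' q i))) =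
      algebraMap L ↥(TaF L (t4eLev N'' q i)) (c : L) := rfl

include hvals in
/-- the vertical valuation rings of a chart presentation are those of the layer -/
theorem t4ecr_vert :
    P.vert (algebraMap L ↥(TaF L (t4eLev N'' q i)) ((q : ℕ) : L)) = Y.ver := by
  ext V
  constructor
  · rintro ⟨hV, hlt⟩
    rw [hvals] at hV
    rcases hV with hV | hV
    · exfalso
      have hq0 : ((q : ℕ) : L) ≠ 0 := by
        haveI : CharZero L := algebraRat.charZero L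
        exact_mod_cast hq.out.ne_zero
      rw [t4vp_valuation_const hV hq0] at hlt
      exact lt_irrefl _ hlt
    · exact hV
  · rintro ⟨w, hw, rfl⟩
    refine ⟨?_, t4ec_V_q Y hw⟩
    rw [hvals]
    exact Or.inr (Y.V_mem_ver hw)

variable {x : ↥(TaF L (t4eLev N'' q i))}
  (hB : ∀ f, f ∈ P.B ↔ f ∈ t2Int (K := L) x ∧ f ∈ Y.Ov)

include hB in
theorem t4ecr_B_le : P.B ≤ Y.Ov := fun f hf => ((hB f).mp hf).2

/-- the reduction at the component `w` on the chart ring -/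
def t4ecrR {w : ℕ} (hw : w ≤ i) : ↥P.B →+* LaurentSeries k :=
  (t4ecrRho Y hw).comp (Subring.inclusion (t4ecr_B_le Y P hB))

theorem t4ecrR_apply {w : ℕ} (hw : w ≤ i) (b : ↥P.B) :
    t4ecrR Y P hB hw b = t4ecrRho Y hw
      ⟨(b : ↥(TaF L (t4eLev N'' q i))), t4ecr_B_le Y P hB b.2⟩ := rfl

theorem t4ecrR_eq_zero_iff {w : ℕ} (hw : w ≤ i) (b : ↥P.B) :
    t4ecrR Y P hB hw b = 0 ↔ (Y.V w).valuation (b : ↥(TaF L (t4eLev N'' q i))) < 1 :=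
  t4ecrRho_eq_zero_iff Y hw _

theorem t4ecrR_iota {w : ℕ} (hw : w ≤ i) (c : ↥O) :
    t4ecrR Y P hB hw (t4ecrIota Y P hvals c) = algebraMap k (LaurentSeries k) (π c) := by
  rw [ta_algebraMap_eq_C]
  exact Y.ρ_const w hw c

include hπ hqO in
/-- the kernel of `π` goes into every ideal containing `q` -/
theorem t4ecr_ker (𝔫 : Ideal P.B)
    (hQ : t4ecrIota Y P hvals ((q : ℕ) : ↥O) ∈ 𝔫) (c : ↥O) (hc : π c = 0) :
    t4ecrIota Y P hvals c ∈ 𝔫 := by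
  obtain ⟨c', rfl⟩ := (ta_pi_eq_zero_iff hπ hqO c).mp hc
  rw [map_mul]
  exact 𝔫.mul_mem_right _ hQ

/-! ### The residue field of a closed point -/

variable {y0 : ↥(TaF L N'')} (hy0 : y0 ∈ taOv O π hπ N'')
  (hInt0 : ∀ g : ↥(taOv O π hπ N''), IsIntegral ↥(Algebra.adjoin L {y0}) (g : ↥(TaF L N'')) →
    IsIntegral ↥(Algebra.adjoin k {t2iRes O π hπ N'' hN'' ⟨y0, hy0⟩}) (t2iRes O π hπ N'' hN'' g))
  (hB0 : ∀ f, f ∈ P.B ↔ f ∈ t2Int (K := L) (t4eDeg L N'' q i 0 y0) ∧ f ∈ Y.Ov)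

include hy0 hB0 in
/-- the chart coordinate lies in the chart ring -/
theorem t4ecr_a0_mem_B : t4eDeg L N'' q i 0 y0 ∈ P.B :=
  (hB0 _).mpr ⟨t2Int_self _, fun w hw => Y.a_mem w hw 0 (Nat.zero_le i) y0 hy0⟩

include hπ hqO hInt0 hB0 hvals in
/-- **the residue field of a closed point of the special fibre of a chart of level `i` is `k`**:
every element of the chart ring is congruent to a constant of `O` modulo a maximal ideal
containing `q` -/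
theorem t4ecr_resField' (𝔫 : Ideal P.B) [h𝔫 : 𝔫.IsMaximal]
    (hQ : t4ecrIota Y P hvals ((q : ℕ) : ↥O) ∈ 𝔫) (b : P.B) :
    ∃ c : ↥O, b - t4ecrIota Y P hvals c ∈ 𝔫 := by
  haveI := h𝔫.isPrime
  have hQ0 : ((t4ecrIota Y P hvals ((q : ℕ) : ↥O) : ↥P.B) : ↥(TaF L (t4eLev N'' q i))) ≠ 0 := by
    rw [coe_t4ecrIota]
    refine (map_ne_zero _).mpr ?_
    haveI : CharZero L := algebraRat.charZero L
    exact_mod_cast hq.out.ne_zero
  obtain ⟨V, hV, hVQ⟩ := P.exists_through_of_mem 𝔫 hQ hQ0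
  have hVv : V ∈ P.vert (algebraMap L ↥(TaF L (t4eLev N'' q i)) ((q : ℕ) : L)) := by
    refine ⟨hV.1, ?_⟩
    have h1 : ((t4ecrIota Y P hvals ((q : ℕ) : ↥O) : ↥P.B) : ↥(TaF L (t4eLev N'' q i))) =
        algebraMap L ↥(TaF L (t4eLev N'' q i)) ((q : ℕ) : L) := by
      rw [coe_t4ecrIota]
      push_cast
      rfl
    rw [← h1]
    exact hVQ
  rw [t4ecr_vert Y P hvals] at hVv
  obtain ⟨w, hw, rfl⟩ := hVv
  refine t4vrk_abs π hπ (t4ecrIota Y P hvals) 𝔫 (t4ecr_ker Y hqO P hvals 𝔫 hQ)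
    (t4ecrR Y P hB0 hw) ?_ (t4ecrR_iota Y P hvals hB0 hw)
    ⟨t4eDeg L N'' q i 0 y0, t4ecr_a0_mem_B Y P hy0 hB0⟩ ?_ b
  · intro b hb
    exact hV.2 b ((t4ecrR_eq_zero_iff Y P hB0 hw b).mp hb)
  · intro b
    exact t4ecr_isIntegral_rho Y hqO hN'' hy0 hInt0 hw (t4ecr_B_le Y P hB0 b.2)
      ((hB0 _).mp b.2).1

include hπ hqO hInt0 hB0 hvals in
/-- **the residue field of a closed point `𝔫 ∋ q` of the chart is `k`**, in the proof-irrelevant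
shape of `t4vk_resField` (= `hres` of `t4rt_hk_of_res`) -/
theorem t4ecr_resField (𝔫 : Ideal P.B) [h𝔫 : 𝔫.IsMaximal]
    (hqB : algebraMap L ↥(TaF L (t4eLev N'' q i)) ((q : ℕ) : L) ∈ P.B)
    (hQ : (⟨algebraMap L ↥(TaF L (t4eLev N'' q i)) ((q : ℕ) : L), hqB⟩ : P.B) ∈ 𝔫) (b : P.B) :
    ∃ c : ↥O, ∀ hc : algebraMap L ↥(TaF L (t4eLev N'' q i)) (c : L) ∈ P.B,
      b - (⟨algebraMap L ↥(TaF L (t4eLev N'' q i)) (c : L), hc⟩ : P.B) ∈ 𝔫 := by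
  have hQ' : t4ecrIota Y P hvals ((q : ℕ) : ↥O) ∈ 𝔫 := by
    have h1 : t4ecrIota Y P hvals ((q : ℕ) : ↥O) =
        ⟨algebraMap L ↥(TaF L (t4eLev N'' q i)) ((q : ℕ) : L), hqB⟩ := by
      apply Subtype.ext
      rw [coe_t4ecrIota]
      push_cast
      rfl
    rw [h1]
    exact hQ
  obtain ⟨c, hc⟩ := t4ecr_resField' Y hqO hN'' P hvals hy0 hInt0 hB0 𝔫 hQ' b
  exact ⟨c, fun _ => hc⟩

include hπ hqO hB0 hvals in
/-- the same from helper5's `T4vmGood` (good reduction of the chart `y₀` at level `N''`) -/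
theorem t4ecr_resField_of_good {Fr : T2iFrob k N'' q} (G : T4vmGood O π hπ hN'' Fr y0)
    (𝔫 : Ideal P.B) [h𝔫 : 𝔫.IsMaximal]
    (hqB : algebraMap L ↥(TaF L (t4eLev N'' q i)) ((q : ℕ) : L) ∈ P.B)
    (hQ : (⟨algebraMap L ↥(TaF L (t4eLev N'' q i)) ((q : ℕ) : L), hqB⟩ : P.B) ∈ 𝔫) (b : P.B) :
    ∃ c : ↥O, ∀ hc : algebraMap L ↥(TaF L (t4eLev N'' q i)) (c : L) ∈ P.B,
      b - (⟨algebraMap L ↥(TaF L (t4eLev N'' q i)) (c : L), hc⟩ : P.B) ∈ 𝔫 :=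
  t4ecr_resField Y hqO hN'' P hvals G.mem G.int hB0 𝔫 hqB hQ b

end Gen

/-! ### The inertia level: the two charts `X_i`, `X_i⁻¹` -/

section Fix

attribute [local instance] t2i_dvr t2i_isAlgClosed t2i_charP t2i_fact

variable (𝔓 : FFPlace) (N'' : ℕ) [NeZero N''] (h : ¬ 𝔓.p ∣ N'') (h49 : 4 ∣ N'' ∨ 9 ∣ N'') {i : ℕ}
  (Y : T4eLayer (tbFixO 𝔓 ⊤) (tbFixRes 𝔓 ⊤) (tbFixRes_surjective 𝔓 ⊤) N'' 𝔓.p i)
  {Q : ℕ} (hQ : 2 ≤ Q) (hpQ : 𝔓.p ∣ Q)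
  (P : T4Pres ↥(tbLevF 𝔓 (t4eLev N'' 𝔓.p i) ⊤)) {y : ↥(tbLevF 𝔓 (t4eLev N'' 𝔓.p i) ⊤)}
  (hvals : P.vals = t4vpHor ↥(tbFix 𝔓 (⊤ : Subgroup 𝔓.I)) y ∪ Y.ver)

include h h49 hQ hpQ hvals in
/-- **the residue fields of the closed points of the special fibre of the chart `X_i` are `k`**
(inertia level, every level `i`) -/
theorem t4ecr_resField_X_fix
    (hB : ∀ f, f ∈ P.B ↔ f ∈ t2Int (K := ↥(tbFix 𝔓 (⊤ : Subgroup 𝔓.I)))
      (t4ecX ↥(tbFix 𝔓 (⊤ : Subgroup 𝔓.I)) N'' 𝔓.p i Q) ∧ f ∈ Y.Ov)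
    (𝔫 : Ideal P.B) [h𝔫 : 𝔫.IsMaximal]
    (hqB : algebraMap ↥(tbFix 𝔓 (⊤ : Subgroup 𝔓.I)) ↥(tbLevF 𝔓 (t4eLev N'' 𝔓.p i) ⊤)
      ((𝔓.p : ℕ) : ↥(tbFix 𝔓 (⊤ : Subgroup 𝔓.I))) ∈ P.B)
    (hQ𝔫 : (⟨_, hqB⟩ : P.B) ∈ 𝔫) (b : P.B) :
    ∃ c : ↥(tbFixO 𝔓 ⊤), ∀ hc : algebraMap ↥(tbFix 𝔓 (⊤ : Subgroup 𝔓.I))
        ↥(tbLevF 𝔓 (t4eLev N'' 𝔓.p i) ⊤) (c : ↥(tbFix 𝔓 (⊤ : Subgroup 𝔓.I))) ∈ P.B,
      b - (⟨_, hc⟩ : P.B) ∈ 𝔫 := by
  rw [t4ecX_eq] at hB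
  exact t4ecr_resField_of_good Y (t4cy_irreducible_p 𝔓) (t2i_natCast_ne_zero 𝔓 h) P hvals hB
    (t4vg_good_X 𝔓 ⊤ N'' h h49 hQ hpQ) 𝔫 hqB hQ𝔫 b

include h h49 hQ hpQ hvals in
/-- **the residue fields of the closed points of the special fibre of the chart `X_i⁻¹` are `k`**
(inertia level, every level `i`) -/
theorem t4ecr_resField_X_inv_fix
    (hB : ∀ f, f ∈ P.B ↔ f ∈ t2Int (K := ↥(tbFix 𝔓 (⊤ : Subgroup 𝔓.I)))
      (t4ecX ↥(tbFix 𝔓 (⊤ : Subgroup 𝔓.I)) N'' 𝔓.p i Q)⁻¹ ∧ f ∈ Y.Ov)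
    (𝔫 : Ideal P.B) [h𝔫 : 𝔫.IsMaximal]
    (hqB : algebraMap ↥(tbFix 𝔓 (⊤ : Subgroup 𝔓.I)) ↥(tbLevF 𝔓 (t4eLev N'' 𝔓.p i) ⊤)
      ((𝔓.p : ℕ) : ↥(tbFix 𝔓 (⊤ : Subgroup 𝔓.I))) ∈ P.B)
    (hQ𝔫 : (⟨_, hqB⟩ : P.B) ∈ 𝔫) (b : P.B) :
    ∃ c : ↥(tbFixO 𝔓 ⊤), ∀ hc : algebraMap ↥(tbFix 𝔓 (⊤ : Subgroup 𝔓.I))
        ↥(tbLevF 𝔓 (t4eLev N'' 𝔓.p i) ⊤) (c : ↥(tbFix 𝔓 (⊤ : Subgroup 𝔓.I))) ∈ P.B,
      b - (⟨_, hc⟩ : P.B) ∈ 𝔫 := by
  rw [t4ecX_inv_eq] at hB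
  exact t4ecr_resField_of_good Y (t4cy_irreducible_p 𝔓) (t2i_natCast_ne_zero 𝔓 h) P hvals hB
    (t4vg_good_X_inv 𝔓 ⊤ N'' h h49 hQ hpQ) 𝔫 hqB hQ𝔫 b

end Fix

end Fermat.Agent.T4
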