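/-
T4E-P8 input (helper3), `Chart/Bundle2.lean`: **the chart-2 fields of `T4eCChart` at the inertia level**
(prefix `t4ecf`).  For ANY presentation `P₂` of the chart `X_i⁻¹`, `X_i = j^(p²) - j`, of the layer
`t4efLayer 𝔓 N'' h i hi` of lead's tower (dictionaries `hvals₂`, `hB₂`):

* `t4ecf_p_mem` : `p ∈ P₂.B`;
* `t4ecf_noeth` : `P₂.B` is noetherian (`Chart/Noeth`);
* `t4ecf_hsm` : smoothness of the vertical branches (`Chart/K2`);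
* `t4ecf_hone` : at most one vertical branch through every point (lead's `t4es2_hone_fix`);
* regularity at the closed points over `p` = helper8's `t4erc_hreg_chart2_fix` (`Reg/Chart2Fix`), given
  `hreg` on chart 1 (helper6's `t4erf_hreg`);
* **`t4ecf_chart2_fix`** : the bundle.
-/
import Fermat.Agent.Lib.T4E.Chart.Noeth
import Fermat.Agent.Lib.T4E.Reg.Chart2Fix

set_option autoImplicit false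
set_option linter.unusedSectionVars false
set_option linter.unusedVariables false
set_option linter.style.haveILetI false
set_option synthInstance.maxHeartbeats 400000
set_option maxHeartbeats 1000000

open HahnSeries ModularCurve IntermediateField Fermat.Agent.T1 Fermat.Agent.T2 Fermat.Agent.TW

noncomputable section

namespace Fermat.Agent.T4

section Fix

attribute [local instance] t2i_dvr t2i_isAlgClosed t2i_charP t2i_fact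

variable (𝔓 : FFPlace) (N'' : ℕ) [NeZero N''] (h : ¬ 𝔓.p ∣ N'') (h49 : 4 ∣ N'' ∨ 9 ∣ N'')
  (i : ℕ) (hi : 1 ≤ i)
  (P₂ : T4Pres ↥(TaF ↥(tbFix 𝔓 (⊤ : Subgroup 𝔓.I)) (t4eLev N'' 𝔓.p i)))
  (hvals₂ : P₂.vals = t4vpHor ↥(tbFix 𝔓 (⊤ : Subgroup 𝔓.I))
    (t4ecX ↥(tbFix 𝔓 (⊤ : Subgroup 𝔓.I)) N'' 𝔓.p i (𝔓.p * 𝔓.p))⁻¹ ∪ (t4efLayer 𝔓 N'' h i hi).ver)
  (hB₂ : ∀ f : ↥(TaF ↥(tbFix 𝔓 (⊤ : Subgroup 𝔓.I)) (t4eLev N'' 𝔓.p i)), f ∈ P₂.B ↔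
    f ∈ t2Int (K := ↥(tbFix 𝔓 (⊤ : Subgroup 𝔓.I)))
      (t4ecX ↥(tbFix 𝔓 (⊤ : Subgroup 𝔓.I)) N'' 𝔓.p i (𝔓.p * 𝔓.p))⁻¹ ∧
    f ∈ (t4efLayer 𝔓 N'' h i hi).Ov)

theorem t4ecf_two_le : 2 ≤ 𝔓.p * 𝔓.p := by
  have h2 := 𝔓.hp.two_le
  nlinarith

/-- `p` as an element of `F_i` in its two forms -/
theorem t4ecf_p_eq :
    algebraMap ↥(tbFix 𝔓 (⊤ : Subgroup 𝔓.I)) ↥(tbLevF 𝔓 (t4eLev N'' 𝔓.p i) ⊤)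
      ((𝔓.p : ℕ) : ↥(tbFix 𝔓 (⊤ : Subgroup 𝔓.I))) =
    ((𝔓.p : ℕ) : ↥(TaF ↥(tbFix 𝔓 (⊤ : Subgroup 𝔓.I)) (t4eLev N'' 𝔓.p i))) :=
  map_natCast _ _

include hvals₂ in
/-- `p ∈ P₂.B` -/
theorem t4ecf_p_mem :
    ((𝔓.p : ℕ) : ↥(TaF ↥(tbFix 𝔓 (⊤ : Subgroup 𝔓.I)) (t4eLev N'' 𝔓.p i))) ∈ P₂.B := by
  have h1 := t4erc_const_mem_B (Y := t4efLayer 𝔓 N'' h i hi) hvals₂
    ((𝔓.p : ℕ) : ↥(tbFixO 𝔓 (⊤ : Subgroup 𝔓.I)))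
  have h2 : ((((𝔓.p : ℕ) : ↥(tbFixO 𝔓 (⊤ : Subgroup 𝔓.I))) : ↥(tbFix 𝔓 (⊤ : Subgroup 𝔓.I))))
      = ((𝔓.p : ℕ) : ↥(tbFix 𝔓 (⊤ : Subgroup 𝔓.I))) := by
    norm_cast
  rw [h2, map_natCast] at h1
  exact h1

include hB₂ in
/-- the chart ring is noetherian -/
theorem t4ecf_noeth : IsNoetherianRing ↥P₂.B :=
  t4ecrn_noeth_X_inv_fix 𝔓 N'' h (t4efLayer 𝔓 N'' h i hi) (t4ecf_two_le 𝔓) P₂.B hB₂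

include h49 hvals₂ hB₂ in
/-- smoothness of the vertical branches at every closed point -/
theorem t4ecf_hsm (𝔫 : Ideal P₂.B) (h𝔫 : 𝔫.IsMaximal)
    (V : ValuationSubring ↥(TaF ↥(tbFix 𝔓 (⊤ : Subgroup 𝔓.I)) (t4eLev N'' 𝔓.p i)))
    (hV : V ∈ P₂.through 𝔫)
    (hVq : V ∈ P₂.vert
      ((𝔓.p : ℕ) : ↥(TaF ↥(tbFix 𝔓 (⊤ : Subgroup 𝔓.I)) (t4eLev N'' 𝔓.p i)))) :
    P₂.SmoothAt 𝔫 V hV := by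
  rw [← t4ecf_p_eq 𝔓 N'' i] at hVq
  exact t4eck_hsm_X_inv_fix 𝔓 N'' h h49 (t4efLayer 𝔓 N'' h i hi) (t4ecf_two_le 𝔓)
    (Dvd.intro _ rfl) P₂ hvals₂ hB₂ rfl 𝔫 h𝔫 V hV hVq

include hvals₂ hB₂ in
/-- at most one vertical branch through every point -/
theorem t4ecf_hone (𝔫 : Ideal P₂.B) (h𝔫 : 𝔫 ≠ ⊤) :
    ∀ V ∈ P₂.through 𝔫,
      V ∈ P₂.vert ((𝔓.p : ℕ) : ↥(TaF ↥(tbFix 𝔓 (⊤ : Subgroup 𝔓.I)) (t4eLev N'' 𝔓.p i))) →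
    ∀ W ∈ P₂.through 𝔫,
      W ∈ P₂.vert ((𝔓.p : ℕ) : ↥(TaF ↥(tbFix 𝔓 (⊤ : Subgroup 𝔓.I)) (t4eLev N'' 𝔓.p i))) →
      V = W :=
  t4es2_hone_fix 𝔓 N'' h i hi P₂ hB₂
    (S := P₂.vert ((𝔓.p : ℕ) : ↥(TaF ↥(tbFix 𝔓 (⊤ : Subgroup 𝔓.I)) (t4eLev N'' 𝔓.p i))))
    (fun V hV => by
      obtain ⟨w, hw, rfl⟩ := t4erc_vert (Y := t4efLayer 𝔓 N'' h i hi) hvals₂ hV
      exact ⟨w, hw, rfl⟩) 𝔫 h𝔫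

include h49 hvals₂ hB₂ in
/-- **the chart-2 fields of `T4eCChart` at the inertia level** (`noeth`, `hq`, `hreg`, `hsm`, and the
first alternative of `hcase` at every point), given `hreg` on chart 1 -/
theorem t4ecf_chart2_fix {P : T4Pres ↥(TaF ↥(tbFix 𝔓 (⊤ : Subgroup 𝔓.I)) (t4eLev N'' 𝔓.p i))}
    (hvals₁ : P.vals = t4vpHor ↥(tbFix 𝔓 (⊤ : Subgroup 𝔓.I))
      (t4ecX ↥(tbFix 𝔓 (⊤ : Subgroup 𝔓.I)) N'' 𝔓.p i (𝔓.p * 𝔓.p)) ∪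
        (t4efLayer 𝔓 N'' h i hi).ver)
    (hqB₁ : ((𝔓.p : ℕ) : ↥(TaF ↥(tbFix 𝔓 (⊤ : Subgroup 𝔓.I)) (t4eLev N'' 𝔓.p i))) ∈ P.B)
    (hreg₁ : ∀ 𝔫₁ : Ideal P.B, 𝔫₁.IsMaximal →
      (⟨((𝔓.p : ℕ) : ↥(TaF ↥(tbFix 𝔓 (⊤ : Subgroup 𝔓.I)) (t4eLev N'' 𝔓.p i))), hqB₁⟩ : P.B) ∈ 𝔫₁ →
      (∀ (U : ValuationSubring ↥(TaF ↥(tbFix 𝔓 (⊤ : Subgroup 𝔓.I)) (t4eLev N'' 𝔓.p i)))
        (hU : U ∈ P.through 𝔫₁),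
        U ∈ P.vert ((𝔓.p : ℕ) : ↥(TaF ↥(tbFix 𝔓 (⊤ : Subgroup 𝔓.I)) (t4eLev N'' 𝔓.p i))) →
          P.SmoothAt 𝔫₁ U hU) → P.RegAt 𝔫₁) :
    IsNoetherianRing ↥P₂.B ∧
    ∃ hqB : ((𝔓.p : ℕ) : ↥(TaF ↥(tbFix 𝔓 (⊤ : Subgroup 𝔓.I)) (t4eLev N'' 𝔓.p i))) ∈ P₂.B,
      (∀ 𝔫 : Ideal P₂.B, 𝔫.IsMaximal → (⟨_, hqB⟩ : P₂.B) ∈ 𝔫 → P₂.RegAt 𝔫) ∧
      (∀ 𝔫 : Ideal P₂.B, 𝔫.IsMaximal → (⟨_, hqB⟩ : P₂.B) ∈ 𝔫 →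
        ∀ (V : ValuationSubring ↥(TaF ↥(tbFix 𝔓 (⊤ : Subgroup 𝔓.I)) (t4eLev N'' 𝔓.p i)))
          (hV : V ∈ P₂.through 𝔫),
          V ∈ P₂.vert ((𝔓.p : ℕ) : ↥(TaF ↥(tbFix 𝔓 (⊤ : Subgroup 𝔓.I)) (t4eLev N'' 𝔓.p i))) →
            P₂.SmoothAt 𝔫 V hV) ∧
      (∀ 𝔫 : Ideal P₂.B, 𝔫.IsMaximal → (⟨_, hqB⟩ : P₂.B) ∈ 𝔫 →
        ∀ V ∈ P₂.through 𝔫,
          V ∈ P₂.vert ((𝔓.p : ℕ) : ↥(TaF ↥(tbFix 𝔓 (⊤ : Subgroup 𝔓.I)) (t4eLev N'' 𝔓.p i))) →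
        ∀ W ∈ P₂.through 𝔫,
          W ∈ P₂.vert ((𝔓.p : ℕ) : ↥(TaF ↥(tbFix 𝔓 (⊤ : Subgroup 𝔓.I)) (t4eLev N'' 𝔓.p i))) →
          V = W) :=
  ⟨t4ecf_noeth 𝔓 N'' h i hi P₂ hB₂, t4ecf_p_mem 𝔓 N'' h i hi P₂ hvals₂,
    fun 𝔫 h𝔫 hq𝔫 => t4erc_hreg_chart2_fix 𝔓 N'' h h49 i hi hvals₁ hvals₂ hB₂ hqB₁ hreg₁ _ 𝔫 h𝔫 hq𝔫,
    fun 𝔫 h𝔫 _ V hV hVq => t4ecf_hsm 𝔓 N'' h h49 i hi P₂ hvals₂ hB₂ 𝔫 h𝔫 V hV hVq,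
    fun 𝔫 h𝔫 _ => t4ecf_hone 𝔓 N'' h i hi P₂ hvals₂ hB₂ 𝔫 h𝔫.ne_top⟩

end Fix

end Fermat.Agent.T4
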