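/-
T4E P6 CHARTS (helper4, for helper2): **the Chinese remainder theorem `T4ecCrt Y` for the vertical
valuation rings of a layer**, from helper5's strong approximation `t4e_strong_approx'`
(`Lib/T4E/Local/Approx.lean`) and `Y.dvr`, `Y.inj`.  Discharges the hypothesis `hcrt` of `t4ecPres`.
-/
import Fermat.Agent.Lib.T4E.Chart.Pres
import Fermat.Agent.Lib.T4E.Local.Approx

set_option autoImplicit false
set_option linter.unusedSectionVars false
set_option linter.unusedVariables false
set_option linter.style.haveILetI false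

open HahnSeries ModularCurve Fermat.Agent.T1 Fermat.Agent.T2

noncomputable section

namespace Fermat.Agent.T4

section Layer

variable {L : Type} [Field L] [Algebra ℚ L] {O : ValuationSubring L} {k : Type*} [Field k]
  {π : ↥O →+* k} [IsDiscreteValuationRing ↥O] {hπ : Function.Surjective π}
  {N'' q : ℕ} [NeZero N''] [NeZero q] {i : ℕ} (Y : T4eLayer O π hπ N'' q i)

/-- **CRT for the vertical valuation rings of a layer** -/
theorem t4ecc_crt : T4ecCrt Y := by
  classical
  rintro V ⟨w₀, hw₀, rfl⟩ n
  set Q : ↥(TaF L (t4eLev N'' q i)) :=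
    algebraMap L ↥(TaF L (t4eLev N'' q i)) ((q : ℕ) : L) with hQ
  have hQ0 : Q ≠ 0 := by
    haveI : CharZero L := algebraRat.charZero L
    rw [hQ, Ne, map_eq_zero]
    exact Nat.cast_ne_zero.mpr (NeZero.ne q)
  have hmemr : ∀ {w : ℕ}, w ∈ Finset.range (i + 1) → w ≤ i := fun hw =>
    Nat.lt_succ_iff.mp (Finset.mem_range.mp hw)
  obtain ⟨e, he⟩ := t4e_strong_approx' (Finset.range (i + 1)) Y.V
    (fun w hw => Y.dvr w (hmemr hw))
    (fun w hw w' hw' h => Y.inj w (hmemr hw) w' (hmemr hw') h)
    (fun w => if w = w₀ then (1 : ↥(TaF L (t4eLev N'' q i))) else 0)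
    (d := fun w => if w = w₀ then Q else Q ^ n)
    (fun w => by
      show (if w = w₀ then Q else Q ^ n) ≠ 0
      split_ifs
      · exact hQ0
      · exact pow_ne_zero n hQ0)
  have hval : ∀ w, w ≤ i → w ≠ w₀ → (Y.V w).valuation e ≤ (Y.V w).valuation Q ^ n := by
    intro w hw hne
    obtain ⟨o, ho, eo⟩ := he w (Finset.mem_range.mpr (Nat.lt_succ_iff.mpr hw))
    simp only [if_neg hne, sub_zero] at eo
    rw [eo, map_mul, map_pow]
    calc (Y.V w).valuation Q ^ n * (Y.V w).valuation o
        ≤ (Y.V w).valuation Q ^ n * 1 := by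
          gcongr
          exact ((Y.V w).valuation_le_one_iff _).mpr ho
      _ = (Y.V w).valuation Q ^ n := mul_one _
  have hval0 : (Y.V w₀).valuation e = 1 := by
    obtain ⟨o, ho, eo⟩ := he w₀ (Finset.mem_range.mpr (Nat.lt_succ_iff.mpr hw₀))
    simp only [if_true] at eo
    have h1 : (Y.V w₀).valuation (Q * o) < 1 := by
      rw [map_mul]
      calc (Y.V w₀).valuation Q * (Y.V w₀).valuation o
          ≤ (Y.V w₀).valuation Q * 1 := by
            gcongr
            exact ((Y.V w₀).valuation_le_one_iff _).mpr ho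
        _ < 1 := by
            rw [mul_one]
            exact t4ec_V_q Y hw₀
    have h2 : e = 1 + Q * o := by rw [← eo]; ring
    rw [h2]
    exact t4e_val_one_add_of_lt _ h1
  refine ⟨e, ?_, hval0, ?_⟩
  · rintro V' ⟨w, hw, rfl⟩
    by_cases hne : w = w₀
    · rw [hne]
      exact ((Y.V w₀).valuation_le_one_iff _).mp hval0.le
    · refine ((Y.V w).valuation_le_one_iff _).mp (le_trans (hval w hw hne) ?_)
      exact pow_le_one₀ zero_le (t4ec_V_q Y hw).le
  · rintro V' ⟨w, hw, rfl⟩ hV
    have hne : w ≠ w₀ := by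
      rintro rfl
      exact hV rfl
    exact hval w hw hne

end Layer

end Fermat.Agent.T4
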