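/-
T4E-P7 (R-sm) (helper3), `Chart/Sm.lean`: **smoothness of ALL vertical branches on a chart presentation
of level `i`** (generic level `i`, abstract unramified DVR level `(L, O, π, k)`, abstract layer
`Y : T4eLayer O π hπ N'' q i`; prefix `t4ecs`).  Generalises `T4/Inst/ChartSm.lean`.

`P` ANY presentation of the chart ring `B = IntCl(L[a_0 y₀]) ∩ 𝒪_i` (dictionaries `hB0`, `hvals`),
`G : T4vmGood … y₀` the good reduction of the chart `y₀` at level `N''`, `R' = t2R ȳ₀ = IntCl_{E'}(k[ȳ₀])`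
a Dedekind domain (`E' = modularFunctionFieldFullC k N''`).

* `t4ecs_isIntegral_of_injective` : (abstract) integrality over `k[y]` descends along an injective
  `k`-algebra homomorphism;
* `t4ecsRE Y hN'' hw : 𝒪_i →+* E'` : the reduction at the component `w`, with values in `E'`
  (`ρ_range`); the table `t4ecsRE_a0` (`= res` if `t4eExp i w 0 = 0`, i.e. `i ≤ 2 w`), `t4ecsRE_ai`
  (`= res` if `t4eExp i w i = 0`, i.e. `2 w ≤ i`, `w < i`);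
* **`t4ecs_int`** : for `f ∈ 𝒪_i` integral over `L[a_0 y₀]`, `ρ_w f ∈ R'`, provided
  `ȳ₀(𝔮^{q^x}) = ȳ₀^{q^x}`, `x = t4eExp i w 0` (no hypothesis if `x = 0`: `t4ecs_int_hi`);
* `t4ecsRP : B →+* R'`, `t4ecsRP_eq_zero_iff`, `t4ecsRP_surjective` (`i ≤ 2 w`: lift `a_0 f₀` by (GR));
* **`t4ecs_smoothAt_hi`** : `P.SmoothAt 𝔫 (Y.V w)` for `i ≤ 2 w`, at every `𝔫`;
* **`t4ecs_smoothAt_lo`** : `P.SmoothAt 𝔫 (Y.V w)` for `2 w ≤ i`, `w < i`, if the elements `a_i f₀` lie in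
  `B_𝔫` (chart 1: they lie in `B`; chart 2: local argument) — as `t4vm_smoothAt_zero` of T4;
* **`t4ecs_hsm`** : the field `hsm` of `T4eCChart` from these; `t4ecs_hsm_of_mem` (chart 1, from
  `a_i y₀ ∈ IntCl(L[a_0 y₀])`);
* Frobenius: `t4ecs_frob_jq`, `t4ecs_frob_X`, `t4ecs_frob_X_inv` (`x̄(𝔮^{q^n}) = x̄^{q^n}` for
  `x̄ = j̄^Q - j̄` and `x̄⁻¹`);
* inertia level: **`t4ecs_hsm_X_fix`** (chart `X_i`, from `a_i X' ∈ IntCl(L[X_i])`),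
  **`t4ecs_hsm_X_inv_fix`** (chart `X_i⁻¹`, from the local hypothesis on the `a_i f₀`).
-/
import Fermat.Agent.Lib.T4E.Chart.ResK
import Fermat.Agent.Lib.T4.Inst.ChartSm

set_option autoImplicit false
set_option linter.unusedSectionVars false
set_option linter.unusedVariables false
set_option linter.style.haveILetI false
set_option synthInstance.maxHeartbeats 400000
set_option maxHeartbeats 1000000

open HahnSeries ModularCurve IntermediateField Fermat.Agent.T1 Fermat.Agent.T2 Fermat.Agent.TW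

noncomputable section

namespace Fermat.Agent.T4

/-- integrality over `k[y]` descends along an injective `k`-algebra homomorphism -/
theorem t4ecs_isIntegral_of_injective {k A B : Type*} [CommRing k] [CommRing A] [CommRing B]
    [Algebra k A] [Algebra k B] (φ : A →ₐ[k] B) (hφ : Function.Injective φ) {y t : A}
    (h : IsIntegral ↥(Algebra.adjoin k {φ y}) (φ t)) : IsIntegral ↥(Algebra.adjoin k {y}) t := by
  have hmap : ∀ r : ↥(Algebra.adjoin k {y}), φ (r : A) ∈ Algebra.adjoin k {φ y} := by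
    intro r
    rw [← AlgHom.map_adjoin_singleton φ y]
    exact ⟨(r : A), r.2, rfl⟩
  set ψ : ↥(Algebra.adjoin k {y}) →+* ↥(Algebra.adjoin k {φ y}) :=
    ((φ : A →+* B).comp (algebraMap ↥(Algebra.adjoin k {y}) A)).codRestrict
      (Algebra.adjoin k {φ y}) hmap with hψ
  have hψsurj : Function.Surjective ψ := by
    rintro ⟨b, hb⟩
    rw [← AlgHom.map_adjoin_singleton φ y] at hb
    obtain ⟨a, ha, rfl⟩ := hb
    exact ⟨⟨a, ha⟩, rfl⟩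
  have hψc : (algebraMap ↥(Algebra.adjoin k {φ y}) B).comp ψ =
      (φ : A →+* B).comp (algebraMap ↥(Algebra.adjoin k {y}) A) := by
    ext r
    rfl
  obtain ⟨p, hp, hpt⟩ := h
  have hl : p ∈ Polynomial.lifts ψ := by
    rw [Polynomial.lifts_iff_coeff_lifts]
    intro n
    exact hψsurj _
  obtain ⟨p', hp', -, hp'm⟩ := Polynomial.lifts_and_natDegree_eq_and_monic hl hp
  refine ⟨p', hp'm, hφ ?_⟩
  rw [map_zero]
  have h1 := Polynomial.hom_eval₂ p' (algebraMap ↥(Algebra.adjoin k {y}) A) (φ : A →+* B) t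
  have h2 : (φ : A →+* B) (Polynomial.eval₂ (algebraMap ↥(Algebra.adjoin k {y}) A) t p') =
      φ (Polynomial.eval₂ (algebraMap ↥(Algebra.adjoin k {y}) A) t p') := rfl
  rw [← h2, h1, ← hψc, ← Polynomial.eval₂_map, hp']
  exact hpt

/-- `y ^ n` is integral over `k[y]` -/
theorem t4ecs_isIntegral_pow_self {K E : Type*} [CommRing K] [CommRing E] [Algebra K E] (yb : E)
    (n : ℕ) : IsIntegral ↥(Algebra.adjoin K {yb}) (yb ^ n) :=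
  IsIntegral.pow (isIntegral_algebraMap
    (x := (⟨yb, Algebra.self_mem_adjoin_singleton K yb⟩ : ↥(Algebra.adjoin K {yb})))) n

/-- transport of integrality along an equality of generators -/
theorem t4ecs_isIntegral_congr {k E : Type*} [CommRing k] [CommRing E] [Algebra k E] {u v t : E}
    (h : u = v) (ht : IsIntegral ↥(Algebra.adjoin k {u}) t) :
    IsIntegral ↥(Algebra.adjoin k {v}) t := by
  subst h
  exact ht

/-- the Frobenius hypothesis is empty at exponent `0` -/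
theorem t4ecs_frob_of_eq_zero {k : Type*} [Field k] {q x : ℕ} [NeZero q] (hx : x = 0)
    (t : LaurentSeries k) : qExpand k (q ^ x) t = t ^ (q ^ x) := by
  subst hx
  rw [qExpand_congr (pow_zero q) t, qExpand_one_apply, pow_zero, pow_one]

section Gen

variable {L : Type} [Field L] [Algebra ℚ L] {O : ValuationSubring L} {k : Type*} [Field k]
  {π : ↥O →+* k} [IsDiscreteValuationRing ↥O] {hπ : Function.Surjective π} [IsAlgClosed k]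
  {N'' q : ℕ} [NeZero N''] [hq : Fact q.Prime] [CharP k q] {i : ℕ}
  (Y : T4eLayer O π hπ N'' q i) (hqO : Irreducible ((q : ℕ) : ↥O)) (hN'' : (N'' : k) ≠ 0)

/-! ### The reductions with values in `E'` -/

/-- the reduction at the component `w` on `𝒪_i`, with values in `E'` -/
def t4ecsRE {w : ℕ} (hw : w ≤ i) : ↥Y.Ov →+* ↥(modularFunctionFieldFullC k N'') :=
  (t4ecrRho Y hw).codRestrict (modularFunctionFieldFullC k N'').toSubring (fun f => by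
    obtain ⟨g, hg⟩ := Y.ρ_range w hw ⟨(f : ↥(TaF L (t4eLev N'' q i))), f.2 w hw⟩
    rw [t4ecrRho_apply, hg]
    exact taResN_mem_full O π hπ N'' hN'' g)

theorem coe_t4ecsRE {w : ℕ} (hw : w ≤ i) (f : ↥Y.Ov) :
    ((t4ecsRE Y hN'' hw f : ↥(modularFunctionFieldFullC k N'')) : LaurentSeries k) =
      t4ecrRho Y hw f := rfl

theorem t4ecsRE_eq_zero_iff {w : ℕ} (hw : w ≤ i) (f : ↥Y.Ov) :
    t4ecsRE Y hN'' hw f = 0 ↔ (Y.V w).valuation (f : ↥(TaF L (t4eLev N'' q i))) < 1 := by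
  rw [← t4ecrRho_eq_zero_iff Y hw f, ← coe_t4ecsRE Y hN'' hw f]
  constructor
  · intro h
    rw [h]
    rfl
  · intro h
    exact Subtype.ext h

/-- the elements `a_n c`, `c` Gauss-integral of level `N''`, as elements of `𝒪_i` -/
def t4ecsA (n : ℕ) (hn : n ≤ i) (c : ↥(taOv O π hπ N'')) : ↥Y.Ov :=
  ⟨t4eDeg L N'' q i n (c : ↥(TaF L N'')), fun w hw => Y.a_mem w hw n hn _ c.2⟩

theorem coe_t4ecsA (n : ℕ) (hn : n ≤ i) (c : ↥(taOv O π hπ N'')) :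
    ((t4ecsA Y n hn c : ↥Y.Ov) : ↥(TaF L (t4eLev N'' q i))) =
      t4eDeg L N'' q i n (c : ↥(TaF L N'')) := rfl

/-- the residue table with values in `E'`, at a column of exponent `0` -/
theorem t4ecsRE_a {w : ℕ} (hw : w ≤ i) {n : ℕ} (hn : n ≤ i) (hx : t4eExp i w n = 0)
    (c : ↥(taOv O π hπ N'')) :
    t4ecsRE Y hN'' hw (t4ecsA Y n hn c) = t2iRes O π hπ N'' hN'' c := by
  apply Subtype.ext
  rw [coe_t4ecsRE, coe_t2iRes]
  have h1 : t4ecrRho Y hw (t4ecsA Y n hn c) =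
      qExpand k (q ^ t4eExp i w n) (taResN O π hπ N'' c) :=
    Y.ρ_a w hw n hn (c : ↥(TaF L N'')) c.2
  rw [h1, qExpand_congr (by rw [hx, pow_zero] : q ^ t4eExp i w n = 1) (taResN O π hπ N'' c),
    qExpand_one_apply]

/-- `t4eExp i w 0 = 0` for `i ≤ 2 w` -/
theorem t4ecs_exp_zero {w : ℕ} (h : i ≤ 2 * w) : t4eExp i w 0 = 0 := by
  unfold t4eExp
  rw [if_pos (Nat.zero_le w)]
  omega

/-- `t4eExp i w i = 0` for `2 w ≤ i`, `w < i` -/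
theorem t4ecs_exp_top {w : ℕ} (h : 2 * w ≤ i) (hwi : w < i) : t4eExp i w i = 0 := by
  unfold t4eExp
  rw [if_neg (by omega)]
  omega

/-! ### Reductions of chart-integral elements lie in `R' = IntCl(k[ȳ₀])` -/

variable {Fr : T2iFrob k N'' q} {y0 : ↥(TaF L N'')} (G : T4vmGood O π hπ hN'' Fr y0)

include hqO G in
/-- **the reduction at the component `w` of an element of `𝒪_i` integral over `L[a_0 y₀]` is integral
over `k[ȳ₀]`**, if `ȳ₀(𝔮^{q^x}) = ȳ₀^{q^x}`, `x = t4eExp i w 0` -/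
theorem t4ecs_int {w : ℕ} (hw : w ≤ i)
    (hF : qExpand k (q ^ t4eExp i w 0) ((G.yb : ↥(modularFunctionFieldFullC k N'')) :
      LaurentSeries k) = ((G.yb : ↥(modularFunctionFieldFullC k N'')) : LaurentSeries k) ^
        (q ^ t4eExp i w 0))
    {f : ↥(TaF L (t4eLev N'' q i))} (hf : f ∈ Y.Ov)
    (hfint : f ∈ t2Int (K := L) (t4eDeg L N'' q i 0 y0)) :
    IsIntegral ↥(Algebra.adjoin k {G.yb}) (t4ecsRE Y hN'' hw ⟨f, hf⟩) := by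
  have h1 := t4ecr_isIntegral_rho Y hqO hN'' G.mem G.int hw hf hfint
  have hρy : t4ecrRho Y hw
      ⟨t4eDeg L N'' q i 0 y0, fun w' hw' => Y.a_mem w' hw' 0 (Nat.zero_le i) y0 G.mem⟩ =
      ((G.yb : ↥(modularFunctionFieldFullC k N'')) : LaurentSeries k) ^ (q ^ t4eExp i w 0) :=
    (Y.ρ_a w hw 0 (Nat.zero_le i) y0 G.mem).trans hF
  have h1' := t4ecs_isIntegral_congr hρy h1
  have h2 : IsIntegral ↥(Algebra.adjoin k
      {((G.yb : ↥(modularFunctionFieldFullC k N'')) : LaurentSeries k)})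
      (t4ecrRho Y hw ⟨f, hf⟩) :=
    t2c_isIntegral_trans (t4ecs_isIntegral_pow_self (K := k)
      ((G.yb : ↥(modularFunctionFieldFullC k N'')) : LaurentSeries k) (q ^ t4eExp i w 0)) h1'
  exact t4ecs_isIntegral_of_injective (modularFunctionFieldFullC k N'').val
    Subtype.val_injective h2

include hqO G in
/-- the case `i ≤ 2 w`: no Frobenius hypothesis -/
theorem t4ecs_int_hi {w : ℕ} (hw : w ≤ i) (hwi : i ≤ 2 * w)
    {f : ↥(TaF L (t4eLev N'' q i))} (hf : f ∈ Y.Ov)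
    (hfint : f ∈ t2Int (K := L) (t4eDeg L N'' q i 0 y0)) :
    IsIntegral ↥(Algebra.adjoin k {G.yb}) (t4ecsRE Y hN'' hw ⟨f, hf⟩) := by
  exact t4ecs_int Y hqO hN'' G hw (t4ecs_frob_of_eq_zero (t4ecs_exp_zero hwi) _) hf hfint

/-! ### The reductions on the chart ring -/

variable (P : T4Pres ↥(TaF L (t4eLev N'' q i)))
  (hB0 : ∀ f, f ∈ P.B ↔ f ∈ t2Int (K := L) (t4eDeg L N'' q i 0 y0) ∧ f ∈ Y.Ov)

/-- `a_0 f₀` lies in `IntCl(L[a_0 y₀])` -/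
theorem t4ecs_a0_mem_t2Int {f0 : ↥(TaF L N'')} (hf0 : f0 ∈ t2Int (K := L) y0) :
    t4eDeg L N'' q i 0 f0 ∈ t2Int (K := L) (t4eDeg L N'' q i 0 y0) :=
  t2d_isIntegral_map (RingHom.id L)
    ((t4eDeg L N'' q i 0 : ↥(TaF L N'') →ₐ[L] ↥(TaF L (t4eLev N'' q i))) :
      ↥(TaF L N'') →+* ↥(TaF L (t4eLev N'' q i)))
    (fun c => (t4eDeg L N'' q i 0).commutes c) hf0

include hB0 in
theorem t4ecs_a0_mem_B (f0 : ↥(taOv O π hπ N'')) (hf0 : (f0 : ↥(TaF L N'')) ∈ t2Int (K := L) y0) :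
    t4eDeg L N'' q i 0 (f0 : ↥(TaF L N'')) ∈ P.B :=
  (hB0 _).mpr ⟨t4ecs_a0_mem_t2Int hf0, (t4ecsA Y 0 (Nat.zero_le i) f0).2⟩

/-- the reduction at the component `w` on the chart ring, with values in `R' = IntCl(k[ȳ₀])` -/
def t4ecsRP {w : ℕ} (hw : w ≤ i)
    (hF : qExpand k (q ^ t4eExp i w 0) ((G.yb : ↥(modularFunctionFieldFullC k N'')) :
      LaurentSeries k) = ((G.yb : ↥(modularFunctionFieldFullC k N'')) : LaurentSeries k) ^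
        (q ^ t4eExp i w 0)) : ↥P.B →+* ↥(t2R (k := k) G.yb) :=
  ((t4ecsRE Y hN'' hw).comp (Subring.inclusion (t4ecr_B_le Y P hB0))).codRestrict
    (t2R (k := k) G.yb)
    (fun b => t4ecs_int Y hqO hN'' G hw hF (t4ecr_B_le Y P hB0 b.2) ((hB0 _).mp b.2).1)

theorem coe_t4ecsRP {w : ℕ} (hw : w ≤ i)
    (hF : qExpand k (q ^ t4eExp i w 0) ((G.yb : ↥(modularFunctionFieldFullC k N'')) :
      LaurentSeries k) = ((G.yb : ↥(modularFunctionFieldFullC k N'')) : LaurentSeries k) ^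
        (q ^ t4eExp i w 0)) (b : ↥P.B) :
    ((t4ecsRP Y hqO hN'' G P hB0 hw hF b : ↥(t2R (k := k) G.yb)) :
      ↥(modularFunctionFieldFullC k N'')) =
      t4ecsRE Y hN'' hw ⟨(b : ↥(TaF L (t4eLev N'' q i))), t4ecr_B_le Y P hB0 b.2⟩ := rfl

theorem t4ecsRP_eq_zero_iff {w : ℕ} (hw : w ≤ i)
    (hF : qExpand k (q ^ t4eExp i w 0) ((G.yb : ↥(modularFunctionFieldFullC k N'')) :
      LaurentSeries k) = ((G.yb : ↥(modularFunctionFieldFullC k N'')) : LaurentSeries k) ^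
        (q ^ t4eExp i w 0)) (b : ↥P.B) :
    t4ecsRP Y hqO hN'' G P hB0 hw hF b = 0 ↔
      (Y.V w).valuation (b : ↥(TaF L (t4eLev N'' q i))) < 1 := by
  rw [← t4ecsRE_eq_zero_iff Y hN'' hw ⟨(b : ↥(TaF L (t4eLev N'' q i))), t4ecr_B_le Y P hB0 b.2⟩,
    ← coe_t4ecsRP Y hqO hN'' G P hB0 hw hF b]
  constructor
  · intro h
    rw [h]
    rfl
  · intro h
    exact Subtype.ext h

/-- surjectivity for `i ≤ 2 w` (lift `a_0 f₀` by (GR)) -/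
theorem t4ecsRP_surjective {w : ℕ} (hw : w ≤ i) (hwi : i ≤ 2 * w)
    (hF : qExpand k (q ^ t4eExp i w 0) ((G.yb : ↥(modularFunctionFieldFullC k N'')) :
      LaurentSeries k) = ((G.yb : ↥(modularFunctionFieldFullC k N'')) : LaurentSeries k) ^
        (q ^ t4eExp i w 0)) :
    Function.Surjective (t4ecsRP Y hqO hN'' G P hB0 hw hF) := by
  intro t
  obtain ⟨f0, hf0, e⟩ := G.gr (t : ↥(modularFunctionFieldFullC k N'')) t.2
  refine ⟨⟨_, t4ecs_a0_mem_B Y P hB0 f0 hf0⟩, ?_⟩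
  apply Subtype.ext
  rw [coe_t4ecsRP, ← e]
  exact t4ecsRE_a Y hN'' hw (Nat.zero_le i) (t4ecs_exp_zero hwi) f0

/-! ### Smoothness -/

include hqO G hB0 in
/-- **the branch of the component `w`, `i ≤ 2 w`, is smooth at every point of the chart** -/
theorem t4ecs_smoothAt_hi [IsDedekindDomain ↥(t2R (k := k) G.yb)] {w : ℕ} (hw : w ≤ i)
    (hwi : i ≤ 2 * w) {𝔫 : Ideal P.B} [h𝔫 : 𝔫.IsMaximal] (hV : Y.V w ∈ P.through 𝔫) :
    P.SmoothAt 𝔫 _ hV := by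
  have hF : qExpand k (q ^ t4eExp i w 0) ((G.yb : ↥(modularFunctionFieldFullC k N'')) :
      LaurentSeries k) = ((G.yb : ↥(modularFunctionFieldFullC k N'')) : LaurentSeries k) ^
        (q ^ t4eExp i w 0) := t4ecs_frob_of_eq_zero (t4ecs_exp_zero hwi) _
  exact P.smoothAt_of_dedekind hV (t4ecsRP Y hqO hN'' G P hB0 hw hF)
    (t4ecsRP_surjective Y hqO hN'' G P hB0 hw hwi hF)
    (t4ecsRP_eq_zero_iff Y hqO hN'' G P hB0 hw hF)

include hqO G hB0 in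
/-- **the branch of the component `w`, `2 w ≤ i`, `w < i`, is smooth at a point `𝔫` of the chart**, if
the elements `a_i f₀` lie in `B_𝔫` (automatic on chart 1, where `a_i f₀ ∈ B`) -/
theorem t4ecs_smoothAt_lo [IsDedekindDomain ↥(t2R (k := k) G.yb)] {w : ℕ} (hw : w ≤ i)
    (hwi : 2 * w ≤ i) (hlt : w < i)
    (hF : qExpand k (q ^ t4eExp i w 0) ((G.yb : ↥(modularFunctionFieldFullC k N'')) :
      LaurentSeries k) = ((G.yb : ↥(modularFunctionFieldFullC k N'')) : LaurentSeries k) ^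
        (q ^ t4eExp i w 0))
    {𝔫 : Ideal P.B} [h𝔫 : 𝔫.IsMaximal] (hV : Y.V w ∈ P.through 𝔫)
    (ha : ∀ f0 : ↥(taOv O π hπ N''), (f0 : ↥(TaF L N'')) ∈ t2Int (K := L) y0 →
      t4eDeg L N'' q i i (f0 : ↥(TaF L N'')) ∈ P.loc 𝔫) :
    P.SmoothAt 𝔫 _ hV := by
  have hle : P.loc 𝔫 ≤ (Y.V w).toSubring := fun f hf => hf _ hV
  set ρS : ↥(P.loc 𝔫) →+* LaurentSeries k := (Y.ρ w).comp (Subring.inclusion hle) with hρS
  set ι : ↥(t2R (k := k) G.yb) →+* LaurentSeries k :=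
    (algebraMap ↥(modularFunctionFieldFullC k N'') (LaurentSeries k)).comp
      (algebraMap ↥(t2R (k := k) G.yb) ↥(modularFunctionFieldFullC k N'')) with hι
  refine P.smoothAt_of_dedekind_loc hV ρS ?_ ι ?_ ?_ ?_
  · intro f
    exact Y.ρ_eq_zero w hw ⟨(f : ↥(TaF L (t4eLev N'' q i))), hle f.2⟩
  · intro a b h
    exact Subtype.ext (Subtype.ext h)
  · intro b
    exact ⟨t4ecsRP Y hqO hN'' G P hB0 hw hF b, rfl⟩
  · intro t
    obtain ⟨f0, hf0, e⟩ := G.gr (t : ↥(modularFunctionFieldFullC k N'')) t.2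
    refine ⟨⟨_, ha f0 hf0⟩, ?_⟩
    have h1 : ι t = taResN O π hπ N'' f0 := by
      rw [← coe_t2iRes O π hπ N'' hN'', e]
      rfl
    rw [h1]
    have h2 := t4ecsRE_a Y hN'' hw (le_refl i) (t4ecs_exp_top hwi hlt) f0
    have h3 := congrArg (fun t : ↥(modularFunctionFieldFullC k N'') => (t : LaurentSeries k)) h2
    exact h3

include hqO G hB0 in
/-- **smoothness of the branch of ANY component `w ≤ i`** at a point `𝔫` of the chart; for the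
components with `2 w < i` the elements `a_i f₀` must lie in `B_𝔫` -/
theorem t4ecs_smoothAt [IsDedekindDomain ↥(t2R (k := k) G.yb)]
    (hF : ∀ n : ℕ, qExpand k (q ^ n) ((G.yb : ↥(modularFunctionFieldFullC k N'')) :
      LaurentSeries k) = ((G.yb : ↥(modularFunctionFieldFullC k N'')) : LaurentSeries k) ^ (q ^ n))
    {w : ℕ} (hw : w ≤ i) {𝔫 : Ideal P.B} [h𝔫 : 𝔫.IsMaximal] (hV : Y.V w ∈ P.through 𝔫)
    (ha : 2 * w < i → ∀ f0 : ↥(taOv O π hπ N''), (f0 : ↥(TaF L N'')) ∈ t2Int (K := L) y0 →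
      t4eDeg L N'' q i i (f0 : ↥(TaF L N'')) ∈ P.loc 𝔫) :
    P.SmoothAt 𝔫 _ hV := by
  by_cases h : i ≤ 2 * w
  · exact t4ecs_smoothAt_hi Y hqO hN'' G P hB0 hw h hV
  · have h' : 2 * w < i := by omega
    exact t4ecs_smoothAt_lo Y hqO hN'' G P hB0 hw h'.le (by omega) (hF _) hV (ha h')

include hqO G hB0 in
/-- **the field `hsm` of `T4eCChart`** (all vertical branches through all points are smooth) -/
theorem t4ecs_hsm [IsDedekindDomain ↥(t2R (k := k) G.yb)]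
    {y : ↥(TaF L (t4eLev N'' q i))} (hvals : P.vals = t4vpHor L y ∪ Y.ver)
    (hF : ∀ n : ℕ, qExpand k (q ^ n) ((G.yb : ↥(modularFunctionFieldFullC k N'')) :
      LaurentSeries k) = ((G.yb : ↥(modularFunctionFieldFullC k N'')) : LaurentSeries k) ^ (q ^ n))
    (ha : ∀ 𝔫 : Ideal P.B, 𝔫.IsMaximal → ∀ w, 2 * w < i → Y.V w ∈ P.through 𝔫 →
      ∀ f0 : ↥(taOv O π hπ N''), (f0 : ↥(TaF L N'')) ∈ t2Int (K := L) y0 →
        t4eDeg L N'' q i i (f0 : ↥(TaF L N'')) ∈ P.loc 𝔫) :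
    ∀ 𝔫 : Ideal P.B, 𝔫.IsMaximal → ∀ (V : ValuationSubring ↥(TaF L (t4eLev N'' q i)))
      (hV : V ∈ P.through 𝔫),
      V ∈ P.vert (algebraMap L ↥(TaF L (t4eLev N'' q i)) ((q : ℕ) : L)) → P.SmoothAt 𝔫 V hV := by
  intro 𝔫 h𝔫 V hV hVv
  rw [t4ecr_vert Y P hvals] at hVv
  obtain ⟨w, hw, rfl⟩ := hVv
  haveI := h𝔫
  exact t4ecs_smoothAt Y hqO hN'' G P hB0 hF hw hV (fun h' => ha 𝔫 h𝔫 w h' hV)

include hB0 in
/-- chart 1: if `a_i y₀` is integral over `L[a_0 y₀]`, the elements `a_i f₀` lie in the chart ring -/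
theorem t4ecs_ai_mem_B
    (hy : t4eDeg L N'' q i i y0 ∈ t2Int (K := L) (t4eDeg L N'' q i 0 y0))
    (f0 : ↥(taOv O π hπ N'')) (hf0 : (f0 : ↥(TaF L N'')) ∈ t2Int (K := L) y0) :
    t4eDeg L N'' q i i (f0 : ↥(TaF L N'')) ∈ P.B := by
  refine (hB0 _).mpr ⟨?_, (t4ecsA Y i (le_refl i) f0).2⟩
  have h1 : IsIntegral ↥(Algebra.adjoin L {t4eDeg L N'' q i i y0})
      (t4eDeg L N'' q i i (f0 : ↥(TaF L N''))) :=
    t2d_isIntegral_map (RingHom.id L)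
      ((t4eDeg L N'' q i i : ↥(TaF L N'') →ₐ[L] ↥(TaF L (t4eLev N'' q i))) :
        ↥(TaF L N'') →+* ↥(TaF L (t4eLev N'' q i)))
      (fun c => (t4eDeg L N'' q i i).commutes c) hf0
  exact t2c_isIntegral_trans hy h1

include hqO G hB0 in
/-- **`hsm` on a chart on which `a_i y₀` is integral over `L[a_0 y₀]`** (chart 1) -/
theorem t4ecs_hsm_of_mem [IsDedekindDomain ↥(t2R (k := k) G.yb)]
    {y : ↥(TaF L (t4eLev N'' q i))} (hvals : P.vals = t4vpHor L y ∪ Y.ver)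
    (hF : ∀ n : ℕ, qExpand k (q ^ n) ((G.yb : ↥(modularFunctionFieldFullC k N'')) :
      LaurentSeries k) = ((G.yb : ↥(modularFunctionFieldFullC k N'')) : LaurentSeries k) ^ (q ^ n))
    (hy : t4eDeg L N'' q i i y0 ∈ t2Int (K := L) (t4eDeg L N'' q i 0 y0)) :
    ∀ 𝔫 : Ideal P.B, 𝔫.IsMaximal → ∀ (V : ValuationSubring ↥(TaF L (t4eLev N'' q i)))
      (hV : V ∈ P.through 𝔫),
      V ∈ P.vert (algebraMap L ↥(TaF L (t4eLev N'' q i)) ((q : ℕ) : L)) → P.SmoothAt 𝔫 V hV :=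
  t4ecs_hsm Y hqO hN'' G P hB0 hvals hF (fun 𝔫 _ w _ _ f0 hf0 =>
    P.B_le_loc 𝔫 (t4ecs_ai_mem_B Y P hB0 hy f0 hf0))

end Gen

/-! ### Frobenius -/

section Frob

variable {k : Type*} [Field k] {q : ℕ} [hq : Fact q.Prime] [CharP k q]

/-- `t(𝔮^q) = t^q` propagates to `t(𝔮^{q^n}) = t^{q^n}` -/
theorem t4ecs_frob_iter {t : LaurentSeries k} (h : qExpand k q t = t ^ q) :
    ∀ n : ℕ, qExpand k (q ^ n) t = t ^ (q ^ n)
  | 0 => t4ecs_frob_of_eq_zero rfl t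
  | n + 1 => by
    rw [qExpand_congr (pow_succ' q n) t, ← qExpand_qExpand, t4ecs_frob_iter h n, map_pow, h,
      ← pow_mul, ← pow_succ']

/-- `j̄(𝔮^{q^n}) = j̄^{q^n}` -/
theorem t4ecs_frob_jq (n : ℕ) : qExpand k (q ^ n) (jqModC k) = jqModC k ^ (q ^ n) :=
  t4ecs_frob_iter (t2i_jq_pow k q).symm n

/-- `x̄(𝔮^{q^n}) = x̄^{q^n}` for `x̄ = j̄^Q - j̄` -/
theorem t4ecs_frob_X (Q n : ℕ) :
    qExpand k (q ^ n) (jqModC k ^ Q - jqModC k) = (jqModC k ^ Q - jqModC k) ^ (q ^ n) := by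
  haveI : CharP (LaurentSeries k) q :=
    charP_of_injective_algebraMap (algebraMap k (LaurentSeries k)).injective q
  refine t4ecs_frob_iter ?_ n
  rw [map_sub, map_pow, ← t2i_jq_pow k q, sub_pow_char, ← pow_mul, ← pow_mul, mul_comm]

/-- `x̄⁻¹(𝔮^{q^n}) = (x̄⁻¹)^{q^n}` -/
theorem t4ecs_frob_X_inv (Q n : ℕ) :
    qExpand k (q ^ n) (jqModC k ^ Q - jqModC k)⁻¹ = ((jqModC k ^ Q - jqModC k)⁻¹) ^ (q ^ n) := by
  rw [map_inv₀, t4ecs_frob_X, inv_pow]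

end Frob

/-! ### The inertia level: the two charts `X_i`, `X_i⁻¹` -/

section Fix

attribute [local instance] t2i_dvr t2i_isAlgClosed t2i_charP t2i_fact

variable (𝔓 : FFPlace) (N'' : ℕ) [NeZero N''] (h : ¬ 𝔓.p ∣ N'') (h49 : 4 ∣ N'' ∨ 9 ∣ N'') {i : ℕ}
  (Y : T4eLayer (tbFixO 𝔓 ⊤) (tbFixRes 𝔓 ⊤) (tbFixRes_surjective 𝔓 ⊤) N'' 𝔓.p i)
  {Q : ℕ} (hQ : 2 ≤ Q) (hpQ : 𝔓.p ∣ Q)
  (P : T4Pres ↥(tbLevF 𝔓 (t4eLev N'' 𝔓.p i) ⊤)) {y : ↥(tbLevF 𝔓 (t4eLev N'' 𝔓.p i) ⊤)}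
  (hvals : P.vals = t4vpHor ↥(tbFix 𝔓 (⊤ : Subgroup 𝔓.I)) y ∪ Y.ver)

include h in
/-- the Frobenius hypothesis for the good reduction of `X'` -/
theorem t4ecs_frob_good_X (G : T4vmGood (tbFixO 𝔓 ⊤) (tbFixRes 𝔓 ⊤) (tbFixRes_surjective 𝔓 ⊤)
    (t2i_natCast_ne_zero 𝔓 h) (t2iFrobFix 𝔓 N'') (t4vX' ↥(tbFix 𝔓 (⊤ : Subgroup 𝔓.I)) N'' Q))
    (n : ℕ) :
    qExpand (IsLocalRing.ResidueField ↥𝔓.P) (𝔓.p ^ n)
      ((G.yb : ↥(modularFunctionFieldFullC (IsLocalRing.ResidueField ↥𝔓.P) N'')) :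
        LaurentSeries (IsLocalRing.ResidueField ↥𝔓.P)) =
      ((G.yb : ↥(modularFunctionFieldFullC (IsLocalRing.ResidueField ↥𝔓.P) N'')) :
        LaurentSeries (IsLocalRing.ResidueField ↥𝔓.P)) ^ (𝔓.p ^ n) := by
  rw [t4vg_yb_X 𝔓 ⊤ N'' h G]
  exact t4ecs_frob_X Q n

include h hQ hpQ in
/-- the Frobenius hypothesis for the good reduction of `X'⁻¹` -/
theorem t4ecs_frob_good_X_inv (G : T4vmGood (tbFixO 𝔓 ⊤) (tbFixRes 𝔓 ⊤)
    (tbFixRes_surjective 𝔓 ⊤) (t2i_natCast_ne_zero 𝔓 h) (t2iFrobFix 𝔓 N'')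
    (t4vX' ↥(tbFix 𝔓 (⊤ : Subgroup 𝔓.I)) N'' Q)⁻¹) (n : ℕ) :
    qExpand (IsLocalRing.ResidueField ↥𝔓.P) (𝔓.p ^ n)
      ((G.yb : ↥(modularFunctionFieldFullC (IsLocalRing.ResidueField ↥𝔓.P) N'')) :
        LaurentSeries (IsLocalRing.ResidueField ↥𝔓.P)) =
      ((G.yb : ↥(modularFunctionFieldFullC (IsLocalRing.ResidueField ↥𝔓.P) N'')) :
        LaurentSeries (IsLocalRing.ResidueField ↥𝔓.P)) ^ (𝔓.p ^ n) := by
  rw [t4vg_yb_X_inv 𝔓 ⊤ N'' h hQ hpQ G]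
  exact t4ecs_frob_X_inv Q n

include h h49 hQ hpQ hvals in
/-- **`hsm` on the chart `X_i`** (inertia level, every level `i`), given that `a_i X'` is integral over
`L[X_i]` (helper2's `Chart/Over`: `a_i j` is integral over `L[a_0 j]`) -/
theorem t4ecs_hsm_X_fix
    (hB : ∀ f, f ∈ P.B ↔ f ∈ t2Int (K := ↥(tbFix 𝔓 (⊤ : Subgroup 𝔓.I)))
      (t4ecX ↥(tbFix 𝔓 (⊤ : Subgroup 𝔓.I)) N'' 𝔓.p i Q) ∧ f ∈ Y.Ov)
    (hy : t4eDeg ↥(tbFix 𝔓 (⊤ : Subgroup 𝔓.I)) N'' 𝔓.p i i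
        (t4vX' ↥(tbFix 𝔓 (⊤ : Subgroup 𝔓.I)) N'' Q) ∈
      t2Int (K := ↥(tbFix 𝔓 (⊤ : Subgroup 𝔓.I)))
        (t4ecX ↥(tbFix 𝔓 (⊤ : Subgroup 𝔓.I)) N'' 𝔓.p i Q)) :
    ∀ 𝔫 : Ideal P.B, 𝔫.IsMaximal →
      ∀ (V : ValuationSubring ↥(tbLevF 𝔓 (t4eLev N'' 𝔓.p i) ⊤)) (hV : V ∈ P.through 𝔫),
      V ∈ P.vert (algebraMap ↥(tbFix 𝔓 (⊤ : Subgroup 𝔓.I)) ↥(tbLevF 𝔓 (t4eLev N'' 𝔓.p i) ⊤)
        ((𝔓.p : ℕ) : ↥(tbFix 𝔓 (⊤ : Subgroup 𝔓.I)))) → P.SmoothAt 𝔫 V hV := by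
  rw [t4ecX_eq] at hB hy
  haveI := t4vg_dedekind_X 𝔓 ⊤ N'' h hQ (t4vg_good_X 𝔓 ⊤ N'' h h49 hQ hpQ)
  exact t4ecs_hsm_of_mem Y (t4cy_irreducible_p 𝔓) (t2i_natCast_ne_zero 𝔓 h)
    (t4vg_good_X 𝔓 ⊤ N'' h h49 hQ hpQ) P hB hvals
    (t4ecs_frob_good_X 𝔓 N'' h (t4vg_good_X 𝔓 ⊤ N'' h h49 hQ hpQ)) hy

include h h49 hQ hpQ hvals in
/-- **`hsm` on the chart `X_i⁻¹`** (inertia level, every level `i`); for the components with
`2 w < i` the elements `a_i f₀` must lie in `B_𝔫` -/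
theorem t4ecs_hsm_X_inv_fix
    (hB : ∀ f, f ∈ P.B ↔ f ∈ t2Int (K := ↥(tbFix 𝔓 (⊤ : Subgroup 𝔓.I)))
      (t4ecX ↥(tbFix 𝔓 (⊤ : Subgroup 𝔓.I)) N'' 𝔓.p i Q)⁻¹ ∧ f ∈ Y.Ov)
    (ha : ∀ 𝔫 : Ideal P.B, 𝔫.IsMaximal → ∀ w, 2 * w < i → Y.V w ∈ P.through 𝔫 →
      ∀ f0 : ↥(taOv (tbFixO 𝔓 ⊤) (tbFixRes 𝔓 ⊤) (tbFixRes_surjective 𝔓 ⊤) N''),
        (f0 : ↥(TaF ↥(tbFix 𝔓 (⊤ : Subgroup 𝔓.I)) N'')) ∈
          t2Int (K := ↥(tbFix 𝔓 (⊤ : Subgroup 𝔓.I)))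
            (t4vX' ↥(tbFix 𝔓 (⊤ : Subgroup 𝔓.I)) N'' Q)⁻¹ →
        t4eDeg ↥(tbFix 𝔓 (⊤ : Subgroup 𝔓.I)) N'' 𝔓.p i i
          (f0 : ↥(TaF ↥(tbFix 𝔓 (⊤ : Subgroup 𝔓.I)) N'')) ∈ P.loc 𝔫) :
    ∀ 𝔫 : Ideal P.B, 𝔫.IsMaximal →
      ∀ (V : ValuationSubring ↥(tbLevF 𝔓 (t4eLev N'' 𝔓.p i) ⊤)) (hV : V ∈ P.through 𝔫),
      V ∈ P.vert (algebraMap ↥(tbFix 𝔓 (⊤ : Subgroup 𝔓.I)) ↥(tbLevF 𝔓 (t4eLev N'' 𝔓.p i) ⊤)
        ((𝔓.p : ℕ) : ↥(tbFix 𝔓 (⊤ : Subgroup 𝔓.I)))) → P.SmoothAt 𝔫 V hV := by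
  rw [t4ecX_inv_eq] at hB
  haveI := t4vg_dedekind_X_inv 𝔓 ⊤ N'' h hQ hpQ (t4vg_good_X_inv 𝔓 ⊤ N'' h h49 hQ hpQ)
  exact t4ecs_hsm Y (t4cy_irreducible_p 𝔓) (t2i_natCast_ne_zero 𝔓 h)
    (t4vg_good_X_inv 𝔓 ⊤ N'' h h49 hQ hpQ) P hB hvals
    (t4ecs_frob_good_X_inv 𝔓 N'' h hQ hpQ (t4vg_good_X_inv 𝔓 ⊤ N'' h h49 hQ hpQ)) ha

end Fix

end Fermat.Agent.T4
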