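/-
T4E-P7 (K2) (helper3), `Chart/K2.lean`: **the local statement (K2) on the chart `X_i⁻¹` of level `i`**
(generic level `i`, abstract unramified DVR level `(L, O, π, k)`, abstract layer
`Y : T4eLayer O π hπ N'' q i`; prefix `t4eck`).  Generalises `T4/Reg/{CuspK2,CuspK2A,CuspK2Fix}.lean`.

`P` ANY presentation of the chart ring `B = IntCl(L[y]) ∩ 𝒪_i`, `y = 1 / X_i`, `X_i = (a_0 j)^Q - a_0 j`
(dictionaries `hB`, `hvals`); `R = B_𝔫` the local ring at a point `𝔫`.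

* `t4eck_u_chain` : at a cuspidal point (`y ∈ 𝔫`) all `1 / a_n j`, `n ≤ i`, are non-units of `R`
  (`u_0 = 1 / a_0 j ∈ 𝔫`, then helper8's `t4erc_chain` along the modular relations);
* `t4eck_mem_loc_cusp` : at a cuspidal point `a_n f₀ ∈ R` for every `f₀ ∈ taOv N''` integral over
  `L[1 / X']` (`1 / a_n X' = u_n^Q / (1 - u_n^(Q-1)) ∈ R`);
* `t4eck_mem_loc_noncusp` : at a non-cuspidal point (`y ∉ 𝔫`) on the component `w`, for `n` with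
  `t4eExp i w n ≤ t4eExp i w 0`, `a_n f₀ ∈ R`, given that `a_n X'` is integral over `L[X_i]`
  (`x = X_i` is a unit of `R`, `(a_n X')^(q^d) ≡ x` on `V w`, so `a_n X'` is a unit of `R`);
* **`t4eck_K2`** : the combined statement;
* inertia level: `t4eck_an_of_a0_fix` (`a_n j` integral over `L[a_0 j]`, T2's cusp package),
  `t4eck_anX_of_X_fix`, **`t4eck_K2_fix`**, and the two unconditional `hsm` fields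
  **`t4eck_hsm_X_fix`** (chart `X_i`), **`t4eck_hsm_X_inv_fix`** (chart `X_i⁻¹`).
-/
import Fermat.Agent.Lib.T4E.Chart.Sm
import Fermat.Agent.Lib.T4E.Reg.CuspTower
import Fermat.Agent.Lib.T4.Reg.CuspTable

set_option autoImplicit false
set_option linter.unusedSectionVars false
set_option linter.unusedVariables false
set_option linter.style.haveILetI false
set_option synthInstance.maxHeartbeats 400000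
set_option maxHeartbeats 1000000

open HahnSeries ModularCurve IntermediateField Fermat.Agent.T1 Fermat.Agent.T2 Fermat.Agent.TW

noncomputable section

namespace Fermat.Agent.T4

section Gen

variable {L : Type} [Field L] [Algebra ℚ L] {O : ValuationSubring L} {k : Type*} [Field k]
  {π : ↥O →+* k} [IsDiscreteValuationRing ↥O] {hπ : Function.Surjective π} [IsAlgClosed k]
  {N'' q : ℕ} [NeZero N''] [hq : Fact q.Prime] [CharP k q] {i : ℕ}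
  (Y : T4eLayer O π hπ N'' q i) {Q : ℕ} (hQ : 2 ≤ Q)
  (P : T4Pres ↥(TaF L (t4eLev N'' q i))) {y : ↥(TaF L (t4eLev N'' q i))}
  (hvals : P.vals = t4vpHor L y ∪ Y.ver)
  (hB : ∀ f : ↥(TaF L (t4eLev N'' q i)), f ∈ P.B ↔ f ∈ t2Int (K := L) y ∧ f ∈ Y.Ov)

/-- `X_i = (a_0 j)^Q - a_0 j` -/
theorem t4eck_X_eq : t4ecX L N'' q i Q =
    t4eDeg L N'' q i 0 (taJ N'') ^ Q - t4eDeg L N'' q i 0 (taJ N'') := by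
  rw [t4ecX, t4eDeg_zero_taJ]

/-- `a_n X' = (a_n j)^Q - a_n j` -/
theorem t4eck_an_X' (n : ℕ) : t4eDeg L N'' q i n (t4vX' L N'' Q) =
    t4eDeg L N'' q i n (taJ N'') ^ Q - t4eDeg L N'' q i n (taJ N'') := by
  rw [t4vX', map_sub, map_pow]

include hB hQ in
/-- the chart coordinate `y = 1 / X_i` lies in the chart ring -/
theorem t4eck_y_mem_B (hy : y = (t4ecX L N'' q i Q)⁻¹) : y ∈ P.B := by
  refine (hB _).mpr ⟨t2Int_self y, ?_⟩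
  rw [hy]
  exact t4ecX_inv_mem_Ov Y hQ

include hB hQ in
/-- **the chain of non-units at a cuspidal point**: all `1 / a_n j`, `n ≤ i`, are non-units of
`B_𝔫` -/
theorem t4eck_u_chain (hy : y = (t4ecX L N'' q i Q)⁻¹) (𝔫 : Ideal P.B) [h𝔫 : 𝔫.IsPrime]
    (hy𝔫 : ∀ hyB : y ∈ P.B, (⟨y, hyB⟩ : P.B) ∈ 𝔫) :
    ∀ n ≤ i, ∃ hu : (t4eDeg L N'' q i n (taJ N''))⁻¹ ∈ P.loc 𝔫,
      ¬ IsUnit (⟨(t4eDeg L N'' q i n (taJ N''))⁻¹, hu⟩ : ↥(P.loc 𝔫)) := by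
  classical
  letI := P.isLocalRing_loc 𝔫
  have hJ : ∀ n, t4eDeg L N'' q i n (taJ N'') ≠ 0 := fun n => t4erc_J_ne_zero n
  have hX0 : t4eDeg L N'' q i 0 (taJ N'') ^ Q - t4eDeg L N'' q i 0 (taJ N'') ≠ 0 := by
    rw [← t4eck_X_eq]
    exact t4ecX_ne_zero hQ
  have hyX : y = (t4eDeg L N'' q i 0 (taJ N'') ^ Q - t4eDeg L N'' q i 0 (taJ N''))⁻¹ := by
    rw [hy, t4eck_X_eq]
  have hyu : IsIntegral ↥(Algebra.adjoin L {y}) (t4eDeg L N'' q i 0 (taJ N''))⁻¹ := by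
    rw [hyX]
    exact t4rc_isIntegral_jinv hQ (hJ 0) hX0
  have hyB : y ∈ P.B := t4eck_y_mem_B Y hQ P hB hy
  have hOvu0 : (t4eDeg L N'' q i 0 (taJ N''))⁻¹ ∈ Y.Ov := fun w hw =>
    (Y.rho_Jinv hw (Nat.zero_le i)).1
  have huB : (t4eDeg L N'' q i 0 (taJ N''))⁻¹ ∈ P.B := (hB _).mpr ⟨hyu, hOvu0⟩
  have hul : (t4eDeg L N'' q i 0 (taJ N''))⁻¹ ∈ P.loc 𝔫 := P.B_le_loc 𝔫 huB
  have hu𝔫 : (⟨(t4eDeg L N'' q i 0 (taJ N''))⁻¹, huB⟩ : P.B) ∈ 𝔫 := by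
    have h1 : (⟨(t4eDeg L N'' q i 0 (taJ N''))⁻¹, huB⟩ : P.B) ^ Q =
        ⟨y, hyB⟩ * (1 - ⟨(t4eDeg L N'' q i 0 (taJ N''))⁻¹, huB⟩ ^ (Q - 1)) := by
      apply Subtype.ext
      show (t4eDeg L N'' q i 0 (taJ N''))⁻¹ ^ Q =
        y * (1 - (t4eDeg L N'' q i 0 (taJ N''))⁻¹ ^ (Q - 1))
      rw [hyX]
      exact t4rc_jinv_pow_eq (by omega) (hJ 0) hX0
    have h2 : (⟨(t4eDeg L N'' q i 0 (taJ N''))⁻¹, huB⟩ : P.B) ^ Q ∈ 𝔫 := by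
      rw [h1]
      exact 𝔫.mul_mem_right _ (hy𝔫 hyB)
    exact h𝔫.mem_of_pow_mem Q h2
  have hunu : ¬ IsUnit (⟨_, hul⟩ : ↥(P.loc 𝔫)) := P.not_isUnit_of_mem 𝔫 huB hu𝔫 hul
  exact t4erc_chain (P.loc 𝔫) (fun x hx => P.loc_integrallyClosed 𝔫 hx)
    (Int.castRingHom ↥(TaF L (t4eLev N'' q i))) (fun c => by
      rw [eq_intCast]
      exact intCast_mem _ c) (Igusa.modPhi q hq.out) (Igusa.modPhi_monic q hq.out)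
    (fun n => t4eDeg L N'' q i n (taJ N'')) i (fun n _ => hJ n)
    (fun n hn => t4erc_modular_relation L N'' q hq.out hn) hul hunu

include hvals in
/-- an element of `𝒪_i`, integral over `L[x]` with `x ∈ B_𝔫`, lies in `B_𝔫` -/
theorem t4eck_mem_loc_of_isIntegral (𝔫 : Ideal P.B) [h𝔫 : 𝔫.IsPrime]
    {x f : ↥(TaF L (t4eLev N'' q i))} (hx : x ∈ P.loc 𝔫) (hf : f ∈ Y.Ov)
    (hint : IsIntegral ↥(Algebra.adjoin L {x}) f) : f ∈ P.loc 𝔫 := by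
  intro V hV
  have h1 : V ∈ P.vals := hV.1
  rw [hvals] at h1
  rcases h1 with hVh | hVv
  · exact t4rc_mem_of_isIntegral V (fun c => t4vp_algebraMap_mem_hor hVh c) (hx V hV) hint
  · obtain ⟨w, hw, rfl⟩ := hVv
    exact hf w hw

/-- `a_n f₀` is integral over `L[1 / a_n X']` for `f₀` integral over `L[1 / X']` -/
theorem t4eck_isIntegral_an (n : ℕ) {f0 : ↥(TaF L N'')}
    (hf0 : f0 ∈ t2Int (K := L) (t4vX' L N'' Q)⁻¹) :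
    IsIntegral ↥(Algebra.adjoin L {(t4eDeg L N'' q i n (t4vX' L N'' Q))⁻¹})
      (t4eDeg L N'' q i n f0) := by
  have h1 := t2d_isIntegral_map (RingHom.id L)
    ((t4eDeg L N'' q i n : ↥(TaF L N'') →ₐ[L] ↥(TaF L (t4eLev N'' q i))) :
      ↥(TaF L N'') →+* ↥(TaF L (t4eLev N'' q i)))
    (fun c => (t4eDeg L N'' q i n).commutes c) (mem_t2Int.mp hf0)
  have h2 : ((t4eDeg L N'' q i n : ↥(TaF L N'') →ₐ[L] ↥(TaF L (t4eLev N'' q i))) :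
      ↥(TaF L N'') →+* ↥(TaF L (t4eLev N'' q i))) (t4vX' L N'' Q)⁻¹ =
      (t4eDeg L N'' q i n (t4vX' L N'' Q))⁻¹ := by
    show t4eDeg L N'' q i n (t4vX' L N'' Q)⁻¹ = _
    rw [map_inv₀]
  rw [h2] at h1
  exact h1

include hvals hB hQ in
/-- **(K2), cuspidal case**: `a_n f₀ ∈ B_𝔫` -/
theorem t4eck_mem_loc_cusp (hy : y = (t4ecX L N'' q i Q)⁻¹) (𝔫 : Ideal P.B) [h𝔫 : 𝔫.IsPrime]
    (hy𝔫 : ∀ hyB : y ∈ P.B, (⟨y, hyB⟩ : P.B) ∈ 𝔫) {n : ℕ} (hn : n ≤ i)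
    (f0 : ↥(taOv O π hπ N''))
    (hf0 : (f0 : ↥(TaF L N'')) ∈ t2Int (K := L) (t4vX' L N'' Q)⁻¹) :
    t4eDeg L N'' q i n (f0 : ↥(TaF L N'')) ∈ P.loc 𝔫 := by
  classical
  letI := P.isLocalRing_loc 𝔫
  obtain ⟨hu, hunu⟩ := t4eck_u_chain Y hQ P hB hy 𝔫 hy𝔫 n hn
  set Jn : ↥(TaF L (t4eLev N'' q i)) := t4eDeg L N'' q i n (taJ N'') with hJndef
  have hJn : Jn ≠ 0 := t4erc_J_ne_zero n
  have hQ1 : Q - 1 ≠ 0 := by omega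
  -- `c = 1 - u_n^(Q-1)` is a unit of `B_𝔫`
  have hm : -(Jn⁻¹ ^ (Q - 1)) ∈ P.loc 𝔫 := neg_mem (pow_mem hu _)
  have hmnu : ¬ IsUnit (⟨_, hm⟩ : ↥(P.loc 𝔫)) := by
    intro hunit
    apply hunu
    have h1 : (⟨_, hm⟩ : ↥(P.loc 𝔫)) = -(⟨Jn⁻¹, hu⟩ ^ (Q - 1)) := rfl
    rw [h1, IsUnit.neg_iff] at hunit
    exact (isUnit_pow_iff hQ1).mp hunit
  have hci : (1 + -(Jn⁻¹ ^ (Q - 1)))⁻¹ ∈ P.loc 𝔫 := t4rc_one_add_inv_mem (P.loc 𝔫) hm hmnu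
  -- `1 / (a_n X') = u_n^Q / c`
  have hXinv : (Jn ^ Q - Jn)⁻¹ ∈ P.loc 𝔫 := by
    have h1 : (Jn ^ Q - Jn)⁻¹ = Jn⁻¹ ^ Q * (1 + -(Jn⁻¹ ^ (Q - 1)))⁻¹ := by
      have h2 : Jn ^ Q - Jn = Jn ^ Q * (1 + -(Jn⁻¹ ^ (Q - 1))) := by
        obtain ⟨m, rfl⟩ : ∃ m, Q = m + 1 := ⟨Q - 1, by omega⟩
        rw [Nat.add_sub_cancel]
        have hju : Jn * Jn⁻¹ = 1 := mul_inv_cancel₀ hJn
        calc Jn ^ (m + 1) - Jn = Jn ^ (m + 1) - Jn * (Jn * Jn⁻¹) ^ m := by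
              rw [hju, one_pow, mul_one]
          _ = Jn ^ (m + 1) * (1 + -(Jn⁻¹ ^ m)) := by ring
      rw [h2, mul_inv, ← inv_pow]
    rw [h1]
    exact mul_mem (pow_mem hu Q) hci
  have hint := t4eck_isIntegral_an (q := q) (i := i) n hf0
  rw [t4eck_an_X'] at hint
  exact t4eck_mem_loc_of_isIntegral Y P hvals 𝔫 hXinv
    (fun w hw => Y.a_mem w hw n hn _ f0.2) hint

include hvals hB hQ in
/-- **(K2), non-cuspidal case**: `a_n f₀ ∈ B_𝔫` at a point `𝔫 ∌ y = 1 / X_i` of the component `w`, for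
`n` with `t4eExp i w n ≤ t4eExp i w 0`, given that `a_n X'` is integral over `L[X_i]` -/
theorem t4eck_mem_loc_noncusp (hy : y = (t4ecX L N'' q i Q)⁻¹) (𝔫 : Ideal P.B) [h𝔫 : 𝔫.IsPrime]
    {w n : ℕ} (hw : w ≤ i) (hn : n ≤ i) (hexp : t4eExp i w n ≤ t4eExp i w 0)
    (hV : Y.V w ∈ P.through 𝔫)
    (hyn : ∃ hyB : y ∈ P.B, (⟨y, hyB⟩ : P.B) ∉ 𝔫)
    (hA : IsIntegral ↥(Algebra.adjoin L {t4ecX L N'' q i Q}) (t4eDeg L N'' q i n (t4vX' L N'' Q)))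
    (f0 : ↥(taOv O π hπ N''))
    (hf0 : (f0 : ↥(TaF L N'')) ∈ t2Int (K := L) (t4vX' L N'' Q)⁻¹) :
    t4eDeg L N'' q i n (f0 : ↥(TaF L N'')) ∈ P.loc 𝔫 := by
  classical
  letI := P.isLocalRing_loc 𝔫
  obtain ⟨hyB, hy𝔫⟩ := hyn
  have hx0 : t4ecX L N'' q i Q ≠ 0 := t4ecX_ne_zero hQ
  rw [t4ecX_eq] at hy hA hx0
  set x : ↥(TaF L (t4eLev N'' q i)) := t4eDeg L N'' q i 0 (t4vX' L N'' Q) with hxdef
  set Yn : ↥(TaF L (t4eLev N'' q i)) := t4eDeg L N'' q i n (t4vX' L N'' Q) with hYdef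
  have hX'm : t4vX' L N'' Q ∈ taOv O π hπ N'' := t4vX'_mem O π hπ
  -- `x` is a unit of `B_𝔫`
  have hxl : x ∈ P.loc 𝔫 := by
    refine P.mem_loc_iff.mpr ⟨⟨y, hyB⟩, hy𝔫, ?_⟩
    show y * x ∈ P.B
    rw [hy, inv_mul_cancel₀ hx0]
    exact P.B.one_mem
  have hxil : x⁻¹ ∈ P.loc 𝔫 := by
    rw [← hy]
    exact P.B_le_loc 𝔫 hyB
  have hxu : IsUnit (⟨x, hxl⟩ : ↥(P.loc 𝔫)) := (t4rc_isUnit_iff (P.loc 𝔫) hxl).mpr ⟨hx0, hxil⟩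
  -- `Yn ∈ B_𝔫`
  have hxOv : x ∈ Y.Ov := fun w' hw' => Y.a_mem w' hw' 0 (Nat.zero_le i) _ hX'm
  have hYOv : Yn ∈ Y.Ov := fun w' hw' => Y.a_mem w' hw' n hn _ hX'm
  have hYl : Yn ∈ P.loc 𝔫 := t4eck_mem_loc_of_isIntegral Y P hvals 𝔫 hxl hYOv hA
  -- `Yn^(q^d) ≡ x` on `V w`, `d = e_0 - e_n`
  have hval : (Y.V w).valuation (Yn ^ (q ^ (t4eExp i w 0 - t4eExp i w n)) - x) < 1 := by
    have hsub : Yn ^ (q ^ (t4eExp i w 0 - t4eExp i w n)) - x ∈ Y.V w :=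
      sub_mem (pow_mem (hYOv w hw) _) (hxOv w hw)
    rw [← Y.ρ_eq_zero w hw ⟨_, hsub⟩]
    have e : (⟨_, hsub⟩ : ↥(Y.V w)) =
        ⟨Yn, Y.a_mem w hw n hn _ hX'm⟩ ^ (q ^ (t4eExp i w 0 - t4eExp i w n)) -
          ⟨x, Y.a_mem w hw 0 (Nat.zero_le i) _ hX'm⟩ := rfl
    rw [e, map_sub, map_pow, Y.ρ_a w hw n hn _ hX'm, Y.ρ_a w hw 0 (Nat.zero_le i) _ hX'm,
      t4vX'_res, t4ecs_frob_X, t4ecs_frob_X, ← pow_mul, ← _root_.pow_add,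
      Nat.add_sub_cancel' hexp, sub_self]
  have hwl : Yn ^ (q ^ (t4eExp i w 0 - t4eExp i w n)) - x ∈ P.loc 𝔫 :=
    sub_mem (pow_mem hYl _) hxl
  have hwnu : ¬ IsUnit (⟨_, hwl⟩ : ↥(P.loc 𝔫)) := P.not_isUnit_of_valuation_lt hV ⟨_, hwl⟩ hval
  -- `Yn` is a unit of `B_𝔫`
  have hYu : IsUnit (⟨Yn, hYl⟩ : ↥(P.loc 𝔫)) := by
    have h1 : (⟨Yn, hYl⟩ : ↥(P.loc 𝔫)) ^ (q ^ (t4eExp i w 0 - t4eExp i w n)) =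
        ⟨x, hxl⟩ + ⟨_, hwl⟩ := by
      apply Subtype.ext
      show Yn ^ (q ^ (t4eExp i w 0 - t4eExp i w n)) =
        x + (Yn ^ (q ^ (t4eExp i w 0 - t4eExp i w n)) - x)
      ring
    have h2 : IsUnit ((⟨Yn, hYl⟩ : ↥(P.loc 𝔫)) ^ (q ^ (t4eExp i w 0 - t4eExp i w n))) := by
      rw [h1]
      exact t4rc_isUnit_add _ hxu hwnu
    have hqq : q ^ (t4eExp i w 0 - t4eExp i w n) ≠ 0 := pow_ne_zero _ hq.out.ne_zero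
    exact (isUnit_pow_iff hqq).mp h2
  have hYi : Yn⁻¹ ∈ P.loc 𝔫 := ((t4rc_isUnit_iff (P.loc 𝔫) hYl).mp hYu).2
  exact t4eck_mem_loc_of_isIntegral Y P hvals 𝔫 hYi
    (fun w' hw' => Y.a_mem w' hw' n hn _ f0.2) (t4eck_isIntegral_an (q := q) (i := i) n hf0)

include hvals hB hQ in
/-- **(K2)**: `a_n f₀ ∈ B_𝔫` at every point `𝔫` of the chart `y = 1 / X_i` on the component `w`, for
`n` with `t4eExp i w n ≤ t4eExp i w 0`, given that `a_n X'` is integral over `L[X_i]` -/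
theorem t4eck_K2 (hy : y = (t4ecX L N'' q i Q)⁻¹) (𝔫 : Ideal P.B) [h𝔫 : 𝔫.IsPrime]
    {w n : ℕ} (hw : w ≤ i) (hn : n ≤ i) (hexp : t4eExp i w n ≤ t4eExp i w 0)
    (hV : Y.V w ∈ P.through 𝔫)
    (hA : IsIntegral ↥(Algebra.adjoin L {t4ecX L N'' q i Q}) (t4eDeg L N'' q i n (t4vX' L N'' Q)))
    (f0 : ↥(taOv O π hπ N''))
    (hf0 : (f0 : ↥(TaF L N'')) ∈ t2Int (K := L) (t4vX' L N'' Q)⁻¹) :
    t4eDeg L N'' q i n (f0 : ↥(TaF L N'')) ∈ P.loc 𝔫 := by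
  have hyB : y ∈ P.B := t4eck_y_mem_B Y hQ P hB hy
  by_cases hc : (⟨y, hyB⟩ : P.B) ∈ 𝔫
  · exact t4eck_mem_loc_cusp Y hQ P hvals hB hy 𝔫 (fun _ => hc) hn f0 hf0
  · exact t4eck_mem_loc_noncusp Y hQ P hvals hB hy 𝔫 hw hn hexp hV ⟨hyB, hc⟩ hA f0 hf0

end Gen

/-! ### The inertia level -/

section FixInt

local notation "Qb" => AlgebraicClosure ℚ

attribute [local instance] t2i_dvr t2i_isAlgClosed t2i_charP t2i_fact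

variable (𝔓 : FFPlace) (N'' : ℕ) [NeZero N''] (H : Subgroup 𝔓.I) {i : ℕ}

theorem t4eck_pow_dvd_lev {n : ℕ} (hn : n ≤ i) : 𝔓.p ^ n ∣ t4eLev N'' 𝔓.p i := by
  rw [t4eLev_eq]
  exact Dvd.dvd.mul_left (pow_dvd_pow _ hn) _

/-- `a_n j = j(𝔮^{p^n})` over `ℚ̄` -/
theorem t4eck_tbPhiF_an_j {n : ℕ} (hn : n ≤ i) :
    tbPhiF 𝔓 (t4eLev N'' 𝔓.p i) H (t4eDeg ↥(tbFix 𝔓 H) N'' 𝔓.p i n (taJ N'')) =
      t2cpYq (t4eLev N'' 𝔓.p i) (𝔓.p ^ n) (t4eck_pow_dvd_lev 𝔓 N'' hn) := by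
  apply Subtype.ext
  rw [coe_tbPhiF, coe_t4eDeg _ _ _ i n hn, coe_taJ, coe_t2cpYq, coeffMap_qExpand, coeffMap_jqModC]

/-- `a_0 j = j` over `ℚ̄` -/
theorem t4eck_tbPhiF_a0_j :
    tbPhiF 𝔓 (t4eLev N'' 𝔓.p i) H (t4eDeg ↥(tbFix 𝔓 H) N'' 𝔓.p i 0 (taJ N'')) =
      tbJ (t4eLev N'' 𝔓.p i) := by
  rw [t4eDeg_zero_taJ]
  exact tbPhiF_tbLevJ 𝔓 (t4eLev N'' 𝔓.p i) H

/-- **`a_n j` is integral over `L[a_0 j]`** (every level `i`, every `n ≤ i`) -/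
theorem t4eck_an_of_a0_fix {n : ℕ} (hn : n ≤ i) :
    IsIntegral ↥(Algebra.adjoin ↥(tbFix 𝔓 H) {t4eDeg ↥(tbFix 𝔓 H) N'' 𝔓.p i 0 (taJ N'')})
      (t4eDeg ↥(tbFix 𝔓 H) N'' 𝔓.p i n (taJ N'')) := by
  refine (t2d_isIntegral_tbPhiF_iff 𝔓 (t4eLev N'' 𝔓.p i) H _ _).mpr ?_
  rw [t4eck_tbPhiF_a0_j, t4eck_tbPhiF_an_j 𝔓 N'' H hn]
  exact t2cp_isIntegral_Y (t4eLev N'' 𝔓.p i) (𝔓.p ^ n) (t4eck_pow_dvd_lev 𝔓 N'' hn)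

/-- **`a_n X'` is integral over `L[X_i]`** -/
theorem t4eck_anX_of_X_fix {Q : ℕ} (hQ : 2 ≤ Q) {n : ℕ} (hn : n ≤ i) :
    IsIntegral ↥(Algebra.adjoin ↥(tbFix 𝔓 H) {t4ecX ↥(tbFix 𝔓 H) N'' 𝔓.p i Q})
      (t4eDeg ↥(tbFix 𝔓 H) N'' 𝔓.p i n (t4vX' ↥(tbFix 𝔓 H) N'' Q)) := by
  rw [t4eck_an_X', t4eck_X_eq]
  exact t4rcb_isIntegral_chart hQ (t4eck_an_of_a0_fix 𝔓 N'' H hn)

end FixInt

section Fix

attribute [local instance] t2i_dvr t2i_isAlgClosed t2i_charP t2i_fact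

variable (𝔓 : FFPlace) (N'' : ℕ) [NeZero N''] (h : ¬ 𝔓.p ∣ N'') (h49 : 4 ∣ N'' ∨ 9 ∣ N'') {i : ℕ}
  (Y : T4eLayer (tbFixO 𝔓 ⊤) (tbFixRes 𝔓 ⊤) (tbFixRes_surjective 𝔓 ⊤) N'' 𝔓.p i)
  {Q : ℕ} (hQ : 2 ≤ Q) (hpQ : 𝔓.p ∣ Q)
  (P : T4Pres ↥(tbLevF 𝔓 (t4eLev N'' 𝔓.p i) ⊤)) {y : ↥(tbLevF 𝔓 (t4eLev N'' 𝔓.p i) ⊤)}
  (hvals : P.vals = t4vpHor ↥(tbFix 𝔓 (⊤ : Subgroup 𝔓.I)) y ∪ Y.ver)

include hQ hvals in
/-- **(K2) at the inertia level**: on the chart `X_i⁻¹`, at every point `𝔫` of a component `w` with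
`2 w ≤ i`, `w < i`, the elements `a_i f₀` (`f₀ ∈ taOv N''` integral over `L[1 / X']`) lie in `B_𝔫`.
No hypotheses left. -/
theorem t4eck_K2_fix
    (hB : ∀ f, f ∈ P.B ↔ f ∈ t2Int (K := ↥(tbFix 𝔓 (⊤ : Subgroup 𝔓.I))) y ∧ f ∈ Y.Ov)
    (hy : y = (t4ecX ↥(tbFix 𝔓 (⊤ : Subgroup 𝔓.I)) N'' 𝔓.p i Q)⁻¹)
    (𝔫 : Ideal P.B) [h𝔫 : 𝔫.IsPrime] {w : ℕ} (hwi : 2 * w ≤ i) (hlt : w < i)
    (hV : Y.V w ∈ P.through 𝔫)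
    (f0 : ↥(taOv (tbFixO 𝔓 ⊤) (tbFixRes 𝔓 ⊤) (tbFixRes_surjective 𝔓 ⊤) N''))
    (hf0 : (f0 : ↥(TaF ↥(tbFix 𝔓 (⊤ : Subgroup 𝔓.I)) N'')) ∈
      t2Int (K := ↥(tbFix 𝔓 (⊤ : Subgroup 𝔓.I)))
        (t4vX' ↥(tbFix 𝔓 (⊤ : Subgroup 𝔓.I)) N'' Q)⁻¹) :
    t4eDeg ↥(tbFix 𝔓 (⊤ : Subgroup 𝔓.I)) N'' 𝔓.p i i
      (f0 : ↥(TaF ↥(tbFix 𝔓 (⊤ : Subgroup 𝔓.I)) N'')) ∈ P.loc 𝔫 :=
  t4eck_K2 Y hQ P hvals hB hy 𝔫 (by omega) le_rfl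
    (by rw [t4ecs_exp_top hwi hlt]; exact Nat.zero_le _) hV
    (t4eck_anX_of_X_fix 𝔓 N'' ⊤ hQ le_rfl) f0 hf0

include h h49 hQ hpQ hvals in
/-- **`hsm` on the chart `X_i`** (inertia level, every level `i`): no hypotheses left -/
theorem t4eck_hsm_X_fix
    (hB : ∀ f, f ∈ P.B ↔ f ∈ t2Int (K := ↥(tbFix 𝔓 (⊤ : Subgroup 𝔓.I)))
      (t4ecX ↥(tbFix 𝔓 (⊤ : Subgroup 𝔓.I)) N'' 𝔓.p i Q) ∧ f ∈ Y.Ov) :
    ∀ 𝔫 : Ideal P.B, 𝔫.IsMaximal →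
      ∀ (V : ValuationSubring ↥(tbLevF 𝔓 (t4eLev N'' 𝔓.p i) ⊤)) (hV : V ∈ P.through 𝔫),
      V ∈ P.vert (algebraMap ↥(tbFix 𝔓 (⊤ : Subgroup 𝔓.I)) ↥(tbLevF 𝔓 (t4eLev N'' 𝔓.p i) ⊤)
        ((𝔓.p : ℕ) : ↥(tbFix 𝔓 (⊤ : Subgroup 𝔓.I)))) → P.SmoothAt 𝔫 V hV :=
  t4ecs_hsm_X_fix 𝔓 N'' h h49 Y hQ hpQ P hvals hB
    (mem_t2Int.mpr (t4eck_anX_of_X_fix 𝔓 N'' ⊤ hQ le_rfl))

include h h49 hQ hpQ hvals in
/-- **`hsm` on the chart `X_i⁻¹`** (inertia level, every level `i`): no hypotheses left -/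
theorem t4eck_hsm_X_inv_fix
    (hB : ∀ f, f ∈ P.B ↔ f ∈ t2Int (K := ↥(tbFix 𝔓 (⊤ : Subgroup 𝔓.I)))
      (t4ecX ↥(tbFix 𝔓 (⊤ : Subgroup 𝔓.I)) N'' 𝔓.p i Q)⁻¹ ∧ f ∈ Y.Ov)
    (hy : y = (t4ecX ↥(tbFix 𝔓 (⊤ : Subgroup 𝔓.I)) N'' 𝔓.p i Q)⁻¹) :
    ∀ 𝔫 : Ideal P.B, 𝔫.IsMaximal →
      ∀ (V : ValuationSubring ↥(tbLevF 𝔓 (t4eLev N'' 𝔓.p i) ⊤)) (hV : V ∈ P.through 𝔫),
      V ∈ P.vert (algebraMap ↥(tbFix 𝔓 (⊤ : Subgroup 𝔓.I)) ↥(tbLevF 𝔓 (t4eLev N'' 𝔓.p i) ⊤)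
        ((𝔓.p : ℕ) : ↥(tbFix 𝔓 (⊤ : Subgroup 𝔓.I)))) → P.SmoothAt 𝔫 V hV :=
  t4ecs_hsm_X_inv_fix 𝔓 N'' h h49 Y hQ hpQ P hvals hB
    (fun 𝔫 h𝔫 w hw hV f0 hf0 =>
      haveI := h𝔫.isPrime
      t4eck_K2_fix 𝔓 N'' Y hQ P hvals (hy ▸ hB) hy 𝔫 (by omega) (by omega) hV f0 hf0)

end Fix

end Fermat.Agent.T4
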