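/-
T4E-P6 CHARTS (helper2), file 4: **`T4PresOver` between the chart presentations of consecutive
levels**, along `α = heckeAlphaBar L (t4eLev N'' q i) q` and along `β = heckeBetaBar …`, and the
restriction tables of the valuation rings of the presentations (generic level `i`, abstract layers
`lo`, `up` with a link `hl : T4eLink lo up`; ANY presentations `P1`, `P` with the dictionaries
`vals = t4vpHor L x ∪ ver`, `B = IntCl(L[x]) ∩ 𝒪`).

The level `t4eLev N'' q (i + 1)` is only definitionally `t4eLev N'' q i * q`; all statements carry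
EXPLICIT algebra instances `(heckeAlphaBar …).toRingHom.toAlgebra` (no instance search, no `rw`
across this defeq), and the abstract part (`section Abs`) is level-free.

* `t4ec_presOver_abs`, `t4ec_hcomap_abs` : the abstract statements along an algebra homomorphism
  `φ : F₁ →ₐ[K] F`;
* `t4ecAl`, `t4ecBe` : `α`, `β` as `F_i →ₐ[L] F_{i+1}` (codomain literally `F_{i+1}`; reducible);
* `t4ec_a0_mem_Ov`, `t4ec_alpha_mem_Ov`, `t4ec_beta_mem_Ov`, `t4ec_sym_mem_Ov`;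
* `t4ec_isIntegralElem_alpha` : `𝒪_{i+1}` is integral over `α 𝒪_i`;
  `t4ec_isIntegralElem_beta` : `𝒪_{i+1}` is integral over `β 𝒪_i` (from the symmetry of the layers
  under the Atkin–Lehner involutions with `w_{i+1} ∘ α = β ∘ w_i`);
* **`t4ec_presOver_alpha`, `t4ec_presOver_beta`, `t4ec_hcomap_alpha`, `t4ec_hcomap_beta`** :
  the four fields of helper6's `T4erStep`;
* `t4ec_isIntegral_coe_iff`, `t4ec_X_betaX`, `t4ec_betaX_X` : **the charts `X_{i+1}` and `β X_i` are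
  integral over each other's polynomial rings** (all levels at once, from the level-one relation
  between `j` and `j(𝔮^q)` in `L((𝔮))`);
* **`t4ec_step_X_alpha`, `t4ec_step_X_beta`, `t4ec_vals_X_alpha`, `t4ec_vals_X_beta`** : the same
  for the charts `X_i`, `X_{i+1}`.
-/
import Fermat.Agent.Lib.T4E.Chart.Int
import Fermat.Agent.Lib.T4.Inst.PresAlpha
import Fermat.Agent.Lib.T4.Inst.ChartBeta
import Fermat.Agent.Lib.T4.Reg.TopComap
import Fermat.Agent.Lib.T3.Hecke.Along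

set_option autoImplicit false
set_option linter.unusedSectionVars false
set_option linter.unusedVariables false
set_option linter.style.haveILetI false

open HahnSeries ModularCurve Fermat.Agent.T1 Fermat.Agent.T2 IntermediateField

noncomputable section

namespace Fermat.Agent.T4

/-! ### The abstract statements -/

section Abs

variable {K F1 F : Type*} [Field K] [Field F1] [Field F] [Algebra K F1] [Algebra K F]

/-- an injective algebra homomorphism reflects integrality over `K[x]` -/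
theorem t4ec_isIntegral_map_iff {F' : Type*} [Field F'] [Algebra K F'] (ψ : F →ₐ[K] F') (x f : F) :
    IsIntegral ↥(Algebra.adjoin K {x}) f ↔ IsIntegral ↥(Algebra.adjoin K {ψ x}) (ψ f) := by
  constructor
  · intro h
    exact t2d_isIntegral_map (RingHom.id K) (ψ : F →+* F') (fun c => ψ.commutes c) h
  · intro h
    rw [t2d_isIntegral_adjoin_iff] at h ⊢
    obtain ⟨d, p, hp⟩ := h
    refine ⟨d, p, ?_⟩
    apply (ψ : F →+* F').injective
    rw [map_zero, map_add, map_pow, map_sum]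
    rw [← hp]
    congr 1
    refine Finset.sum_congr rfl (fun j _ => ?_)
    rw [map_mul, map_pow]
    congr 1
    show ψ (Polynomial.aeval x (p j)) = _
    rw [← Polynomial.aeval_algHom_apply]

/-- elements integral over `K[x]` lie in the horizontal valuation rings of the chart `x` -/
theorem t4ec_mem_hor_of_isIntegral {x f : F}
    (hf : IsIntegral ↥(Algebra.adjoin K {x}) f) : ∀ V ∈ t4vpHor K x, f ∈ V := by
  rintro V ⟨v, rfl, hxv⟩
  refine ta_mem_of_isIntegral _ (fun r => ?_) hf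
  obtain ⟨r, hr⟩ := r
  show r ∈ v.toValuationSubring
  induction hr using Algebra.adjoin_induction with
  | mem y hy =>
    rw [Set.mem_singleton_iff] at hy
    rw [hy]
    exact hxv
  | algebraMap a => exact v.algebraMap_mem' a
  | add y z _ _ hy hz => exact v.toValuationSubring.add_mem _ _ hy hz
  | mul y z _ _ hy hz => exact v.toValuationSubring.mul_mem _ _ hy hz

/-- integrality of an element over a subring along `ψ = φ ∘ ι` gives integrality along `φ` -/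
theorem t4ec_isIntegralElem_of_comp {R0 R1 S : Type*} [CommRing R0] [CommRing R1] [CommRing S]
    (ψ : R0 →+* S) (φ : R1 →+* S) (ι : R0 →+* R1) (h : ∀ r, φ (ι r) = ψ r) {f : S}
    (hf : ψ.IsIntegralElem f) : φ.IsIntegralElem f := by
  obtain ⟨p, hp, hpf⟩ := hf
  refine ⟨p.map ι, hp.map ι, ?_⟩
  rw [Polynomial.eval₂_map]
  have h1 : φ.comp ι = ψ := RingHom.ext h
  rw [h1]
  exact hpf

/-- **`T4PresOver` for chart presentations along an algebra homomorphism** `φ : F₁ →ₐ[K] F`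
(the algebra structure of `F` over `F₁` is `φ.toRingHom.toAlgebra`) -/
theorem t4ec_presOver_abs (φ : F1 →ₐ[K] F) (P1 : T4Pres F1) (P : T4Pres F)
    {x1 y1 : F1} {x y : F} (O1 : Subring F1) (O : Subring F)
    (hgen1 : Fermat.Agent.Curve.IsFunctionFieldGen K F1 y1)
    (hgen : Fermat.Agent.Curve.IsFunctionFieldGen K F y)
    (hB1 : ∀ f, f ∈ P1.B ↔ f ∈ t2Int (K := K) x1 ∧ f ∈ O1)
    (hB : ∀ f, f ∈ P.B ↔ f ∈ t2Int (K := K) x ∧ f ∈ O)
    (hvals : ∀ V ∈ P1.vals, ((∀ c : K, algebraMap K F1 c ∈ V) ∧ x1 ∈ V) ∨ (∀ f ∈ O1, f ∈ V))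
    (hx : IsIntegral ↥(Algebra.adjoin K {φ x1}) x)
    (hx' : IsIntegral ↥(Algebra.adjoin K {x}) (φ x1))
    (hOmap : ∀ f ∈ O1, φ f ∈ O)
    (hOint : ∀ b ∈ O, (φ.toRingHom.comp O1.subtype).IsIntegralElem b) :
    @T4PresOver _ _ _ _ φ.toRingHom.toAlgebra P1 P := by
  have hint := Fermat.Agent.T3.t3h_isIntegralAlong hgen1 hgen φ
  letI : Algebra F1 F := φ.toRingHom.toAlgebra
  haveI : IsScalarTower K F1 F :=
    IsScalarTower.of_algebraMap_eq (fun a => (φ.commutes a).symm)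
  exact t4vq_presOver_chart (K := K) P1 P O1 O hB1 hB hvals hx hx' hOmap hOint
    (fun b _ => hint b)

/-- **`hcomap` for chart presentations along an algebra homomorphism** -/
theorem t4ec_hcomap_abs [CharZero K] (φ : F1 →ₐ[K] F) (P1 : T4Pres F1) (P : T4Pres F)
    {x1 y1 : F1} {x y : F} {ver1 : Set (ValuationSubring F1)} {ver : Set (ValuationSubring F)}
    (hgen1 : Fermat.Agent.Curve.IsFunctionFieldGen K F1 y1)
    (hgen : Fermat.Agent.Curve.IsFunctionFieldGen K F y)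
    (hvals1 : P1.vals = t4vpHor K x1 ∪ ver1) (hvals : P.vals = t4vpHor K x ∪ ver)
    (hx' : IsIntegral ↥(Algebra.adjoin K {x}) (φ x1))
    (htable : ∀ V ∈ ver, V.comap φ.toRingHom ∈ ver1) :
    ∀ V ∈ P.vals, V.comap φ.toRingHom ∈ P1.vals :=
  t4rt_hcomap_chart φ (Fermat.Agent.T3.t3h_isIntegralAlong hgen1 hgen φ) hgen1
    (t4ec_mem_hor_of_isIntegral hx') P1 P hvals1 hvals htable

end Abs

section CoeTaF

variable {L : Type} [Field L] [Algebra ℚ L] {N : ℕ} [NeZero N]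

/-- integrality over `L[x]` can be checked on `q`-expansions -/
theorem t4ec_isIntegral_coe_iff (x f : ↥(TaF L N)) :
    IsIntegral ↥(Algebra.adjoin L {x}) f ↔
      IsIntegral ↥(Algebra.adjoin L {(x : LaurentSeries L)}) (f : LaurentSeries L) :=
  t4ec_isIntegral_map_iff (TaF L N).val x f

end CoeTaF

/-! ### The links -/

section Link

variable {L : Type} [Field L] [Algebra ℚ L] {O : ValuationSubring L} {k : Type*} [Field k]
  {π : ↥O →+* k} [IsDiscreteValuationRing ↥O] {hπ : Function.Surjective π} [IsAlgClosed k]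
  {N'' q : ℕ} [NeZero N''] [hq : Fact q.Prime] [CharP k q] {i : ℕ}
  (lo : T4eLayer O π hπ N'' q i) (up : T4eLayer O π hπ N'' q (i + 1)) (hl : T4eLink lo up)
  {Q : ℕ} (hQ : 2 ≤ Q) (hqO : Irreducible ((q : ℕ) : ↥O))

/-- `α_i : F_i →ₐ[L] F_{i+1}`, with codomain literally `F_{i+1}` -/
@[reducible] def t4ecAl (L : Type) [Field L] [Algebra ℚ L] (N'' q i : ℕ) [NeZero N''] [NeZero q] :
    ↥(TaF L (t4eLev N'' q i)) →ₐ[L] ↥(TaF L (t4eLev N'' q (i + 1))) :=
  heckeAlphaBar L (t4eLev N'' q i) q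

/-- `β_i : F_i →ₐ[L] F_{i+1}`, with codomain literally `F_{i+1}` -/
@[reducible] def t4ecBe (L : Type) [Field L] [Algebra ℚ L] (N'' q i : ℕ) [NeZero N''] [NeZero q] :
    ↥(TaF L (t4eLev N'' q i)) →ₐ[L] ↥(TaF L (t4eLev N'' q (i + 1))) :=
  heckeBetaBar L (t4eLev N'' q i) q

/-- `a_0 (taOv) ⊆ 𝒪_i` -/
theorem t4ec_a0_mem_Ov {g : ↥(TaF L N'')} (hg : g ∈ taOv O π hπ N'') :
    t4eDeg L N'' q i 0 g ∈ lo.Ov :=
  (T4eLayer.mem_Ov lo).mpr fun w hw => lo.a_mem w hw 0 (Nat.zero_le i) g hg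

include hl in
/-- `α 𝒪_i ⊆ 𝒪_{i+1}` -/
theorem t4ec_alpha_mem_Ov {f : ↥(TaF L (t4eLev N'' q i))} (hf : f ∈ lo.Ov) :
    t4ecAl L N'' q i f ∈ up.Ov := by
  have hf' := (T4eLayer.mem_Ov lo).mp hf
  refine (T4eLayer.mem_Ov up).mpr ?_
  intro w hw
  have h1 : f ∈ lo.V (min w i) := hf' _ (min_le_right w i)
  have h2 := hl.comap_α w hw
  rw [← h2] at h1
  exact (ValuationSubring.mem_comap).mp h1

include hl in
/-- `β 𝒪_i ⊆ 𝒪_{i+1}` -/
theorem t4ec_beta_mem_Ov {f : ↥(TaF L (t4eLev N'' q i))} (hf : f ∈ lo.Ov) :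
    t4ecBe L N'' q i f ∈ up.Ov := by
  have hf' := (T4eLayer.mem_Ov lo).mp hf
  refine (T4eLayer.mem_Ov up).mpr ?_
  intro w hw
  have h1 : f ∈ lo.V (w - 1) := hf' _ (by omega)
  have h2 := hl.comap_β w hw
  rw [← h2] at h1
  exact (ValuationSubring.mem_comap).mp h1

/-- `𝒪_i` is stable under the Atkin–Lehner involution -/
theorem t4ec_sym_mem_Ov {W : T4eAL L N'' q i} (hs : T4eSym lo W)
    {f : ↥(TaF L (t4eLev N'' q i))} (hf : f ∈ lo.Ov) : W.w f ∈ lo.Ov := by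
  have hf' := (T4eLayer.mem_Ov lo).mp hf
  refine (T4eLayer.mem_Ov lo).mpr ?_
  intro w hw
  have h1 : f ∈ lo.V (i - w) := hf' _ (Nat.sub_le i w)
  have h2 := hs.comap_w w hw
  rw [← h2] at h1
  exact (ValuationSubring.mem_comap).mp h1

include hqO in
/-- **`𝒪_{i+1}` is integral over `α 𝒪_i`** -/
theorem t4ec_isIntegralElem_alpha {f : ↥(TaF L (t4eLev N'' q (i + 1)))} (hf : f ∈ up.Ov) :
    ((t4ecAl L N'' q i).toRingHom.comp lo.Ov.subtype).IsIntegralElem f := by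
  have h0 := t4ec_isIntegralElem_a0 up hqO hf
  let ι : ↥(taOv O π hπ N'') →+* ↥lo.Ov :=
    (((t4eDeg L N'' q i 0 : ↥(TaF L N'') →ₐ[L] ↥(TaF L (t4eLev N'' q i))) :
      ↥(TaF L N'') →+* ↥(TaF L (t4eLev N'' q i))).comp (taOv O π hπ N'').subtype).codRestrict
        lo.Ov (fun g => t4ec_a0_mem_Ov lo g.2)
  refine t4ec_isIntegralElem_of_comp _ _ ι (fun g => ?_) h0
  exact (t4eDeg_succ_of_le L N'' q (Nat.zero_le i) (g : ↥(TaF L N''))).symm

include hqO in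
/-- **`𝒪_{i+1}` is integral over `β 𝒪_i`**, given Atkin–Lehner involutions of the two levels with
`w_{i+1} ∘ α = β ∘ w_i` under which the two layers are symmetric -/
theorem t4ec_isIntegralElem_beta {Wlo : T4eAL L N'' q i} {Wup : T4eAL L N'' q (i + 1)}
    (hslo : T4eSym lo Wlo) (hsup : T4eSym up Wup)
    (hW : ∀ f : ↥(TaF L (t4eLev N'' q i)),
      Wup.w (heckeAlphaBar L (t4eLev N'' q i) q f) = heckeBetaBar L (t4eLev N'' q i) q (Wlo.w f))
    {f : ↥(TaF L (t4eLev N'' q (i + 1)))} (hf : f ∈ up.Ov) :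
    ((t4ecBe L N'' q i).toRingHom.comp lo.Ov.subtype).IsIntegralElem f := by
  have h1 := t4ec_isIntegralElem_alpha lo up hqO (t4ec_sym_mem_Ov up hsup hf)
  refine t4vy_isIntegralElem_conj lo.Ov (t4ecAl L N'' q i).toRingHom (t4ecBe L N'' q i).toRingHom
    Wup.w.toRingEquiv
    (Wlo.w : ↥(TaF L (t4eLev N'' q i)) →+* ↥(TaF L (t4eLev N'' q i)))
    (fun r hr => t4ec_sym_mem_Ov lo hslo hr) (fun b => ?_) h1
  have h2 : Wup.w (t4ecAl L N'' q i b) = t4ecBe L N'' q i (Wlo.w b) := hW b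
  have h3 : Wup.w.toRingEquiv.symm ((t4ecAl L N'' q i).toRingHom b) =
      Wup.w.symm (t4ecAl L N'' q i b) := rfl
  have h4 : (t4ecBe L N'' q i).toRingHom
      ((Wlo.w : ↥(TaF L (t4eLev N'' q i)) →+* ↥(TaF L (t4eLev N'' q i))) b) =
      t4ecBe L N'' q i (Wlo.w b) := rfl
  rw [h3, h4, ← h2, AlgEquiv.symm_apply_eq, Wup.w_w]

/-- the valuation rings of a chart presentation of level `i` are horizontal (contain `L[x₁]`) or
vertical (contain `𝒪_i`) -/
theorem t4ec_hvals (P1 : T4Pres ↥(TaF L (t4eLev N'' q i))) {x1 : ↥(TaF L (t4eLev N'' q i))}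
    (hvals1 : P1.vals = t4vpHor L x1 ∪ lo.ver) :
    ∀ V ∈ P1.vals, ((∀ c : L, algebraMap L ↥(TaF L (t4eLev N'' q i)) c ∈ V) ∧ x1 ∈ V) ∨
      (∀ f ∈ lo.Ov, f ∈ V) := by
  intro V hV
  rw [hvals1] at hV
  rcases hV with hV | hV
  · obtain ⟨v, rfl, hx⟩ := hV
    exact Or.inl ⟨fun c => v.algebraMap_mem' c, hx⟩
  · exact Or.inr fun f hf => (t4ec_mem_Ov_iff lo f).mp hf V hV

include hl hqO in
/-- **`T4PresOver P1 P` for the `α`-structure**, levels `i → i + 1`, ANY presentations with the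
dictionaries -/
theorem t4ec_presOver_alpha (P1 : T4Pres ↥(TaF L (t4eLev N'' q i)))
    (P : T4Pres ↥(TaF L (t4eLev N'' q (i + 1))))
    {x1 y1 : ↥(TaF L (t4eLev N'' q i))} {x y : ↥(TaF L (t4eLev N'' q (i + 1)))}
    (hgen1 : Fermat.Agent.Curve.IsFunctionFieldGen L ↥(TaF L (t4eLev N'' q i)) y1)
    (hgen : Fermat.Agent.Curve.IsFunctionFieldGen L ↥(TaF L (t4eLev N'' q (i + 1))) y)
    (hvals1 : P1.vals = t4vpHor L x1 ∪ lo.ver)
    (hB1 : ∀ f, f ∈ P1.B ↔ f ∈ t2Int (K := L) x1 ∧ f ∈ lo.Ov)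
    (hB : ∀ f, f ∈ P.B ↔ f ∈ t2Int (K := L) x ∧ f ∈ up.Ov)
    (hx : IsIntegral ↥(Algebra.adjoin L {t4ecAl L N'' q i x1}) x)
    (hx' : IsIntegral ↥(Algebra.adjoin L {x}) (t4ecAl L N'' q i x1)) :
    @T4PresOver _ _ _ _ (heckeAlphaBar L (t4eLev N'' q i) q).toRingHom.toAlgebra P1 P :=
  t4ec_presOver_abs (t4ecAl L N'' q i) P1 P lo.Ov up.Ov hgen1 hgen hB1 hB
    (t4ec_hvals lo P1 hvals1) hx hx' (fun f hf => t4ec_alpha_mem_Ov lo up hl hf)
    (fun b hb => t4ec_isIntegralElem_alpha lo up hqO hb)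

include hl hqO in
/-- **`T4PresOver P1 P` for the `β`-structure**, levels `i → i + 1`, ANY presentations with the
dictionaries -/
theorem t4ec_presOver_beta {Wlo : T4eAL L N'' q i} {Wup : T4eAL L N'' q (i + 1)}
    (hslo : T4eSym lo Wlo) (hsup : T4eSym up Wup)
    (hW : ∀ f : ↥(TaF L (t4eLev N'' q i)),
      Wup.w (heckeAlphaBar L (t4eLev N'' q i) q f) = heckeBetaBar L (t4eLev N'' q i) q (Wlo.w f))
    (P1 : T4Pres ↥(TaF L (t4eLev N'' q i)))
    (P : T4Pres ↥(TaF L (t4eLev N'' q (i + 1))))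
    {x1 y1 : ↥(TaF L (t4eLev N'' q i))} {x y : ↥(TaF L (t4eLev N'' q (i + 1)))}
    (hgen1 : Fermat.Agent.Curve.IsFunctionFieldGen L ↥(TaF L (t4eLev N'' q i)) y1)
    (hgen : Fermat.Agent.Curve.IsFunctionFieldGen L ↥(TaF L (t4eLev N'' q (i + 1))) y)
    (hvals1 : P1.vals = t4vpHor L x1 ∪ lo.ver)
    (hB1 : ∀ f, f ∈ P1.B ↔ f ∈ t2Int (K := L) x1 ∧ f ∈ lo.Ov)
    (hB : ∀ f, f ∈ P.B ↔ f ∈ t2Int (K := L) x ∧ f ∈ up.Ov)
    (hx : IsIntegral ↥(Algebra.adjoin L {t4ecBe L N'' q i x1}) x)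
    (hx' : IsIntegral ↥(Algebra.adjoin L {x}) (t4ecBe L N'' q i x1)) :
    @T4PresOver _ _ _ _ (heckeBetaBar L (t4eLev N'' q i) q).toRingHom.toAlgebra P1 P :=
  t4ec_presOver_abs (t4ecBe L N'' q i) P1 P lo.Ov up.Ov hgen1 hgen hB1 hB
    (t4ec_hvals lo P1 hvals1) hx hx' (fun f hf => t4ec_beta_mem_Ov lo up hl hf)
    (fun b hb => t4ec_isIntegralElem_beta lo up hqO hslo hsup hW hb)

/-! ### The restriction tables -/

include hl in
/-- **`hcomap` along `α`** -/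
theorem t4ec_hcomap_alpha (P1 : T4Pres ↥(TaF L (t4eLev N'' q i)))
    (P : T4Pres ↥(TaF L (t4eLev N'' q (i + 1))))
    {x1 y1 : ↥(TaF L (t4eLev N'' q i))} {x y : ↥(TaF L (t4eLev N'' q (i + 1)))}
    (hgen1 : Fermat.Agent.Curve.IsFunctionFieldGen L ↥(TaF L (t4eLev N'' q i)) y1)
    (hgen : Fermat.Agent.Curve.IsFunctionFieldGen L ↥(TaF L (t4eLev N'' q (i + 1))) y)
    (hvals1 : P1.vals = t4vpHor L x1 ∪ lo.ver) (hvals : P.vals = t4vpHor L x ∪ up.ver)
    (hx' : IsIntegral ↥(Algebra.adjoin L {x}) (t4ecAl L N'' q i x1)) :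
    ∀ V ∈ P.vals, V.comap (heckeAlphaBar L (t4eLev N'' q i) q).toRingHom ∈ P1.vals := by
  haveI : CharZero L := algebraRat.charZero L
  refine t4ec_hcomap_abs (t4ecAl L N'' q i) P1 P hgen1 hgen hvals1 hvals hx' ?_
  rintro V ⟨w, hw, rfl⟩
  exact ⟨min w i, min_le_right w i, hl.comap_α w hw⟩

include hl in
/-- **`hcomap` along `β`** -/
theorem t4ec_hcomap_beta (P1 : T4Pres ↥(TaF L (t4eLev N'' q i)))
    (P : T4Pres ↥(TaF L (t4eLev N'' q (i + 1))))
    {x1 y1 : ↥(TaF L (t4eLev N'' q i))} {x y : ↥(TaF L (t4eLev N'' q (i + 1)))}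
    (hgen1 : Fermat.Agent.Curve.IsFunctionFieldGen L ↥(TaF L (t4eLev N'' q i)) y1)
    (hgen : Fermat.Agent.Curve.IsFunctionFieldGen L ↥(TaF L (t4eLev N'' q (i + 1))) y)
    (hvals1 : P1.vals = t4vpHor L x1 ∪ lo.ver) (hvals : P.vals = t4vpHor L x ∪ up.ver)
    (hx' : IsIntegral ↥(Algebra.adjoin L {x}) (t4ecBe L N'' q i x1)) :
    ∀ V ∈ P.vals, V.comap (heckeBetaBar L (t4eLev N'' q i) q).toRingHom ∈ P1.vals := by
  haveI : CharZero L := algebraRat.charZero L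
  refine t4ec_hcomap_abs (t4ecBe L N'' q i) P1 P hgen1 hgen hvals1 hvals hx' ?_
  rintro V ⟨w, hw, rfl⟩
  exact ⟨w - 1, by omega, hl.comap_β w hw⟩

/-! ### The charts `X_{i+1}` and `β X_i` -/

/-- the `q`-expansion of `X_i` -/
theorem coe_t4ecX :
    ((t4ecX L N'' q i Q : ↥(TaF L (t4eLev N'' q i))) : LaurentSeries L) =
      jqModC L ^ Q - jqModC L := rfl

/-- the `q`-expansion of `β X_i` -/
theorem coe_beta_t4ecX :
    ((t4ecBe L N'' q i (t4ecX L N'' q i Q) : ↥(TaF L (t4eLev N'' q (i + 1)))) :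
      LaurentSeries L) = qExpand L q (jqModC L) ^ Q - qExpand L q (jqModC L) := by
  have h1 : ((t4ecBe L N'' q i (t4ecX L N'' q i Q) : ↥(TaF L (t4eLev N'' q (i + 1)))) :
      LaurentSeries L) = qExpand L q ((t4ecX L N'' q i Q : ↥(TaF L (t4eLev N'' q i))) :
        LaurentSeries L) := coe_heckeBetaBar (t4eLev N'' q i) q (t4ecX L N'' q i Q)
  rw [h1, coe_t4ecX, map_sub, map_pow]

/-- `X_{i+1} = α X_i`, with `α` typed into `F_{i+1}` -/
theorem t4ecAl_t4ecX : t4ecAl L N'' q i (t4ecX L N'' q i Q) = t4ecX L N'' q (i + 1) Q :=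
  (t4ecX_succ (L := L) (N'' := N'') (q := q) (i := i) (Q := Q)).symm

include hQ in
/-- **`X_{i+1}` is integral over `L[β X_i]`**, from `j` integral over `L[j(𝔮^q)]` in `L((𝔮))` -/
theorem t4ec_X_betaX
    (hJY : IsIntegral ↥(Algebra.adjoin L {qExpand L q (jqModC L)}) (jqModC L)) :
    IsIntegral ↥(Algebra.adjoin L {t4ecBe L N'' q i (t4ecX L N'' q i Q)})
      (t4ecX L N'' q (i + 1) Q) := by
  rw [t4ec_isIntegral_coe_iff, coe_beta_t4ecX, coe_t4ecX]
  exact t4vj_chart hQ hJY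

include hQ in
/-- **`β X_i` is integral over `L[X_{i+1}]`**, from `j(𝔮^q)` integral over `L[j]` in `L((𝔮))` -/
theorem t4ec_betaX_X
    (hYJ : IsIntegral ↥(Algebra.adjoin L {jqModC L}) (qExpand L q (jqModC L))) :
    IsIntegral ↥(Algebra.adjoin L {t4ecX L N'' q (i + 1) Q})
      (t4ecBe L N'' q i (t4ecX L N'' q i Q)) := by
  rw [t4ec_isIntegral_coe_iff, coe_beta_t4ecX, coe_t4ecX]
  exact t4vj_chart hQ hYJ

/-! ### The steps of the chart tower `X_i`, `X_{i+1}` -/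

/-- `X_{i+1}` is integral over `L[α X_i]` (they are equal) -/
theorem t4ec_X_alX :
    IsIntegral ↥(Algebra.adjoin L {t4ecAl L N'' q i (t4ecX L N'' q i Q)})
      (t4ecX L N'' q (i + 1) Q) := by
  rw [t4ecAl_t4ecX]
  exact t4vy_isIntegral_self _

/-- `α X_i` is integral over `L[X_{i+1}]` (they are equal) -/
theorem t4ec_alX_X :
    IsIntegral ↥(Algebra.adjoin L {t4ecX L N'' q (i + 1) Q})
      (t4ecAl L N'' q i (t4ecX L N'' q i Q)) := by
  rw [t4ecAl_t4ecX]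
  exact t4vy_isIntegral_self _

include hl hqO in
/-- **the `α`-step of the chart tower** (field `presA` of helper6's `T4erStep`), for ANY presentations
with the dictionaries of the charts `X_i`, `X_{i+1}` -/
theorem t4ec_step_X_alpha
    (hgen1 : Fermat.Agent.Curve.IsFunctionFieldGen L ↥(TaF L (t4eLev N'' q i)) (t4ecX L N'' q i Q))
    (hgen : Fermat.Agent.Curve.IsFunctionFieldGen L ↥(TaF L (t4eLev N'' q (i + 1)))
      (t4ecX L N'' q (i + 1) Q))
    (P1 : T4Pres ↥(TaF L (t4eLev N'' q i))) (P : T4Pres ↥(TaF L (t4eLev N'' q (i + 1))))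
    (hvals1 : P1.vals = t4vpHor L (t4ecX L N'' q i Q) ∪ lo.ver)
    (hB1 : ∀ f, f ∈ P1.B ↔ f ∈ t2Int (K := L) (t4ecX L N'' q i Q) ∧ f ∈ lo.Ov)
    (hB : ∀ f, f ∈ P.B ↔ f ∈ t2Int (K := L) (t4ecX L N'' q (i + 1) Q) ∧ f ∈ up.Ov) :
    @T4PresOver _ _ _ _ (heckeAlphaBar L (t4eLev N'' q i) q).toRingHom.toAlgebra P1 P :=
  t4ec_presOver_alpha lo up hl hqO P1 P hgen1 hgen hvals1 hB1 hB t4ec_X_alX t4ec_alX_X

include hl in
/-- **the restriction table along `α`** (field `valsA` of `T4erStep`) -/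
theorem t4ec_vals_X_alpha
    (hgen1 : Fermat.Agent.Curve.IsFunctionFieldGen L ↥(TaF L (t4eLev N'' q i)) (t4ecX L N'' q i Q))
    (hgen : Fermat.Agent.Curve.IsFunctionFieldGen L ↥(TaF L (t4eLev N'' q (i + 1)))
      (t4ecX L N'' q (i + 1) Q))
    (P1 : T4Pres ↥(TaF L (t4eLev N'' q i))) (P : T4Pres ↥(TaF L (t4eLev N'' q (i + 1))))
    (hvals1 : P1.vals = t4vpHor L (t4ecX L N'' q i Q) ∪ lo.ver)
    (hvals : P.vals = t4vpHor L (t4ecX L N'' q (i + 1) Q) ∪ up.ver) :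
    ∀ V ∈ P.vals, V.comap (heckeAlphaBar L (t4eLev N'' q i) q).toRingHom ∈ P1.vals :=
  t4ec_hcomap_alpha lo up hl P1 P hgen1 hgen hvals1 hvals t4ec_alX_X

include hl hqO hQ in
/-- **the `β`-step of the chart tower** (field `presB` of `T4erStep`) -/
theorem t4ec_step_X_beta {Wlo : T4eAL L N'' q i} {Wup : T4eAL L N'' q (i + 1)}
    (hslo : T4eSym lo Wlo) (hsup : T4eSym up Wup)
    (hW : ∀ f : ↥(TaF L (t4eLev N'' q i)),
      Wup.w (heckeAlphaBar L (t4eLev N'' q i) q f) = heckeBetaBar L (t4eLev N'' q i) q (Wlo.w f))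
    (hJY : IsIntegral ↥(Algebra.adjoin L {qExpand L q (jqModC L)}) (jqModC L))
    (hYJ : IsIntegral ↥(Algebra.adjoin L {jqModC L}) (qExpand L q (jqModC L)))
    (hgen1 : Fermat.Agent.Curve.IsFunctionFieldGen L ↥(TaF L (t4eLev N'' q i)) (t4ecX L N'' q i Q))
    (hgen : Fermat.Agent.Curve.IsFunctionFieldGen L ↥(TaF L (t4eLev N'' q (i + 1)))
      (t4ecX L N'' q (i + 1) Q))
    (P1 : T4Pres ↥(TaF L (t4eLev N'' q i))) (P : T4Pres ↥(TaF L (t4eLev N'' q (i + 1))))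
    (hvals1 : P1.vals = t4vpHor L (t4ecX L N'' q i Q) ∪ lo.ver)
    (hB1 : ∀ f, f ∈ P1.B ↔ f ∈ t2Int (K := L) (t4ecX L N'' q i Q) ∧ f ∈ lo.Ov)
    (hB : ∀ f, f ∈ P.B ↔ f ∈ t2Int (K := L) (t4ecX L N'' q (i + 1) Q) ∧ f ∈ up.Ov) :
    @T4PresOver _ _ _ _ (heckeBetaBar L (t4eLev N'' q i) q).toRingHom.toAlgebra P1 P :=
  t4ec_presOver_beta lo up hl hqO hslo hsup hW P1 P hgen1 hgen hvals1 hB1 hB
    (t4ec_X_betaX hQ hJY) (t4ec_betaX_X hQ hYJ)

include hl hQ in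
/-- **the restriction table along `β`** (field `valsB` of `T4erStep`) -/
theorem t4ec_vals_X_beta
    (hYJ : IsIntegral ↥(Algebra.adjoin L {jqModC L}) (qExpand L q (jqModC L)))
    (hgen1 : Fermat.Agent.Curve.IsFunctionFieldGen L ↥(TaF L (t4eLev N'' q i)) (t4ecX L N'' q i Q))
    (hgen : Fermat.Agent.Curve.IsFunctionFieldGen L ↥(TaF L (t4eLev N'' q (i + 1)))
      (t4ecX L N'' q (i + 1) Q))
    (P1 : T4Pres ↥(TaF L (t4eLev N'' q i))) (P : T4Pres ↥(TaF L (t4eLev N'' q (i + 1))))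
    (hvals1 : P1.vals = t4vpHor L (t4ecX L N'' q i Q) ∪ lo.ver)
    (hvals : P.vals = t4vpHor L (t4ecX L N'' q (i + 1) Q) ∪ up.ver) :
    ∀ V ∈ P.vals, V.comap (heckeBetaBar L (t4eLev N'' q i) q).toRingHom ∈ P1.vals :=
  t4ec_hcomap_beta lo up hl P1 P hgen1 hgen hvals1 hvals (t4ec_betaX_X hQ hYJ)

end Link

end Fermat.Agent.T4
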