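/-
T4E-P6 CHARTS (helper2), file 5: **the steps of the chart tower at the Fix level** `L = tbFix 𝔓 ⊤`:
the four fields of helper6's `T4erStep` (`T4PresOver` along `α` and `β`, restriction tables of the
valuation rings along `α` and `β`) for ANY presentations `P1`, `P` of the levels `i`, `i + 1` with
the dictionaries of the charts `X_i = j^Q - j`, `X_{i+1}`, and ANY linked layers `lo`, `up` which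
are symmetric under Atkin–Lehner involutions with `w_{i+1} ∘ α = β ∘ w_i`.

* `t4eco_hYJ`, `t4eco_hJY` : `j(𝔮^p)` and `j` are integral over each other's polynomial rings in
  `L((𝔮))` (main's `t4vj_Y_J`, `t4vj_J_Y` read on `q`-expansions);
* `t4eco_gen` : `X_i` generates `F_i` over `L`;
* **`t4eco_presA`, `t4eco_presB`, `t4eco_valsA`, `t4eco_valsB`, `t4eco_step`**.
-/
import Fermat.Agent.Lib.T4E.Chart.Over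
import Fermat.Agent.Lib.T4.Inst.ChartRR
import Fermat.Agent.Lib.T4.Inst.CycVal
import Fermat.Agent.Lib.T2.Inst.LevelH

set_option autoImplicit false
set_option linter.unusedSectionVars false
set_option linter.unusedVariables false
set_option linter.style.haveILetI false

open HahnSeries ModularCurve Fermat.Agent.T1 Fermat.Agent.T2 Fermat.Agent.TW Fermat.Agent.S24Lib IntermediateField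

noncomputable section

namespace Fermat.Agent.T4

section Fix

attribute [local instance] t2i_dvr t2i_isAlgClosed t2i_charP t2i_fact

variable (𝔓 : FFPlace) (N'' : ℕ) [NeZero N''] (h : ¬ 𝔓.p ∣ N'') {i : ℕ}
  (lo : T4eLayer (tbFixO 𝔓 ⊤) (tbFixRes 𝔓 ⊤) (tbFixRes_surjective 𝔓 ⊤) N'' 𝔓.p i)
  (up : T4eLayer (tbFixO 𝔓 ⊤) (tbFixRes 𝔓 ⊤) (tbFixRes_surjective 𝔓 ⊤) N'' 𝔓.p (i + 1))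
  (hl : T4eLink lo up) {Q : ℕ} (hQ : 2 ≤ Q)

/-- `j(𝔮^p)` is integral over `L[j]` in `L((𝔮))` -/
theorem t4eco_hYJ :
    IsIntegral ↥(Algebra.adjoin ↥(tbFix 𝔓 ⊤) {jqModC ↥(tbFix 𝔓 ⊤)})
      (qExpand ↥(tbFix 𝔓 ⊤) 𝔓.p (jqModC ↥(tbFix 𝔓 ⊤))) := by
  have h1 := (t4ec_isIntegral_coe_iff _ _).mp (t4vj_Y_J 𝔓 ⊤ 1)
  rw [coe_taJ, coe_t2iY] at h1
  exact h1

/-- `j` is integral over `L[j(𝔮^p)]` in `L((𝔮))` -/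
theorem t4eco_hJY :
    IsIntegral ↥(Algebra.adjoin ↥(tbFix 𝔓 ⊤) {qExpand ↥(tbFix 𝔓 ⊤) 𝔓.p (jqModC ↥(tbFix 𝔓 ⊤))})
      (jqModC ↥(tbFix 𝔓 ⊤)) := by
  have hp : 𝔓.p.Prime := Fact.out
  have h0 : ¬ 𝔓.p ∣ 1 := fun hd => hp.one_lt.ne' (Nat.dvd_one.mp hd)
  have h1 := (t4ec_isIntegral_coe_iff _ _).mp (t4vj_J_Y 𝔓 ⊤ 1 h0)
  rw [coe_taJ, coe_t2iY] at h1
  exact h1

include hQ in
/-- `X_i` generates `F_i` over `L` -/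
theorem t4eco_gen (i : ℕ) :
    Fermat.Agent.Curve.IsFunctionFieldGen ↥(tbFix 𝔓 ⊤) ↥(TaF ↥(tbFix 𝔓 ⊤) (t4eLev N'' 𝔓.p i))
      (t4ecX ↥(tbFix 𝔓 ⊤) N'' 𝔓.p i Q) :=
  t4vc_gen_X_level 𝔓 (t4eLev N'' 𝔓.p i) ⊤ hQ

variable (P1 : T4Pres ↥(TaF ↥(tbFix 𝔓 ⊤) (t4eLev N'' 𝔓.p i)))
  (P : T4Pres ↥(TaF ↥(tbFix 𝔓 ⊤) (t4eLev N'' 𝔓.p (i + 1))))

include hl hQ in
/-- **`presA`** -/
theorem t4eco_presA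
    (hvals1 : P1.vals = t4vpHor ↥(tbFix 𝔓 ⊤) (t4ecX ↥(tbFix 𝔓 ⊤) N'' 𝔓.p i Q) ∪ lo.ver)
    (hB1 : ∀ f, f ∈ P1.B ↔
      f ∈ t2Int (K := ↥(tbFix 𝔓 ⊤)) (t4ecX ↥(tbFix 𝔓 ⊤) N'' 𝔓.p i Q) ∧ f ∈ lo.Ov)
    (hB : ∀ f, f ∈ P.B ↔
      f ∈ t2Int (K := ↥(tbFix 𝔓 ⊤)) (t4ecX ↥(tbFix 𝔓 ⊤) N'' 𝔓.p (i + 1) Q) ∧ f ∈ up.Ov) :
    @T4PresOver _ _ _ _
      (heckeAlphaBar ↥(tbFix 𝔓 ⊤) (t4eLev N'' 𝔓.p i) 𝔓.p).toRingHom.toAlgebra P1 P :=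
  t4ec_step_X_alpha lo up hl (t4cy_irreducible_p 𝔓) (t4eco_gen 𝔓 N'' hQ i)
    (t4eco_gen 𝔓 N'' hQ (i + 1)) P1 P hvals1 hB1 hB

include hl hQ in
/-- **`valsA`** -/
theorem t4eco_valsA
    (hvals1 : P1.vals = t4vpHor ↥(tbFix 𝔓 ⊤) (t4ecX ↥(tbFix 𝔓 ⊤) N'' 𝔓.p i Q) ∪ lo.ver)
    (hvals : P.vals = t4vpHor ↥(tbFix 𝔓 ⊤) (t4ecX ↥(tbFix 𝔓 ⊤) N'' 𝔓.p (i + 1) Q) ∪ up.ver) :
    ∀ V ∈ P.vals,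
      V.comap (heckeAlphaBar ↥(tbFix 𝔓 ⊤) (t4eLev N'' 𝔓.p i) 𝔓.p).toRingHom ∈ P1.vals :=
  t4ec_vals_X_alpha lo up hl (t4eco_gen 𝔓 N'' hQ i) (t4eco_gen 𝔓 N'' hQ (i + 1)) P1 P hvals1 hvals

include hl hQ in
/-- **`presB`** -/
theorem t4eco_presB {Wlo : T4eAL ↥(tbFix 𝔓 ⊤) N'' 𝔓.p i} {Wup : T4eAL ↥(tbFix 𝔓 ⊤) N'' 𝔓.p (i + 1)}
    (hslo : T4eSym lo Wlo) (hsup : T4eSym up Wup)
    (hW : ∀ f : ↥(TaF ↥(tbFix 𝔓 ⊤) (t4eLev N'' 𝔓.p i)),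
      Wup.w (heckeAlphaBar ↥(tbFix 𝔓 ⊤) (t4eLev N'' 𝔓.p i) 𝔓.p f) =
        heckeBetaBar ↥(tbFix 𝔓 ⊤) (t4eLev N'' 𝔓.p i) 𝔓.p (Wlo.w f))
    (hvals1 : P1.vals = t4vpHor ↥(tbFix 𝔓 ⊤) (t4ecX ↥(tbFix 𝔓 ⊤) N'' 𝔓.p i Q) ∪ lo.ver)
    (hB1 : ∀ f, f ∈ P1.B ↔
      f ∈ t2Int (K := ↥(tbFix 𝔓 ⊤)) (t4ecX ↥(tbFix 𝔓 ⊤) N'' 𝔓.p i Q) ∧ f ∈ lo.Ov)
    (hB : ∀ f, f ∈ P.B ↔
      f ∈ t2Int (K := ↥(tbFix 𝔓 ⊤)) (t4ecX ↥(tbFix 𝔓 ⊤) N'' 𝔓.p (i + 1) Q) ∧ f ∈ up.Ov) :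
    @T4PresOver _ _ _ _
      (heckeBetaBar ↥(tbFix 𝔓 ⊤) (t4eLev N'' 𝔓.p i) 𝔓.p).toRingHom.toAlgebra P1 P :=
  t4ec_step_X_beta lo up hl hQ (t4cy_irreducible_p 𝔓) hslo hsup hW (t4eco_hJY 𝔓)
    (t4eco_hYJ 𝔓) (t4eco_gen 𝔓 N'' hQ i) (t4eco_gen 𝔓 N'' hQ (i + 1)) P1 P hvals1 hB1 hB

include hl hQ in
/-- **`valsB`** -/
theorem t4eco_valsB
    (hvals1 : P1.vals = t4vpHor ↥(tbFix 𝔓 ⊤) (t4ecX ↥(tbFix 𝔓 ⊤) N'' 𝔓.p i Q) ∪ lo.ver)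
    (hvals : P.vals = t4vpHor ↥(tbFix 𝔓 ⊤) (t4ecX ↥(tbFix 𝔓 ⊤) N'' 𝔓.p (i + 1) Q) ∪ up.ver) :
    ∀ V ∈ P.vals,
      V.comap (heckeBetaBar ↥(tbFix 𝔓 ⊤) (t4eLev N'' 𝔓.p i) 𝔓.p).toRingHom ∈ P1.vals :=
  t4ec_vals_X_beta lo up hl hQ (t4eco_hYJ 𝔓) (t4eco_gen 𝔓 N'' hQ i)
    (t4eco_gen 𝔓 N'' hQ (i + 1)) P1 P hvals1 hvals

end Fix

end Fermat.Agent.T4
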